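/-
S56, block F (FLAT), leaf [FL-B] "Kummer form of Fontaine's ramification bound":
the two INTERFACE definitions shared by [FL-A] (producer of `FontaineProp`), [FL-B]
(`FontaineProp L → IsPeuRamifie L` for `L/ℚ_p` finite Galois, `p` odd) and [FL-C]
(consumer of `IsPeuRamifie`).  Paper proof: `moonshots` row 51 (helper20), refereed by
helper6 (#2375) and lead (#2437).

Vocabulary = S55 `LocalInt` / `GL/PlacesDVR`: a finite extension of `ℚ_p` is an
`E : IntermediateField ℚ_[p] (PadicAlgCl p)`, its ring of integers is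
`integralClosure ℤ_[p] E` (a complete DVR with finite residue field and fraction field `E`, by the
instances of `Fermat.Agent.S55.GL.PlacesDVR`).  All exponents are INTEGERS: if
`(p) = 𝔪_E ^ e` then the ideal `{x : v(x) ≥ m}` (`v(p) = 1`, `m` real) is `𝔪_E ^ ⌈e m⌉`, so
"`(P_m)` for all real `m > p/(p-1)`" is "for all `k` with `p e < (p-1) k`".
-/
import Mathlib
import Fermat.Agent.S55.GL.PlacesDVR

set_option autoImplicit false

namespace Fermat.Agent.S56.Flat.KummerBound

open IsLocalRing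

variable (p : ℕ) [Fact p.Prime]

/-- **Fontaine's property** `(P_m)` for all real `m > p/(p-1)`, in integer form:
for every finite `E/ℚ_p` (inside `PadicAlgCl p`) with `(p) = 𝔪_E ^ e` and every `k` with
`p * e < (p - 1) * k`, the existence of a ring homomorphism `𝒪_L → 𝒪_E / 𝔪_E ^ k` forces
`L ⊆ E`. -/
def FontaineProp (L : IntermediateField ℚ_[p] (PadicAlgCl p)) : Prop :=
  ∀ (E : IntermediateField ℚ_[p] (PadicAlgCl p)) [FiniteDimensional ℚ_[p] E] (e k : ℕ),
    Ideal.span {((p : ℕ) : integralClosure ℤ_[p] E)} =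
        maximalIdeal (integralClosure ℤ_[p] E) ^ e →
    p * e < (p - 1) * k →
    Nonempty (integralClosure ℤ_[p] L →+*
      integralClosure ℤ_[p] E ⧸ maximalIdeal (integralClosure ℤ_[p] E) ^ k) →
    L ≤ E

/-- **Kummer generators inside `L` are "peu ramifiés"**: for every subfield `F ⊆ L` finite over
`ℚ_p` containing a primitive `p`-th root of unity, with `(p) = 𝔪_F ^ e`, every `w ∈ F^×` which
has a `p`-th root in `L` is of the form `u * z ^ p` with `z ∈ F^×` and `u ≡ 1 mod 𝔪_F ^ e`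
(i.e. `w ∈ U_F^{(e)} · F^{×p}`, `U_F^{(e)} = 1 + p 𝒪_F`). -/
def IsPeuRamifie (L : IntermediateField ℚ_[p] (PadicAlgCl p)) : Prop :=
  ∀ (F : IntermediateField ℚ_[p] (PadicAlgCl p)) [FiniteDimensional ℚ_[p] F], F ≤ L →
    ∀ (ζ : F), IsPrimitiveRoot ζ p →
    ∀ (e : ℕ), Ideal.span {((p : ℕ) : integralClosure ℤ_[p] F)} =
        maximalIdeal (integralClosure ℤ_[p] F) ^ e →
    ∀ (w : F), w ≠ 0 → (∃ x : PadicAlgCl p, x ∈ L ∧ x ^ p = (w : PadicAlgCl p)) →
      ∃ (u : integralClosure ℤ_[p] F) (z : F),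
        u - 1 ∈ maximalIdeal (integralClosure ℤ_[p] F) ^ e ∧ z ≠ 0 ∧ w = (u : F) * z ^ p

variable {p}

theorem FontaineProp.mono_hom {L : IntermediateField ℚ_[p] (PadicAlgCl p)}
    (hL : FontaineProp p L) (E : IntermediateField ℚ_[p] (PadicAlgCl p))
    [FiniteDimensional ℚ_[p] E] {e k k' : ℕ}
    (he : Ideal.span {((p : ℕ) : integralClosure ℤ_[p] E)} =
        maximalIdeal (integralClosure ℤ_[p] E) ^ e)
    (hk : p * e < (p - 1) * k) (hkk' : k ≤ k')
    (f : integralClosure ℤ_[p] L →+*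
      integralClosure ℤ_[p] E ⧸ maximalIdeal (integralClosure ℤ_[p] E) ^ k') : L ≤ E :=
  hL E e k he hk
    ⟨(Ideal.Quotient.factor (Ideal.pow_le_pow_right hkk')).comp f⟩

end Fermat.Agent.S56.Flat.KummerBound
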