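/-
S56, block F (FLAT), leaf [FLB-Comb]: the abstract combinatorics of the Kummer form of Fontaine's
ramification bound (`moonshots` row 51, steps (B1)-core, (B2), (B3b), (B3c) and the final
arithmetic), for a discrete valuation ring `B` with a finite group `G` acting by ring
automorphisms.  Mathlib only.

`iFun ϖ σ := addVal B (σ • ϖ - ϖ)` is the ramification function attached to an element `ϖ`
(in the application a uniformiser of `B = 𝒪_L`, `G = Gal(L/K₀)` the inertia group).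

* `sum_addVal_add_one_ne` : (B1)-core.  For every `β`,
  `∑ σ, v (β - σ • ϖ) + 1 ≠ ∑_{ρ ≠ 1} i ρ + i ρ₀` (`ρ₀ ≠ 1` with `i ρ₀` maximal).
* `addVal_le_sum_iFun_coset` : (B3b).  `v (σ y - y) ≤ ∑_{τ ∈ H} i (σ τ)` when the `H`-fixed
  elements are polynomials in `y` over a subring fixed by `σ`.
* `le_sum_add` : (B2) + (B3c) + sum over the cosets of `H` in `P`.
* `le_of_bounds` : the final arithmetic `e ≤ i`.
-/
import Mathlib

set_option autoImplicit false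
set_option linter.unusedSectionVars false

namespace Fermat.Agent.S56.Flat.KummerBound.Comb

open IsLocalRing
open IsDiscreteValuationRing (addVal)

/-! ### Pure arithmetic -/

/-- `Ψ(t) := t + ∑_{ρ ∈ s} min t (I ρ)` never takes the value `∑ I + max I - 1`. -/
theorem psi_add_one_ne {α : Type*} (s : Finset α) (I : α → ℕ) (ρ₀ : α) (hρ₀ : ρ₀ ∈ s)
    (hmax : ∀ ρ ∈ s, I ρ ≤ I ρ₀) (t : ℕ) :
    t + ∑ ρ ∈ s, min t (I ρ) + 1 ≠ ∑ ρ ∈ s, I ρ + I ρ₀ := by
  classical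
  rcases le_or_gt (I ρ₀) t with h | h
  · -- `t ≥ i_max`: all minima are `I ρ`
    have : ∑ ρ ∈ s, min t (I ρ) = ∑ ρ ∈ s, I ρ :=
      Finset.sum_congr rfl fun ρ hρ => min_eq_right ((hmax ρ hρ).trans h)
    rw [this]
    omega
  · -- `t < i_max`
    have h1 : ∑ ρ ∈ s, min t (I ρ) =
        min t (I ρ₀) + ∑ ρ ∈ s.erase ρ₀, min t (I ρ) := (Finset.add_sum_erase s _ hρ₀).symm
    have h2 : ∑ ρ ∈ s, I ρ = I ρ₀ + ∑ ρ ∈ s.erase ρ₀, I ρ := (Finset.add_sum_erase s _ hρ₀).symm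
    have h3 : ∑ ρ ∈ s.erase ρ₀, min t (I ρ) ≤ ∑ ρ ∈ s.erase ρ₀, I ρ :=
      Finset.sum_le_sum fun ρ _ => min_le_right _ _
    have h4 : min t (I ρ₀) = t := min_eq_left h.le
    rw [h1, h2, h4]
    omega

theorem enat_coe_min (a b : ℕ) : ((min a b : ℕ) : ℕ∞) = min (a : ℕ∞) (b : ℕ∞) := by
  rcases le_total a b with h | h
  · rw [min_eq_left h, min_eq_left (by exact_mod_cast h)]
  · rw [min_eq_right h, min_eq_right (by exact_mod_cast h)]

/-! ### The ramification function -/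

variable {B : Type*} [CommRing B] [IsDomain B] [IsDiscreteValuationRing B]
variable {G : Type*} [Group G] [MulSemiringAction G B]

theorem addVal_ringEquiv (f : B ≃+* B) (x : B) : addVal B (f x) = addVal B x := by
  by_cases hx : x = 0
  · rw [hx, map_zero]
  obtain ⟨ϖ, hϖ⟩ := IsDiscreteValuationRing.exists_irreducible B
  obtain ⟨n, u, hu⟩ := IsDiscreteValuationRing.eq_unit_mul_pow_irreducible hx hϖ
  have hϖ' : Irreducible (f ϖ) := (MulEquiv.irreducible_iff (f : B ≃* B)).2 hϖ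
  rw [IsDiscreteValuationRing.addVal_def x u hϖ n hu,
    IsDiscreteValuationRing.addVal_def (f x) (Units.map (f : B →* B) u) hϖ' n
      (by rw [hu, map_mul, map_pow]; rfl)]

theorem addVal_smul (σ : G) (x : B) : addVal B (σ • x) = addVal B x :=
  addVal_ringEquiv (MulSemiringAction.toRingEquiv G B σ) x

theorem addVal_sub_comm (x y : B) : addVal B (x - y) = addVal B (y - x) := by
  rw [← neg_sub, AddValuation.map_neg]

/-- The ramification function of `ϖ`. -/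
noncomputable def iFun (ϖ : B) (σ : G) : ℕ∞ := addVal B (σ • ϖ - ϖ)

theorem iFun_one (ϖ : B) : iFun ϖ (1 : G) = ⊤ := by
  rw [iFun, one_smul, sub_self, IsDiscreteValuationRing.addVal_zero]

theorem iFun_ne_top {ϖ : B} {σ : G} (h : σ • ϖ ≠ ϖ) : iFun ϖ σ ≠ ⊤ := by
  rw [iFun, Ne, IsDiscreteValuationRing.addVal_eq_top_iff, sub_eq_zero]
  exact h

theorem one_le_iFun {ϖ : B} (hϖ : ϖ ∈ maximalIdeal B) (σ : G) : 1 ≤ iFun ϖ σ := by
  have h1 : σ • ϖ ∈ maximalIdeal B := by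
    rw [mem_maximalIdeal, mem_nonunits_iff] at hϖ ⊢
    intro hu
    apply hϖ
    have := hu.map (MulSemiringAction.toRingEquiv G B σ⁻¹)
    simpa using this
  have h2 : σ • ϖ - ϖ ∈ maximalIdeal B := Ideal.sub_mem _ h1 hϖ
  obtain ⟨π, hπ⟩ := IsDiscreteValuationRing.exists_irreducible B
  rw [hπ.maximalIdeal_eq, Ideal.mem_span_singleton] at h2
  rw [iFun, ← IsDiscreteValuationRing.addVal_uniformizer hπ,
    IsDiscreteValuationRing.addVal_le_iff_dvd]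
  exact h2

/-- `v (σ ϖ - τ ϖ) = i (σ⁻¹ τ)`. -/
theorem addVal_smul_sub_smul (ϖ : B) (σ τ : G) :
    addVal B (σ • ϖ - τ • ϖ) = iFun ϖ (σ⁻¹ * τ) := by
  have : σ • ϖ - τ • ϖ = -(σ • ((σ⁻¹ * τ) • ϖ - ϖ)) := by
    rw [smul_sub, smul_smul, mul_inv_cancel_left]
    ring
  rw [this, AddValuation.map_neg, addVal_smul, iFun]

theorem min_le_iFun_mul (ϖ : B) (σ τ : G) : min (iFun ϖ σ) (iFun ϖ τ) ≤ iFun ϖ (σ * τ) := by
  have : (σ * τ) • ϖ - ϖ = (σ • ϖ - ϖ) + σ • (τ • ϖ - ϖ) := by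
    rw [smul_sub, mul_smul]
    ring
  simp only [iFun]
  rw [this]
  refine le_trans ?_ IsDiscreteValuationRing.addVal_add
  rw [addVal_smul]

/-! ### (B1)-core -/

section Count

variable [Fintype G] [DecidableEq G]

/-- `iFun` as a natural number (meaningful for `σ • ϖ ≠ ϖ`). -/
noncomputable def iNat (ϖ : B) (σ : G) : ℕ := (iFun ϖ σ).toNat

omit [Fintype G] [DecidableEq G] in
theorem coe_iNat {ϖ : B} {σ : G} (h : σ • ϖ ≠ ϖ) : ((iNat ϖ σ : ℕ) : ℕ∞) = iFun ϖ σ :=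
  ENat.natCast_toNat (iFun_ne_top h)

theorem sum_erase_iFun (ϖ : B) (hfaith : ∀ σ : G, σ ≠ 1 → σ • ϖ ≠ ϖ) :
    ∑ ρ ∈ Finset.univ.erase (1 : G), iFun ϖ ρ =
      ((∑ ρ ∈ Finset.univ.erase (1 : G), iNat ϖ ρ : ℕ) : ℕ∞) := by
  rw [Nat.cast_sum]
  exact Finset.sum_congr rfl fun ρ hρ => (coe_iNat (hfaith ρ (Finset.ne_of_mem_erase hρ))).symm

/-- **(B1)-core.** If `ρ₀ ≠ 1` maximises `i`, then for every `β` the number
`∑ σ, v (β - σ ϖ)` is different from `∑_{ρ ≠ 1} i ρ + i ρ₀ - 1`. -/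
theorem sum_addVal_add_one_ne (ϖ β : B) (hfaith : ∀ σ : G, σ ≠ 1 → σ • ϖ ≠ ϖ)
    (ρ₀ : G) (hρ₀ : ρ₀ ≠ 1) (hmax : ∀ ρ : G, ρ ≠ 1 → iFun ϖ ρ ≤ iFun ϖ ρ₀) :
    (∑ σ : G, addVal B (β - σ • ϖ)) + 1 ≠
      (∑ ρ ∈ Finset.univ.erase (1 : G), iFun ϖ ρ) + iFun ϖ ρ₀ := by
  classical
  obtain ⟨σ₀, -, hσ₀⟩ := Finset.exists_max_image (Finset.univ : Finset G)
    (fun σ => addVal B (β - σ • ϖ)) ⟨1, Finset.mem_univ _⟩
  set t : ℕ∞ := addVal B (β - σ₀ • ϖ) with ht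
  -- the key ultrametric computation
  have key : ∀ σ : G, addVal B (β - σ • ϖ) = min t (iFun ϖ (σ₀⁻¹ * σ)) := by
    intro σ
    have hdec : β - σ • ϖ = (β - σ₀ • ϖ) + (σ₀ • ϖ - σ • ϖ) := by ring
    have hj : addVal B (σ₀ • ϖ - σ • ϖ) = iFun ϖ (σ₀⁻¹ * σ) := addVal_smul_sub_smul ϖ σ₀ σ
    rcases lt_or_ge (iFun ϖ (σ₀⁻¹ * σ)) t with h | h
    · rw [min_eq_right h.le, hdec, AddValuation.map_add_eq_of_lt_right _ (by rw [hj]; exact h), hj]
    · rw [min_eq_left h]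
      refine le_antisymm (hσ₀ σ (Finset.mem_univ _)) ?_
      rw [hdec]
      refine le_trans ?_ (AddValuation.map_add _ _ _)
      rw [hj]
      exact le_min le_rfl h
  have hsum : ∑ σ : G, addVal B (β - σ • ϖ) =
      t + ∑ ρ ∈ Finset.univ.erase (1 : G), min t (iFun ϖ ρ) := by
    calc ∑ σ : G, addVal B (β - σ • ϖ) = ∑ σ : G, min t (iFun ϖ (σ₀⁻¹ * σ)) :=
          Finset.sum_congr rfl fun σ _ => key σ
      _ = ∑ ρ : G, min t (iFun ϖ ρ) :=
          Fintype.sum_equiv (Equiv.mulLeft σ₀⁻¹) _ _ fun σ => rfl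
      _ = min t (iFun ϖ 1) + ∑ ρ ∈ Finset.univ.erase (1 : G), min t (iFun ϖ ρ) :=
          (Finset.add_sum_erase _ _ (Finset.mem_univ _)).symm
      _ = _ := by rw [iFun_one, min_eq_left le_top]
  rw [hsum, sum_erase_iFun ϖ hfaith, ← coe_iNat (hfaith ρ₀ hρ₀)]
  rcases eq_or_ne t ⊤ with htop | htop
  · rw [htop, top_add, top_add]
    exact (ENat.natCast_ne_top _).symm
  · obtain ⟨t', ht'⟩ := ENat.ne_top_iff_exists.1 htop
    rw [← ht']
    have hmin : ∑ ρ ∈ Finset.univ.erase (1 : G), min (t' : ℕ∞) (iFun ϖ ρ) =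
        ((∑ ρ ∈ Finset.univ.erase (1 : G), min t' (iNat ϖ ρ) : ℕ) : ℕ∞) := by
      rw [Nat.cast_sum]
      refine Finset.sum_congr rfl fun ρ hρ => ?_
      rw [← coe_iNat (hfaith ρ (Finset.ne_of_mem_erase hρ))]
      exact (enat_coe_min _ _).symm
    rw [hmin]
    have hnat := psi_add_one_ne (Finset.univ.erase (1 : G)) (iNat ϖ) ρ₀
      (Finset.mem_erase.2 ⟨hρ₀, Finset.mem_univ _⟩)
      (fun ρ hρ => by
        have h1 := hmax ρ (Finset.ne_of_mem_erase hρ)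
        rw [← coe_iNat (hfaith ρ (Finset.ne_of_mem_erase hρ)), ← coe_iNat (hfaith ρ₀ hρ₀)] at h1
        exact_mod_cast h1) t'
    intro h
    apply hnat
    exact_mod_cast h

end Count

/-! ### (B3b) -/

section Coset

open Polynomial

theorem addVal_prod {ι : Type*} (s : Finset ι) (f : ι → B) :
    addVal B (∏ j ∈ s, f j) = ∑ j ∈ s, addVal B (f j) := by
  classical
  induction s using Finset.induction_on with
  | empty => simp
  | insert a s ha ih =>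
    rw [Finset.prod_insert ha, Finset.sum_insert ha, IsDiscreteValuationRing.addVal_mul, ih]

/-- If `c` is a polynomial in `y` with coefficients fixed by `σ`, then `σ y - y ∣ σ c - c`. -/
theorem smul_sub_dvd_of_mem_adjoin (σ : G) (R : Subring B) (hR : ∀ r ∈ R, σ • r = r) (y : B)
    {c : B} (hc : c ∈ Algebra.adjoin R {y}) : σ • y - y ∣ σ • c - c := by
  induction hc using Algebra.adjoin_induction with
  | mem x hx =>
    rw [Set.mem_singleton_iff] at hx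
    rw [hx]
  | algebraMap r =>
    have : σ • (algebraMap R B r) = algebraMap R B r := hR _ r.2
    rw [this, sub_self]
    exact dvd_zero _
  | add a b _ _ iha ihb =>
    have : σ • (a + b) - (a + b) = (σ • a - a) + (σ • b - b) := by rw [smul_add]; ring
    rw [this]
    exact dvd_add iha ihb
  | mul a b _ _ iha ihb =>
    have : σ • (a * b) - a * b = σ • a * (σ • b - b) + (σ • a - a) * b := by rw [smul_mul']; ring
    rw [this]
    exact dvd_add (Dvd.dvd.mul_left ihb _) (Dvd.dvd.mul_right iha _)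

variable [Fintype G] [DecidableEq G]

/-- **(B3b).** `H ≤ G` a subgroup such that every `H`-fixed element of `B` is a polynomial in
`y` with coefficients in a subring `R` fixed by `σ`.  Then
`v (σ y - y) ≤ ∑_{τ ∈ H} i (σ τ)`. -/
theorem addVal_le_sum_iFun_coset (ϖ : B) (H : Subgroup G) [DecidablePred (· ∈ H)] (σ : G)
    (R : Subring B) (hR : ∀ r ∈ R, σ • r = r) (y : B)
    (hy : ∀ b : B, (∀ τ ∈ H, τ • b = b) → b ∈ Algebra.adjoin R {y}) :
    addVal B (σ • y - y) ≤ ∑ τ : H, iFun ϖ (σ * (τ : G)) := by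
  classical
  set f : B[X] := ∏ τ : H, (X - C ((τ : G) • ϖ)) with hf
  -- `f` is fixed by `H`
  have hfix : ∀ ρ ∈ H, ρ • f = f := by
    intro ρ hρ
    rw [hf, Finset.smul_prod']
    simp only [smul_sub, smul_X, smul_C, smul_smul]
    exact Fintype.prod_equiv (Equiv.mulLeft (⟨ρ, hρ⟩ : H)) _ _ fun τ => rfl
  have hcoeff : ∀ k, f.coeff k ∈ Algebra.adjoin R {y} := by
    intro k
    apply hy
    intro ρ hρ
    rw [← coeff_smul, hfix ρ hρ]
  -- `σ y - y` divides all coefficients of `σ f - f`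
  have hdvd : C (σ • y - y) ∣ σ • f - f := by
    rw [C_dvd_iff_dvd_coeff]
    intro k
    rw [coeff_sub, coeff_smul]
    exact smul_sub_dvd_of_mem_adjoin σ R hR y (hcoeff k)
  have hev0 : f.eval ϖ = 0 := by
    rw [hf, eval_prod]
    refine Finset.prod_eq_zero (Finset.mem_univ (1 : H)) ?_
    simp
  have hev : (σ • f).eval ϖ = ∏ τ : H, (ϖ - (σ * (τ : G)) • ϖ) := by
    rw [hf, Finset.smul_prod', eval_prod]
    refine Finset.prod_congr rfl fun τ _ => ?_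
    simp only [smul_sub, smul_X, smul_C, smul_smul, eval_sub, eval_X, eval_C]
  have h1 : σ • y - y ∣ (σ • f).eval ϖ := by
    have := eval_dvd (x := ϖ) hdvd
    rwa [eval_C, eval_sub, hev0, sub_zero] at this
  have h2 := IsDiscreteValuationRing.addVal_le_iff_dvd.2 h1
  rw [hev, addVal_prod] at h2
  refine h2.trans (le_of_eq ?_)
  refine Finset.sum_congr rfl fun τ _ => ?_
  rw [addVal_sub_comm]
  rfl

end Coset

/-! ### (B2) + (B3c) + sum over cosets -/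

section Cosets

theorem iFun_inv (ϖ : B) (σ : G) : iFun ϖ σ⁻¹ = iFun ϖ σ := by
  have : σ⁻¹ • ϖ - ϖ = σ⁻¹ • (ϖ - σ • ϖ) := by rw [smul_sub, smul_smul, inv_mul_cancel, one_smul]
  rw [iFun, this, addVal_smul, addVal_sub_comm, iFun]

theorem enat_le_of_nsmul_le {n : ℕ} (hn : n ≠ 0) {a b : ℕ∞} (h : n • b ≤ n • a) : b ≤ a := by
  rcases eq_or_ne a ⊤ with rfl | ha
  · exact le_top
  obtain ⟨a', rfl⟩ := ENat.ne_top_iff_exists.1 ha
  rcases eq_or_ne b ⊤ with rfl | hb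
  · exfalso
    rw [nsmul_eq_mul, nsmul_eq_mul, ENat.mul_top (by exact_mod_cast hn)] at h
    rw [top_le_iff] at h
    exact ENat.natCast_ne_top (n * a') (by rw [← h]; push_cast; rfl)
  obtain ⟨b', rfl⟩ := ENat.ne_top_iff_exists.1 hb
  rw [nsmul_eq_mul, nsmul_eq_mul] at h
  have h' : n * b' ≤ n * a' := by exact_mod_cast h
  exact_mod_cast Nat.le_of_mul_le_mul_left h' (Nat.pos_of_ne_zero hn)

variable [Fintype G] [DecidableEq G]

/-- Sum over the cosets of `H` in `P` (double counting). -/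
theorem card_mul_le_sum_of_coset_sums (P H : Subgroup G) [DecidablePred (· ∈ H)]
    [DecidablePred (· ∈ P)] (hHP : H ≤ P) (g : G → ℕ∞) (A : ℕ∞)
    (hS : ∀ σ ∈ P, A ≤ ∑ τ : H, g (σ * (τ : G))) :
    (H.relIndex P : ℕ∞) * A ≤ ∑ ρ : P, g ρ := by
  classical
  have hcard : Fintype.card H * H.relIndex P = Fintype.card P := by
    have h1 := Subgroup.card_mul_index (H.subgroupOf P)
    rw [Nat.card_congr (Subgroup.subgroupOfEquivOfLe hHP).toEquiv] at h1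
    rw [Subgroup.relIndex, ← Nat.card_eq_fintype_card, ← Nat.card_eq_fintype_card]
    exact h1
  have hH0 : Fintype.card H ≠ 0 := Fintype.card_ne_zero
  apply enat_le_of_nsmul_le hH0
  calc Fintype.card H • ((H.relIndex P : ℕ∞) * A)
      = Fintype.card P • A := by
        rw [nsmul_eq_mul, nsmul_eq_mul, ← mul_assoc, ← hcard]
        push_cast
        rfl
    _ ≤ ∑ σ : P, ∑ τ : H, g ((σ : G) * (τ : G)) := by
        have := Finset.card_nsmul_le_sum (Finset.univ : Finset P)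
          (fun σ => ∑ τ : H, g ((σ : G) * (τ : G))) A (fun σ _ => hS σ σ.2)
        simpa using this
    _ = ∑ τ : H, ∑ σ : P, g ((σ : G) * (τ : G)) := Finset.sum_comm
    _ = ∑ τ : H, ∑ ρ : P, g ρ := by
        refine Finset.sum_congr rfl fun τ _ => ?_
        exact Fintype.sum_equiv (Equiv.mulRight (⟨τ, hHP τ.2⟩ : P)) _ _ fun σ => rfl
    _ = Fintype.card H • ∑ ρ : P, g ρ := by
        rw [Finset.sum_const, Finset.card_univ]

/-- **(B2) + (B3c).** Lower bound for `∑_{ρ ≠ 1} i ρ + M` (`M` an upper bound of `i` on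
`P ∖ 1`) from lower bounds `A` for the coset sums `∑_{τ ∈ H} i (σ τ)`, `σ ∈ P ∖ H`. -/
theorem le_sum_add (ϖ : B) (hϖ : ϖ ∈ maximalIdeal B)
    (P H : Subgroup G) [DecidablePred (· ∈ H)] [DecidablePred (· ∈ P)]
    (hHP : H ≤ P) (hidx : 2 ≤ H.relIndex P) (A : ℕ∞)
    (hA : ∀ σ ∈ P, σ ∉ H → A ≤ ∑ τ : H, iFun ϖ (σ * (τ : G)))
    (M : ℕ∞) (hM : ∀ ρ ∈ P, ρ ≠ 1 → iFun ϖ ρ ≤ M) :
    ((Fintype.card G - Fintype.card P : ℕ) : ℕ∞) + (H.relIndex P : ℕ∞) * A ≤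
      (∑ ρ ∈ Finset.univ.erase (1 : G), iFun ϖ ρ) + M := by
  classical
  set g : G → ℕ∞ := fun ρ => min M (iFun ϖ ρ) with hg
  -- there is a non-trivial coset
  obtain ⟨σ₁, hσ₁P, hσ₁H⟩ : ∃ σ₁ ∈ P, σ₁ ∉ H := by
    by_contra hcon
    push Not at hcon
    have : H.relIndex P = 1 := Subgroup.relIndex_eq_one.2 hcon
    omega
  -- a representative of maximal `i` in that coset
  obtain ⟨τ₀, -, hτ₀⟩ := Finset.exists_max_image (Finset.univ : Finset H)
    (fun τ => iFun ϖ (σ₁ * (τ : G))) ⟨1, Finset.mem_univ _⟩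
  set σ₀ : G := σ₁ * (τ₀ : G) with hσ₀
  have hσ₀P : σ₀ ∈ P := P.mul_mem hσ₁P (hHP τ₀.2)
  have hσ₀H : σ₀ ∉ H := fun h => hσ₁H (by
    have := H.mul_mem h (H.inv_mem τ₀.2)
    rwa [hσ₀, mul_inv_cancel_right] at this)
  have hσ₀max : ∀ τ : H, iFun ϖ (σ₀ * (τ : G)) ≤ iFun ϖ σ₀ := by
    intro τ
    have h1 := hτ₀ (τ₀ * τ) (Finset.mem_univ _)
    have h2 := hτ₀ τ₀ (Finset.mem_univ _)
    simp only [Subgroup.coe_mul, ← mul_assoc] at h1
    have h3 : iFun ϖ σ₀ = iFun ϖ (σ₁ * (τ₀ : G)) := rfl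
    have h4 := hτ₀ 1 (Finset.mem_univ _)
    -- maximality at `τ₀ * τ`
    calc iFun ϖ (σ₀ * (τ : G)) = iFun ϖ (σ₁ * (τ₀ : G) * (τ : G)) := rfl
      _ ≤ iFun ϖ (σ₁ * (τ₀ : G)) := h1
      _ = iFun ϖ σ₀ := rfl
  have hne_one : ∀ σ ∈ P, σ ∉ H → ∀ τ : H, σ * (τ : G) ≠ 1 := by
    intro σ _ hσH τ h
    apply hσH
    have : σ = (τ : G)⁻¹ := eq_inv_of_mul_eq_one_left h
    rw [this]
    exact H.inv_mem τ.2
  -- all coset sums of `g` are at least `A`
  have hS : ∀ σ ∈ P, A ≤ ∑ τ : H, g (σ * (τ : G)) := by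
    intro σ hσP
    by_cases hσH : σ ∈ H
    · -- the trivial coset
      have h1 : ∑ τ : H, g (σ * (τ : G)) = ∑ τ : H, g τ :=
        Fintype.sum_equiv (Equiv.mulLeft (⟨σ, hσH⟩ : H)) _ _ fun τ => rfl
      rw [h1]
      refine (hA σ₀ hσ₀P hσ₀H).trans (Finset.sum_le_sum fun τ _ => ?_)
      refine le_min (hM _ (P.mul_mem hσ₀P (hHP τ.2)) (hne_one σ₀ hσ₀P hσ₀H τ)) ?_
      -- `i (σ₀ τ) ≤ i τ`
      have h2 := min_le_iFun_mul ϖ σ₀⁻¹ (σ₀ * (τ : G))
      rw [inv_mul_cancel_left, iFun_inv, min_eq_right (hσ₀max τ)] at h2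
      exact h2
    · refine (hA σ hσP hσH).trans (Finset.sum_le_sum fun τ _ => ?_)
      exact le_min (hM _ (P.mul_mem hσP (hHP τ.2)) (hne_one σ hσP hσH τ)) le_rfl
  have hcos := card_mul_le_sum_of_coset_sums P H hHP g A hS
  -- (B2): split off the elements outside `P`
  set h : G → ℕ∞ := fun ρ => if ρ ∈ P then g ρ else 1 with hh
  have h1 : ∑ ρ : G, h ρ ≤ (∑ ρ ∈ Finset.univ.erase (1 : G), iFun ϖ ρ) + M := by
    rw [← Finset.sum_erase_add _ _ (Finset.mem_univ (1 : G))]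
    refine add_le_add (Finset.sum_le_sum fun ρ _ => ?_) ?_
    · by_cases hρ : ρ ∈ P
      · simp only [hh, hρ, if_true, hg]
        exact min_le_right _ _
      · simp only [hh, hρ, if_false]
        exact one_le_iFun hϖ ρ
    · simp only [hh, P.one_mem, if_true, hg]
      exact min_le_left _ _
  have h2 : ∑ ρ : G, h ρ = ∑ ρ : P, g ρ + ((Fintype.card G - Fintype.card P : ℕ) : ℕ∞) := by
    rw [hh, Finset.sum_ite, Finset.sum_const, nsmul_eq_mul, mul_one]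
    congr 1
    · exact Finset.sum_subtype _ (fun x => by simp) _
    · have : (Finset.univ.filter fun x : G => x ∉ P).card =
          Fintype.card G - Fintype.card P := by
        rw [← Fintype.card_subtype_compl, Fintype.card_subtype]
      rw [this]
  rw [h2] at h1
  calc ((Fintype.card G - Fintype.card P : ℕ) : ℕ∞) + (H.relIndex P : ℕ∞) * A
      ≤ ((Fintype.card G - Fintype.card P : ℕ) : ℕ∞) + ∑ ρ : P, g ρ := by gcongr
    _ = ∑ ρ : P, g ρ + ((Fintype.card G - Fintype.card P : ℕ) : ℕ∞) := add_comm _ _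
    _ ≤ _ := h1

end Cosets

/-! ### The final arithmetic -/

section Final

/-- Pure arithmetic: `c (e - 1) + c (p ε + 1 - i) ≤ S`, `(p - 1) S ≤ p e c + (p - 1)`,
`e = (p - 1) ε`, `c ≥ 2` imply `e ≤ i`. -/
theorem le_of_arith {p c e ε i S : ℕ} (hp : 2 ≤ p) (hc : 2 ≤ c) (he : e = (p - 1) * ε)
    (h1 : e * c - c + c * (p * ε + 1 - i) ≤ S) (h2 : (p - 1) * S ≤ p * (e * c) + (p - 1)) :
    e ≤ i := by
  by_contra hcon
  push Not at hcon
  obtain ⟨q, rfl⟩ : ∃ q, p = q + 1 := ⟨p - 1, by omega⟩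
  simp only [Nat.add_sub_cancel] at he h2
  have hq : 1 ≤ q := by omega
  obtain ⟨d, hd⟩ : ∃ d, e = i + 1 + d := ⟨e - i - 1, by omega⟩
  -- `i ≤ p ε`
  have hε : e ≤ (q + 1) * ε := by rw [he]; nlinarith
  have hsub : (q + 1) * ε + 1 - i = (q + 1) * ε + 1 - i := rfl
  obtain ⟨m, hm⟩ : ∃ m, (q + 1) * ε + 1 = i + m := ⟨(q + 1) * ε + 1 - i, by omega⟩
  have hm' : (q + 1) * ε + 1 - i = m := by omega
  rw [hm'] at h1
  have hec : c ≤ e * c := by nlinarith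
  obtain ⟨r, hr⟩ : ∃ r, e * c = c + r := ⟨e * c - c, by omega⟩
  have hr' : e * c - c = r := by omega
  rw [hr'] at h1
  -- now everything is subtraction free; move to `ℤ`
  zify at h1 h2 he hd hm hr hc hq
  have key : (q : ℤ) * ((r : ℤ) + c * m) ≤ q * S := mul_le_mul_of_nonneg_left h1 (by positivity)
  have e1 : (r : ℤ) = e * c - c := by linarith
  have e2 : (m : ℤ) = (q + 1) * ε + 1 - i := by linarith
  have e3 : (i : ℤ) = e - 1 - d := by linarith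
  rw [e1, e2, e3] at key
  have hd0 : (0 : ℤ) ≤ d := by positivity
  have hcq : (2 : ℤ) * q ≤ c * q := by nlinarith
  nlinarith [mul_nonneg (mul_nonneg (by positivity : (0 : ℤ) ≤ q) (by positivity : (0 : ℤ) ≤ c)) hd0]

variable [Fintype G] [DecidableEq G]

/-- **The abstract Kummer bound.** `G` acts faithfully on `ϖ ∈ 𝔪_B`; `H ≤ P ≤ G` with
`[P : H] = p`; `#G = e · #P`, `e = (p - 1) ε`.  If the Fontaine–Krasner inequality (B1)
`(p - 1)(∑_{ρ ≠ 1} i ρ + i_max) ≤ p · #G + (p - 1)` holds and all coset sums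
`∑_{τ ∈ H} i (σ τ)`, `σ ∈ P ∖ H`, are at least `#H · (p ε + 1 - i)`, then `e ≤ i`. -/
theorem le_of_bounds {p : ℕ} (hp : 2 ≤ p) (ϖ : B) (hϖ : ϖ ∈ maximalIdeal B)
    (hfaith : ∀ σ : G, σ ≠ 1 → σ • ϖ ≠ ϖ)
    (P H : Subgroup G) [DecidablePred (· ∈ H)] [DecidablePred (· ∈ P)] (hHP : H ≤ P)
    (hidx : H.relIndex P = p) (e ε i : ℕ)
    (hnP : Fintype.card G = e * Fintype.card P) (he : e = (p - 1) * ε)
    (hB1 : ∀ ρ₀ : G, ρ₀ ≠ 1 → (∀ ρ : G, ρ ≠ 1 → iFun ϖ ρ ≤ iFun ϖ ρ₀) →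
      ((p - 1 : ℕ) : ℕ∞) * ((∑ ρ ∈ Finset.univ.erase (1 : G), iFun ϖ ρ) + iFun ϖ ρ₀) ≤
        ((p * Fintype.card G + (p - 1) : ℕ) : ℕ∞))
    (hA : ∀ σ ∈ P, σ ∉ H →
      ((Fintype.card H * (p * ε + 1 - i) : ℕ) : ℕ∞) ≤ ∑ τ : H, iFun ϖ (σ * (τ : G))) :
    e ≤ i := by
  classical
  have hcard : Fintype.card H * p = Fintype.card P := by
    have h1 := Subgroup.card_mul_index (H.subgroupOf P)
    rw [Nat.card_congr (Subgroup.subgroupOfEquivOfLe hHP).toEquiv] at h1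
    rw [← hidx, Subgroup.relIndex, ← Nat.card_eq_fintype_card, ← Nat.card_eq_fintype_card]
    exact h1
  have hH1 : 1 ≤ Fintype.card H := Fintype.card_pos
  have hc : 2 ≤ Fintype.card P := by rw [← hcard]; nlinarith
  -- `G` is non-trivial
  obtain ⟨σ₁, hσ₁⟩ : ∃ σ₁ : G, σ₁ ≠ 1 := by
    by_contra hcon
    push Not at hcon
    have : Fintype.card P ≤ 1 := by
      rw [Fintype.card_le_one_iff]
      intro a b
      exact Subtype.ext ((hcon a).trans (hcon b).symm)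
    omega
  obtain ⟨ρ₀, hρ₀mem, hρ₀⟩ := Finset.exists_max_image (Finset.univ.erase (1 : G)) (iFun ϖ)
    ⟨σ₁, Finset.mem_erase.2 ⟨hσ₁, Finset.mem_univ _⟩⟩
  have hρ₀1 : ρ₀ ≠ 1 := Finset.ne_of_mem_erase hρ₀mem
  have hmax : ∀ ρ : G, ρ ≠ 1 → iFun ϖ ρ ≤ iFun ϖ ρ₀ := fun ρ hρ =>
    hρ₀ ρ (Finset.mem_erase.2 ⟨hρ, Finset.mem_univ _⟩)
  have hb1 := hB1 ρ₀ hρ₀1 hmax
  have hlow := le_sum_add ϖ hϖ P H hHP (by omega)
    ((Fintype.card H * (p * ε + 1 - i) : ℕ) : ℕ∞) hA (iFun ϖ ρ₀) (fun ρ _ hρ => hmax ρ hρ)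
  rw [sum_erase_iFun ϖ hfaith, ← coe_iNat (hfaith ρ₀ hρ₀1)] at hb1 hlow
  rw [hidx] at hlow
  set S : ℕ := ∑ ρ ∈ Finset.univ.erase (1 : G), iNat ϖ ρ + iNat ϖ ρ₀ with hS
  have hb1' : (p - 1) * S ≤ p * Fintype.card G + (p - 1) := by exact_mod_cast hb1
  have hlow' : Fintype.card G - Fintype.card P + p * (Fintype.card H * (p * ε + 1 - i)) ≤ S := by
    exact_mod_cast hlow
  refine le_of_arith hp hc he ?_ (by rw [← hnP]; exact hb1')
  rw [← hnP]
  refine le_trans (le_of_eq ?_) hlow'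
  rw [← hcard]
  ring

end Final

end Fermat.Agent.S56.Flat.KummerBound.Comb
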