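/-
S56 / FLAT, [FL-B] STEP 0 (S1) (helper24; row 51 of `moonshots`): **totally ramified extensions of a
complete discrete valuation ring are Eisenstein, and conversely.**

Setting = S55 `Local/CompleteDVR`: `O` a complete DVR with fraction field `F`, `E/F` finite
separable, `B` the integral closure of `O` in `E` (a local ring, hence a DVR).
-/
import Mathlib
import Fermat.Agent.S55.Local.ValExt

set_option autoImplicit false
set_option linter.style.haveILetI false
set_option linter.unusedSectionVars false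

namespace Fermat.Agent.S56.Flat.KummerBound.Eisenstein

open IsLocalRing Polynomial Fermat.Agent.S55.Local

/-! ### (S1a) a totally ramified extension is generated by a uniformiser -/

section Adjoin

variable {O : Type*} [CommRing O] {B : Type*} [CommRing B] [Algebra O B]

/-- if every element of `B` is congruent to an element of `O` modulo `ϖ`, then
`B = ∑_{j<k} O ϖ^j + ϖ^k B` for every `k` -/
theorem top_le_span_sup_pow {ϖ : B}
    (hres : ∀ b : B, ∃ a : O, b - algebraMap O B a ∈ Ideal.span {ϖ}) (k : ℕ) (b : B) :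
    ∃ (c : Fin k → O) (r : B), b = ∑ j : Fin k, algebraMap O B (c j) * ϖ ^ (j : ℕ) + ϖ ^ k * r := by
  induction k generalizing b with
  | zero => exact ⟨Fin.elim0, b, by simp⟩
  | succ k ih =>
    obtain ⟨c, r, hb⟩ := ih b
    obtain ⟨a, ha⟩ := hres r
    obtain ⟨r', hr'⟩ := Ideal.mem_span_singleton.1 ha
    refine ⟨Fin.snoc c a, r', ?_⟩
    rw [Fin.sum_univ_castSucc]
    simp only [Fin.snoc_castSucc, Fin.snoc_last, Fin.val_castSucc, Fin.val_last]
    rw [hb, pow_succ]
    have : r = algebraMap O B a + ϖ * r' := by rw [← hr']; ring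
    rw [this]
    ring

variable [IsLocalRing O] [Module.Finite O B]

/-- **Nakayama**: if `B ≡ O mod ϖ` and `𝔪_O B = (ϖ^e)`, the powers `1, ϖ, …, ϖ^(e-1)` span `B`. -/
theorem span_pow_eq_top {ϖ : B} {e : ℕ}
    (hres : ∀ b : B, ∃ a : O, b - algebraMap O B a ∈ Ideal.span {ϖ})
    (hmap : (maximalIdeal O).map (algebraMap O B) = Ideal.span {ϖ ^ e}) :
    Submodule.span O (Set.range fun j : Fin e => ϖ ^ (j : ℕ)) = ⊤ := by
  apply top_le_iff.1
  apply Submodule.le_of_le_smul_of_le_jacobson_bot (I := maximalIdeal O) Module.Finite.fg_top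
    (IsLocalRing.maximalIdeal_le_jacobson ⊥)
  intro b _
  obtain ⟨c, r, rfl⟩ := top_le_span_sup_pow hres e b
  refine Submodule.add_mem_sup ?_ ?_
  · refine Submodule.sum_mem _ fun j _ => ?_
    rw [← Algebra.smul_def]
    exact Submodule.smul_mem _ _ (Submodule.subset_span ⟨j, rfl⟩)
  · rw [Ideal.smul_top_eq_map]
    change ϖ ^ e * r ∈ (maximalIdeal O).map (algebraMap O B)
    rw [hmap]
    exact Ideal.mul_mem_right _ _ (Ideal.subset_span rfl)

/-- `B = O[ϖ]` -/
theorem adjoin_eq_top {ϖ : B} {e : ℕ}
    (hres : ∀ b : B, ∃ a : O, b - algebraMap O B a ∈ Ideal.span {ϖ})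
    (hmap : (maximalIdeal O).map (algebraMap O B) = Ideal.span {ϖ ^ e}) :
    Algebra.adjoin O {ϖ} = ⊤ := by
  apply top_le_iff.1
  intro b _
  have hb : b ∈ Submodule.span O (Set.range fun j : Fin e => ϖ ^ (j : ℕ)) := by
    rw [span_pow_eq_top hres hmap]; trivial
  have hle : Submodule.span O (Set.range fun j : Fin e => ϖ ^ (j : ℕ))
      ≤ Subalgebra.toSubmodule (Algebra.adjoin O {ϖ}) := by
    rw [Submodule.span_le]
    rintro _ ⟨j, rfl⟩
    exact Subalgebra.pow_mem (Algebra.adjoin O {ϖ}) (Algebra.subset_adjoin (Set.mem_singleton ϖ)) _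
  exact hle hb

/-- the rank of `B` is at most `e` -/
theorem finrank_le {ϖ : B} {e : ℕ}
    (hres : ∀ b : B, ∃ a : O, b - algebraMap O B a ∈ Ideal.span {ϖ})
    (hmap : (maximalIdeal O).map (algebraMap O B) = Ideal.span {ϖ ^ e}) :
    Module.finrank O B ≤ e := by
  have h := finrank_range_le_card (R := O) (fun j : Fin e => ϖ ^ (j : ℕ))
  rw [Set.finrank, span_pow_eq_top hres hmap, finrank_top, Fintype.card_fin] at h
  exact h

end Adjoin

/-! ### the minimal polynomial of a generating uniformiser is Eisenstein -/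

section Minpoly

variable {O : Type*} [CommRing O] [IsDomain O] [IsIntegrallyClosed O] [IsLocalRing O]
  {B : Type*} [CommRing B] [IsDomain B] [Algebra O B] [Module.IsTorsionFree O B]
  [Module.Finite O B]

theorem natDegree_minpoly_eq_finrank {ϖ : B} (hadj : Algebra.adjoin O {ϖ} = ⊤) :
    (minpoly O ϖ).natDegree = Module.finrank O B := by
  have hint : IsIntegral O ϖ := Algebra.IsIntegral.isIntegral ϖ
  rw [(PowerBasis.ofAdjoinEqTop' hint hadj).finrank, PowerBasis.ofAdjoinEqTop'_dim]

/-- if `1, ϖ, …, ϖ^(n-1)` span `B`, `n = rank B = deg (minpoly ϖ)` and `ϖ^n ∈ 𝔪_O B`, then the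
minimal polynomial of `ϖ` is weakly Eisenstein -/
theorem minpoly_isWeaklyEisensteinAt {ϖ : B} {n : ℕ}
    (hdeg : (minpoly O ϖ).natDegree = n)
    (hspan : Submodule.span O (Set.range fun j : Fin n => ϖ ^ (j : ℕ)) = ⊤)
    (hpow : ϖ ^ n ∈ (maximalIdeal O).map (algebraMap O B)) :
    (minpoly O ϖ).IsWeaklyEisensteinAt (maximalIdeal O) := by
  have hint : IsIntegral O ϖ := Algebra.IsIntegral.isIntegral ϖ
  have h1 : ϖ ^ n ∈ (maximalIdeal O) • (⊤ : Submodule O B) := by
    rw [Ideal.smul_top_eq_map]; exact hpow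
  rw [← hspan, Submodule.mem_ideal_smul_span_iff_exists_sum] at h1
  obtain ⟨a, ha, hsum⟩ := h1
  rw [Finsupp.sum_fintype a _ (fun i => zero_smul O (ϖ ^ (i : ℕ)))] at hsum
  -- the polynomial `P = X^n - ∑ a_j X^j`
  set S : O[X] := ∑ j : Fin n, C (a j) * X ^ (j : ℕ) with hS
  have hSdeg : S.degree < (n : WithBot ℕ) := by
    rw [degree_lt_iff_coeff_zero]
    intro m hm
    rw [hS, finsetSum_coeff]
    refine Finset.sum_eq_zero fun j _ => ?_
    rw [coeff_C_mul_X_pow, if_neg]
    have := j.2
    omega
  have hPmonic : (X ^ n - S).Monic := monic_X_pow_sub hSdeg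
  have hPdeg : (X ^ n - S).natDegree = n := by
    apply natDegree_eq_of_degree_eq_some
    rw [degree_sub_eq_left_of_degree_lt (by rwa [degree_X_pow]), degree_X_pow]
  have hPev : aeval ϖ (X ^ n - S) = 0 := by
    rw [map_sub, map_pow, aeval_X, hS, map_sum, ← hsum, sub_eq_zero]
    refine Finset.sum_congr rfl fun j _ => ?_
    rw [map_mul, aeval_C, map_pow, aeval_X, Algebra.smul_def]
  have hdvd : minpoly O ϖ ∣ X ^ n - S := minpoly.isIntegrallyClosed_dvd hint hPev
  have heq : X ^ n - S = minpoly O ϖ :=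
    eq_of_monic_of_dvd_of_natDegree_le (minpoly.monic hint) hPmonic hdvd (by rw [hPdeg, hdeg])
  refine ⟨fun {i} hi => ?_⟩
  rw [hdeg] at hi
  rw [← heq, coeff_sub, coeff_X_pow, if_neg hi.ne, zero_sub, neg_mem_iff, hS, finsetSum_coeff]
  refine Ideal.sum_mem _ fun j _ => ?_
  rw [coeff_C_mul_X_pow]
  split_ifs
  · exact ha j
  · exact Ideal.zero_mem _

/-- the constant coefficient of a monic weakly Eisenstein polynomial of degree `n` killing a
non-unit `ϖ ≠ 0` with `𝔪_O B = (ϖ^n)` is not in `𝔪_O ^ 2` -/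
theorem coeff_zero_notMem_sq {ϖ : B} (hϖ0 : ϖ ≠ 0) (hϖu : ¬ IsUnit ϖ) {Q : O[X]} (hQ : Q.Monic)
    (hQe : Q.IsWeaklyEisensteinAt (maximalIdeal O)) (hn : 0 < Q.natDegree)
    (hmap : (maximalIdeal O).map (algebraMap O B) = Ideal.span {ϖ ^ Q.natDegree})
    (hroot : aeval ϖ Q = 0) : Q.coeff 0 ∉ maximalIdeal O ^ 2 := by
  intro h0
  obtain ⟨m, hm⟩ := Nat.exists_eq_add_one_of_ne_zero hn.ne'
  have hmem : ∀ c ∈ maximalIdeal O, ∃ r : B, algebraMap O B c = ϖ ^ Q.natDegree * r := by
    intro c hc
    have : algebraMap O B c ∈ (maximalIdeal O).map (algebraMap O B) := Ideal.mem_map_of_mem _ hc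
    rw [hmap] at this
    exact Ideal.mem_span_singleton.1 this
  -- `algebraMap (coeff 0) ∈ (ϖ^(n+1))`
  have h0' : ∃ r : B, algebraMap O B (Q.coeff 0) = ϖ ^ (Q.natDegree + 1) * r := by
    have : algebraMap O B (Q.coeff 0) ∈ ((maximalIdeal O).map (algebraMap O B)) ^ 2 := by
      rw [← Ideal.map_pow]
      exact Ideal.mem_map_of_mem _ h0
    rw [hmap, Ideal.span_singleton_pow, Ideal.mem_span_singleton] at this
    obtain ⟨r, hr⟩ := this
    refine ⟨ϖ ^ m * r, ?_⟩
    rw [hr, hm]
    ring
  obtain ⟨r0, hr0⟩ := h0'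
  have hsum := hroot
  rw [hQ.as_sum, map_add, map_pow, aeval_X, map_sum] at hsum
  -- every term of the sum lies in `(ϖ^(n+1))`
  have hterms : ∃ r : B, ∑ i ∈ Finset.range Q.natDegree, aeval ϖ (C (Q.coeff i) * X ^ i)
      = ϖ ^ (Q.natDegree + 1) * r := by
    have : ∀ i ∈ Finset.range Q.natDegree, ∃ r : B, aeval ϖ (C (Q.coeff i) * X ^ i)
        = ϖ ^ (Q.natDegree + 1) * r := by
      intro i hi
      rw [map_mul, aeval_C, map_pow, aeval_X]
      rcases Nat.eq_zero_or_pos i with rfl | hipos
      · exact ⟨r0, by rw [pow_zero, mul_one, hr0]⟩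
      · obtain ⟨r, hr⟩ := hmem _ (hQe.mem (Finset.mem_range.1 hi))
        obtain ⟨i', rfl⟩ := Nat.exists_eq_add_one_of_ne_zero hipos.ne'
        exact ⟨r * ϖ ^ i', by rw [hr]; ring⟩
    choose! r hr using this
    refine ⟨∑ i ∈ Finset.range Q.natDegree, r i, ?_⟩
    rw [Finset.mul_sum]
    exact Finset.sum_congr rfl hr
  obtain ⟨r, hr⟩ := hterms
  rw [hr] at hsum
  have h2 : ϖ ^ Q.natDegree * (1 + ϖ * r) = 0 := by rw [← hsum]; ring
  rcases mul_eq_zero.1 h2 with h | h
  · exact hϖ0 (pow_eq_zero_iff hn.ne' |>.1 h)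
  · exact hϖu (IsUnit.of_mul_eq_one (-r) (by linear_combination (-1 : B) * h))

end Minpoly

/-! ### (S1a) in the setting of S55 `Local/CompleteDVR` -/

section S1a

variable (O : Type*) [CommRing O] [IsDomain O] [IsDiscreteValuationRing O]
  [IsAdicComplete (maximalIdeal O) O]
  (F : Type*) [Field F] [Algebra O F] [IsFractionRing O F]
  (E : Type*) [Field E] [Algebra F E] [Algebra O E] [IsScalarTower O F E]
  [FiniteDimensional F E] [Algebra.IsSeparable F E]
  (B : Type*) [CommRing B] [Algebra O B] [Algebra B E] [IsScalarTower O B E]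
  [IsIntegralClosure B O E] [IsLocalRing B]

include O F E in
theorem algebraMap_injective_of_isIntegralClosure : Function.Injective (algebraMap O B) := by
  have h : Function.Injective (algebraMap O E) := by
    rw [IsScalarTower.algebraMap_eq O F E]
    exact (algebraMap F E).injective.comp (IsFractionRing.injective O F)
  rw [IsScalarTower.algebraMap_eq O B E] at h
  exact Function.Injective.of_comp h

include O F E in
/-- **(S1a)** A totally ramified extension (trivial residue field extension) of a complete DVR is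
generated by any uniformiser `ϖ`, whose minimal polynomial is Eisenstein of degree `[E : F]`, and
`𝔪_O B = (ϖ ^ [E : F])`. -/
theorem eisenstein_of_totallyRamified {ϖ : B} (hϖ : Irreducible ϖ)
    (hres : ∀ b : B, ∃ a : O, b - algebraMap O B a ∈ maximalIdeal B) :
    Algebra.adjoin O {ϖ} = ⊤ ∧ (minpoly O ϖ).natDegree = Module.finrank F E ∧
      (minpoly O ϖ).IsEisensteinAt (maximalIdeal O) ∧
      (maximalIdeal O).map (algebraMap O B) = Ideal.span {ϖ ^ Module.finrank F E} := by
  haveI : IsDomain B := isDomain_of_isIntegralClosure O F E B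
  haveI : IsDiscreteValuationRing B := isDiscreteValuationRing_of_isIntegralClosure O F E B
  haveI := finite_of_isIntegralClosure O F E B
  haveI : Module.IsTorsionFree O B :=
    (Module.isTorsionFree_iff_algebraMap_injective).2
      (algebraMap_injective_of_isIntegralClosure O F E B)
  have hmB : maximalIdeal B = Ideal.span {ϖ} := hϖ.maximalIdeal_eq
  have hres' : ∀ b : B, ∃ a : O, b - algebraMap O B a ∈ Ideal.span {ϖ} := by
    intro b; rw [← hmB]; exact hres b
  set e := (maximalIdeal B).ramificationIdx O with he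
  have hmap : (maximalIdeal O).map (algebraMap O B) = Ideal.span {ϖ ^ e} := by
    have h := map_maximalIdeal_eq_pow_ramificationIdx O F E B
    rw [← he] at h
    rw [h, hmB, Ideal.span_singleton_pow]
  have hrank : Module.finrank O B = Module.finrank F E := finrank_of_isIntegralClosure O F E B
  have hpos : 0 < Module.finrank F E := Module.finrank_pos
  have hle : Module.finrank F E ≤ e := hrank ▸ finrank_le hres' hmap
  have hge : e ≤ Module.finrank F E := by
    have h := Fermat.Agent.S55.GL.LocalDegrees.ramificationIdx_mul_inertiaDeg_eq_finrank O F E B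
    exact Nat.le_of_dvd hpos ⟨_, h.symm⟩
  have hen : e = Module.finrank F E := le_antisymm hge hle
  rw [hen] at hmap
  have hadj := adjoin_eq_top hres' hmap
  have hdeg : (minpoly O ϖ).natDegree = Module.finrank F E := by
    rw [natDegree_minpoly_eq_finrank hadj, hrank]
  have hint : IsIntegral O ϖ := Algebra.IsIntegral.isIntegral ϖ
  have hweak := minpoly_isWeaklyEisensteinAt hdeg (span_pow_eq_top hres' hmap)
    (by rw [hmap]; exact Ideal.subset_span rfl)
  refine ⟨hadj, hdeg, ?_, hmap⟩
  refine (minpoly.monic hint).isEisensteinAt_of_mem_of_notMem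
    (Ideal.IsPrime.ne_top inferInstance) (fun hn => hweak.mem hn) ?_
  exact coeff_zero_notMem_sq hϖ.ne_zero hϖ.not_isUnit (minpoly.monic hint) hweak
    (by rw [hdeg]; exact hpos) (by rw [hdeg]; exact hmap) (minpoly.aeval O ϖ)

end S1a

/-! ### the FLB-Eis interface (statement shapes of helper20's split, board #2480) -/

section Spec

open IsDiscreteValuationRing (addVal)

variable (O : Type*) [CommRing O] [IsDomain O] [IsDiscreteValuationRing O]
  [IsAdicComplete (maximalIdeal O) O]
  (F : Type*) [Field F] [Algebra O F] [IsFractionRing O F]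
  (E : Type*) [Field E] [Algebra F E] [Algebra O E] [IsScalarTower O F E]
  [FiniteDimensional F E] [Algebra.IsSeparable F E]
  (B : Type*) [CommRing B] [IsDomain B] [IsDiscreteValuationRing B]
  [Algebra O B] [Algebra B E] [IsScalarTower O B E] [IsIntegralClosure B O E]

include O F E in
/-- `𝔪_O B = 𝔪_B ^ e` forces `e` to be the ramification index. -/
theorem ramificationIdx_eq_of_map_eq_pow {e : ℕ}
    (he : (maximalIdeal O).map (algebraMap O B) = maximalIdeal B ^ e) :
    (maximalIdeal B).ramificationIdx O = e := by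
  haveI := isDedekindDomain_of_isIntegralClosure O F E B
  have hmB0 : maximalIdeal B ≠ ⊥ := IsDiscreteValuationRing.not_a_field B
  have h := map_maximalIdeal_eq_pow_ramificationIdx O F E B
  rw [he] at h
  exact ((Ideal.pow_right_strictAnti (maximalIdeal B) hmB0
    (Ideal.IsPrime.ne_top inferInstance)).injective h).symm

include O F E in
/-- total ramification (`𝔪_O B = 𝔪_B ^ [E : F]`) ⇒ trivial residue field extension. -/
theorem residue_surjective_of_totallyRamified
    (htr : (maximalIdeal O).map (algebraMap O B) = maximalIdeal B ^ Module.finrank F E) :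
    ∀ b : B, ∃ a : O, b - algebraMap O B a ∈ maximalIdeal B := by
  haveI := Fermat.Agent.S55.GL.LocalDegrees.liesOver_maximalIdeal O F E B
  have hpos : 0 < Module.finrank F E := Module.finrank_pos
  have he := ramificationIdx_eq_of_map_eq_pow O F E B htr
  have hef := Fermat.Agent.S55.GL.LocalDegrees.ramificationIdx_mul_inertiaDeg_eq_finrank O F E B
  rw [he] at hef
  have hf : (maximalIdeal B).inertiaDeg O = 1 :=
    Nat.eq_of_mul_eq_mul_left hpos (hef.trans (mul_one _).symm)
  rw [Ideal.inertiaDeg_eq_of_isMaximal (maximalIdeal O) (maximalIdeal B)] at hf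
  letI : Field (O ⧸ maximalIdeal O) := Ideal.Quotient.field _
  letI : Field (B ⧸ maximalIdeal B) := Ideal.Quotient.field _
  have hbij := (Algebra.finrank_eq_one_iff_bijective_algebraMap).1 hf
  intro b
  obtain ⟨a, ha⟩ := hbij.2 (Ideal.Quotient.mk _ b)
  obtain ⟨a, rfl⟩ := Ideal.Quotient.mk_surjective a
  refine ⟨a, ?_⟩
  rw [Ideal.Quotient.algebraMap_mk_of_liesOver] at ha
  rw [← Ideal.Quotient.eq]
  exact ha.symm

include O F E in
/-- **(S1)/(S4)** in a totally ramified extension every uniformiser generates the ring of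
integers. -/
theorem adjoin_irreducible_eq_top
    (htr : (maximalIdeal O).map (algebraMap O B) = maximalIdeal B ^ Module.finrank F E)
    (y : B) (hy : Irreducible y) : Algebra.adjoin O {y} = ⊤ :=
  (eisenstein_of_totallyRamified O F E B hy
    (residue_surjective_of_totallyRamified O F E B htr)).1

include O F E in
/-- **(S1)** the minimal polynomial of a uniformiser of a totally ramified extension is Eisenstein
of degree `[E : F]`. -/
theorem minpoly_isEisensteinAt
    (htr : (maximalIdeal O).map (algebraMap O B) = maximalIdeal B ^ Module.finrank F E)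
    (y : B) (hy : Irreducible y) :
    (minpoly O y).IsEisensteinAt (maximalIdeal O) ∧
      (minpoly O y).natDegree = Module.finrank F E :=
  have h := eisenstein_of_totallyRamified O F E B hy
    (residue_surjective_of_totallyRamified O F E B htr)
  ⟨h.2.2.1, h.2.1⟩

include O F E in
/-- **(S1)** `B = O[y] = O[X]/(minpoly y)`: homs out of `B` are roots of the minimal polynomial. -/
theorem exists_algHom_of_aeval_eq_zero
    (htr : (maximalIdeal O).map (algebraMap O B) = maximalIdeal B ^ Module.finrank F E)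
    (y : B) (hy : Irreducible y) {C : Type*} [CommRing C] [Algebra O C] (c : C)
    (hc : aeval c (minpoly O y) = 0) : ∃ f : B →ₐ[O] C, f y = c := by
  haveI := finite_of_isIntegralClosure O F E B
  haveI : Module.IsTorsionFree O B :=
    (Module.isTorsionFree_iff_algebraMap_injective).2
      (algebraMap_injective_of_isIntegralClosure O F E B)
  have hadj := adjoin_irreducible_eq_top O F E B htr y hy
  have hint : IsIntegral O y := Algebra.IsIntegral.isIntegral y
  obtain ⟨pb, hpb⟩ : ∃ pb : PowerBasis O B, pb.gen = y :=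
    ⟨_, PowerBasis.ofAdjoinEqTop'_gen hint hadj⟩
  subst hpb
  exact ⟨pb.lift c hc, pb.lift_gen c hc⟩

include O F E in
/-- **converse of (S1)** a root `β` of a monic Eisenstein polynomial `Q` over `O` generating `E`:
`[E : F] = deg Q`, `β` is a uniformiser of `B` and `E/F` is totally ramified. -/
theorem irreducible_of_isEisensteinAt_root (Q : O[X]) (hQm : Q.Monic)
    (hQ : Q.IsEisensteinAt (maximalIdeal O)) (β : B) (hβ : aeval β Q = 0)
    (hgen : IntermediateField.adjoin F {algebraMap B E β} = ⊤) :
    Module.finrank F E = Q.natDegree ∧ Irreducible β ∧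
      (maximalIdeal O).map (algebraMap O B) = maximalIdeal B ^ Q.natDegree := by
  -- `deg Q > 0`
  have hn : 0 < Q.natDegree := by
    by_contra h
    have h0 : Q.natDegree = 0 := by omega
    rw [hQm.natDegree_eq_zero.1 h0, map_one] at hβ
    exact one_ne_zero hβ
  -- the degree
  have hirr : Irreducible Q := hQ.irreducible inferInstance hQm.isPrimitive hn
  have hirrF : Irreducible (Q.map (algebraMap O F)) :=
    (hQm.irreducible_iff_irreducible_map_fraction_map).1 hirr
  have hβE : aeval (algebraMap B E β) (Q.map (algebraMap O F)) = 0 := by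
    rw [aeval_map_algebraMap, aeval_algebraMap_apply, hβ, map_zero]
  have hmin : Q.map (algebraMap O F) = minpoly F (algebraMap B E β) :=
    minpoly.eq_of_irreducible_of_monic hirrF hβE (hQm.map _)
  have hdeg : Module.finrank F E = Q.natDegree := by
    have hint : IsIntegral F (algebraMap B E β) := Algebra.IsIntegral.isIntegral _
    have h1 := IntermediateField.adjoin.finrank hint
    rw [hgen, IntermediateField.finrank_top', ← hmin, hQm.natDegree_map] at h1
    exact h1
  -- uniformisers and the ramification index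
  obtain ⟨ϖO, hϖO⟩ := IsDiscreteValuationRing.exists_irreducible O
  obtain ⟨ϖB, hϖB⟩ := IsDiscreteValuationRing.exists_irreducible B
  set e := (maximalIdeal B).ramificationIdx O with he
  have hmap : (maximalIdeal O).map (algebraMap O B) = maximalIdeal B ^ e :=
    map_maximalIdeal_eq_pow_ramificationIdx O F E B
  have hef := Fermat.Agent.S55.GL.LocalDegrees.ramificationIdx_mul_inertiaDeg_eq_finrank O F E B
  rw [← he] at hef
  have hpos : 0 < Module.finrank F E := Module.finrank_pos
  have hen : e ≤ Q.natDegree := by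
    rw [← hdeg]; exact Nat.le_of_dvd hpos ⟨_, hef.symm⟩
  have he0 : e ≠ 0 := by
    rintro h0
    rw [h0, zero_mul] at hef
    omega
  -- valuations of the images of elements of `𝔪_O`
  have hval : ∀ a ∈ maximalIdeal O, (e : ℕ∞) ≤ addVal B (algebraMap O B a) := by
    intro a ha
    have h1 : algebraMap O B a ∈ maximalIdeal B ^ e := by
      rw [← hmap]; exact Ideal.mem_map_of_mem _ ha
    rw [hϖB.maximalIdeal_eq, Ideal.span_singleton_pow, Ideal.mem_span_singleton] at h1
    have h2 := IsDiscreteValuationRing.addVal_le_iff_dvd.2 h1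
    rwa [hϖB.addVal_pow] at h2
  -- the valuation of the constant coefficient is exactly `e`
  have hval0 : addVal B (algebraMap O B (Q.coeff 0)) = e := by
    have h0 : Q.coeff 0 ∈ maximalIdeal O := hQ.mem hn
    have h0' : Q.coeff 0 ∉ maximalIdeal O ^ 2 := hQ.notMem
    rw [hϖO.maximalIdeal_eq, Ideal.mem_span_singleton] at h0
    obtain ⟨u, hu⟩ := h0
    have huu : IsUnit u := by
      by_contra hnu
      apply h0'
      have h3 : u ∈ maximalIdeal O := hnu
      rw [hϖO.maximalIdeal_eq, Ideal.mem_span_singleton] at h3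
      obtain ⟨u', hu'⟩ := h3
      rw [hϖO.maximalIdeal_eq, Ideal.span_singleton_pow, Ideal.mem_span_singleton]
      exact ⟨u', by rw [hu, hu']; ring⟩
    obtain ⟨w, hw⟩ := exists_algebraMap_eq_unit_mul_pow hmap hϖO hϖB
    obtain ⟨u₁, hu₁⟩ := huu.map (algebraMap O B)
    refine IsDiscreteValuationRing.addVal_def _ (w * u₁) hϖB e ?_
    rw [hu, map_mul, hw, Units.val_mul, hu₁]
    ring
  -- the equation `β^n + ∑ a_i β^i = 0`
  have hsum : β ^ Q.natDegree +
      ∑ i ∈ Finset.range Q.natDegree, algebraMap O B (Q.coeff i) * β ^ i = 0 := by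
    have h := hβ
    rw [hQm.as_sum, map_add, map_pow, aeval_X, map_sum] at h
    rw [← h]
    congr 1
    refine Finset.sum_congr rfl fun i _ => ?_
    rw [map_mul, aeval_C, map_pow, aeval_X]
  -- `β ∈ 𝔪_B`
  have hβm : β ∈ maximalIdeal B := by
    have h1 : β ^ Q.natDegree ∈ maximalIdeal B := by
      rw [eq_neg_of_add_eq_zero_left hsum]
      refine neg_mem (Ideal.sum_mem _ fun i hi => Ideal.mul_mem_right _ _ ?_)
      have h2 := Ideal.mem_map_of_mem (algebraMap O B) (hQ.mem (Finset.mem_range.1 hi))
      rw [hmap] at h2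
      exact Ideal.pow_le_self he0 h2
    exact Ideal.IsPrime.mem_of_pow_mem inferInstance _ h1
  have hβ1 : (1 : ℕ∞) ≤ addVal B β := by
    rw [hϖB.maximalIdeal_eq, Ideal.mem_span_singleton] at hβm
    have := IsDiscreteValuationRing.addVal_le_iff_dvd.2 hβm
    rwa [IsDiscreteValuationRing.addVal_uniformizer hϖB] at this
  -- split off the constant term
  obtain ⟨m, hm⟩ := Nat.exists_eq_add_one_of_ne_zero hn.ne'
  rw [hm, Finset.sum_range_succ', pow_zero, mul_one] at hsum
  have hS' : (e : ℕ∞) + 1 ≤ addVal B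
      (∑ i ∈ Finset.range m, algebraMap O B (Q.coeff (i + 1)) * β ^ (i + 1)) := by
    refine (addVal B).map_le_sum fun i hi => ?_
    rw [(addVal B).map_mul, (addVal B).map_pow]
    refine add_le_add (hval _ (hQ.mem (by have := Finset.mem_range.1 hi; omega))) ?_
    rw [succ_nsmul']
    exact hβ1.trans le_self_add
  have hlt : addVal B (algebraMap O B (Q.coeff 0)) < addVal B
      (∑ i ∈ Finset.range m, algebraMap O B (Q.coeff (i + 1)) * β ^ (i + 1)) := by
    rw [hval0]
    exact lt_of_lt_of_le ((ENat.add_one_le_iff (ENat.natCast_ne_top e)).1 le_rfl) hS'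
  have hvβn : addVal B (β ^ (m + 1)) = e := by
    rw [eq_neg_of_add_eq_zero_left hsum, (addVal B).map_neg, add_comm,
      (addVal B).map_add_eq_of_lt_left hlt, hval0]
  rw [(addVal B).map_pow] at hvβn
  -- `addVal β` is a natural number
  have hne_top : addVal B β ≠ ⊤ := by
    intro htop
    rw [htop, succ_nsmul'] at hvβn
    exact ENat.natCast_ne_top e (by rw [← hvβn, top_add])
  obtain ⟨k, hk⟩ := ENat.ne_top_iff_exists.1 hne_top
  rw [← hk] at hvβn hβ1
  have hk1 : 1 ≤ k := by exact_mod_cast hβ1
  have hke : (m + 1) * k = e := by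
    rw [nsmul_eq_mul] at hvβn
    exact_mod_cast hvβn
  have hen' : e = m + 1 := by
    have : m + 1 ≤ (m + 1) * k := Nat.le_mul_of_pos_right _ hk1
    omega
  have hk' : k = 1 := by
    rw [hen'] at hke
    exact Nat.eq_of_mul_eq_mul_left (Nat.succ_pos m) (hke.trans (mul_one _).symm)
  refine ⟨hdeg, ?_, ?_⟩
  · have hass : Associated ϖB β := by
      rw [← IsDiscreteValuationRing.addVal_eq_iff_associated,
        IsDiscreteValuationRing.addVal_uniformizer hϖB, ← hk, hk']
      rfl
    exact hass.irreducible hϖB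
  · rw [hmap, hen', hm]

include O F E in
/-- In the situation of the converse: for `a ∈ 𝔪_O ^ c` the value at `β` of the perturbed
polynomial `Q + a X ^ j` lies in `𝔪_B ^ (n c + j)`, `n = deg Q` (the input of the hom
`O[X]/(Q + a X^j) → B / 𝔪_B ^ (n c + j)` of (B1)). -/
theorem aeval_add_monomial_mem_pow (Q : O[X]) (hQm : Q.Monic)
    (hQ : Q.IsEisensteinAt (maximalIdeal O)) (β : B) (hβ : aeval β Q = 0)
    (hgen : IntermediateField.adjoin F {algebraMap B E β} = ⊤) {a : O} {c : ℕ}
    (ha : a ∈ maximalIdeal O ^ c) (j : ℕ) :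
    aeval β (Q + C a * X ^ j) ∈ maximalIdeal B ^ (Q.natDegree * c + j) := by
  obtain ⟨-, hirr, hmap⟩ := irreducible_of_isEisensteinAt_root O F E B Q hQm hQ β hβ hgen
  rw [map_add, hβ, zero_add, map_mul, aeval_C, map_pow, aeval_X, pow_add]
  refine Ideal.mul_mem_mul ?_ (Ideal.pow_mem_pow hirr.not_isUnit j)
  rw [pow_mul, ← hmap, ← Ideal.map_pow]
  exact Ideal.mem_map_of_mem _ ha

end Spec

end Fermat.Agent.S56.Flat.KummerBound.Eisenstein
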