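/-
S56 / FLAT, block [FL-B] (Kummer form of the ramification bound; paper proof = `moonshots` row 51,
helper20), **the combinatorial core** (helper12).  Mathlib-only.

`G` is a finite group (the inertia group `Gal(L/K₀)`), `i : G → ℕ` the lower-numbering function
`i σ = v_L(σΠ − Π)` with the CONVENTION `i 1 = 0` (`RamFn`: `i σ ≥ 1` for `σ ≠ 1`, ultrametric
`min (i σ) (i τ) ≤ i (σ τ)` for `σ τ ≠ 1`, `i σ⁻¹ = i σ`).  `D i = ∑ σ, i σ`, `iMax i = max i`,
`psi i t = t + ∑ σ, min t (i σ)`.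

* (B1c) `RootDist.sum_eq_psi`, `psi_ne`, `RootDist.sum_ne` : if `d σ = v_L(β − σΠ)` (any function
  `d : G → ℕ` whose triples `d σ, d τ, i (σ⁻¹ τ)` are ultrametric) then `∑ σ, d σ = psi i t` for
  `t = max d`, and `psi i t ≠ D i + iMax i − 1` for EVERY `t` — the contradiction of the
  Fontaine–Krasner count (B1);
* (B2) `wildSub`, `D_eq_tame_add_wild` : `D i = (|G| − |G₁|) + ∑ τ : G₁, i τ`,
  `G₁ = {σ | σ = 1 ∨ 2 ≤ i σ}`;
* (B3c) `card_mul_le_of_coset_bound` : `H < G` proper, `c` with `|H| c ≤ ∑ τ : H, i (σ τ)` for every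
  `σ ∉ H` (this is (B3a)+(B3b)), `s ≥ i` everywhere `⟹ |G| c ≤ s + ∑ τ, i τ`;
* `level_ge` : the final arithmetic of [FL-B]: from (B1) for all real `m > p/(p−1)`, `|G| = e |G₁|`,
  `(p−1) ∣ e` and the coset bound with `c = p e/(p−1) − lvl + 1` on a proper subgroup of `G₁`:
  `e ≤ lvl`.
-/
import Mathlib

set_option autoImplicit false
set_option linter.unusedSectionVars false

namespace Fermat.Agent.S56.Flat.KummerBound.Count

open Finset

variable {G : Type*} [Group G] [Fintype G]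

/-- An abstract lower-numbering function on a finite group, with the convention `i 1 = 0`. -/
structure RamFn (i : G → ℕ) : Prop where
  one : i 1 = 0
  pos : ∀ σ, σ ≠ 1 → 1 ≤ i σ
  ultra : ∀ σ τ, σ * τ ≠ 1 → min (i σ) (i τ) ≤ i (σ * τ)
  inv : ∀ σ, i σ⁻¹ = i σ

/-- `D = ∑_{σ ≠ 1} i σ` -/
def D (i : G → ℕ) : ℕ := ∑ σ, i σ

/-- `i_max = max_{σ ≠ 1} i σ` -/
def iMax (i : G → ℕ) : ℕ := univ.sup i

/-- `Ψ(t) = t + ∑_{σ ≠ 1} min (t, i σ)` -/
def psi (i : G → ℕ) (t : ℕ) : ℕ := t + ∑ σ, min t (i σ)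

theorem le_iMax (i : G → ℕ) (σ : G) : i σ ≤ iMax i := Finset.le_sup (f := i) (mem_univ σ)

theorem exists_eq_iMax (i : G → ℕ) : ∃ σ, i σ = iMax i := by
  obtain ⟨σ, -, h⟩ := Finset.exists_mem_eq_sup (univ : Finset G) univ_nonempty i
  exact ⟨σ, h.symm⟩

theorem iMax_le_D (i : G → ℕ) : iMax i ≤ D i := by
  obtain ⟨σ, h⟩ := exists_eq_iMax i
  rw [← h]
  exact Finset.single_le_sum (f := i) (fun _ _ => Nat.zero_le _) (mem_univ σ)

namespace RamFn

variable {i : G → ℕ} (hi : RamFn i)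

include hi in
theorem ne_one_of_pos {σ : G} (h : 0 < i σ) : σ ≠ 1 := by
  rintro rfl
  rw [hi.one] at h
  exact lt_irrefl _ h

include hi in
theorem eq_one_iff {σ : G} : i σ = 0 ↔ σ = 1 := by
  constructor
  · intro h
    by_contra hne
    have := hi.pos σ hne
    omega
  · rintro rfl
    exact hi.one

include hi in
/-- the isoceles property: `i σ < i τ ⟹ i (σ τ) = i σ` -/
theorem mul_eq_of_lt {σ τ : G} (hσ : σ ≠ 1) (h : i σ < i τ) : i (σ * τ) = i σ := by
  have hne : σ * τ ≠ 1 := by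
    intro h1
    have : τ = σ⁻¹ := by
      rw [eq_inv_iff_mul_eq_one, mul_eq_one_iff_eq_inv.mp h1]
      simp
    rw [this, hi.inv] at h
    exact lt_irrefl _ h
  have h1 : i σ ≤ i (σ * τ) := by
    have := hi.ultra σ τ hne
    rwa [min_eq_left h.le] at this
  have h2 : min (i (σ * τ)) (i τ) ≤ i σ := by
    have := hi.ultra (σ * τ) τ⁻¹ (by simpa using hσ)
    rwa [hi.inv, mul_inv_cancel_right] at this
  rcases le_total (i (σ * τ)) (i τ) with h3 | h3
  · rw [min_eq_left h3] at h2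
    exact le_antisymm h2 h1
  · rw [min_eq_right h3] at h2
    omega

include hi in
/-- `i (σ τ) ≤ i τ` as soon as `i (σ τ) ≤ i σ` (`τ ≠ 1`) -/
theorem mul_le_right_of_mul_le_left {σ τ : G} (hτ : τ ≠ 1)
    (h : i (σ * τ) ≤ i σ) : i (σ * τ) ≤ i τ := by
  rcases lt_or_ge (i τ) (i σ) with h1 | h1
  · -- `i τ < i σ`: `i (σ τ) = i τ`
    have h2 : i (τ⁻¹ * σ⁻¹) = i τ⁻¹ := by
      apply hi.mul_eq_of_lt (by simpa using hτ)
      rwa [hi.inv, hi.inv]
    have h3 : i (σ * τ) = i (τ⁻¹ * σ⁻¹) := by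
      rw [← hi.inv (σ * τ), mul_inv_rev]
    rw [h3, h2, hi.inv]
  · exact h.trans h1

end RamFn

/-! ### (B1c): the Fontaine–Krasner count -/

/-- `d σ = v_L(β − σΠ)`: the triples `d σ, d τ, i (σ⁻¹ τ) = v_L(σΠ − τΠ)` are ultrametric. -/
structure RootDist (i : G → ℕ) (d : G → ℕ) : Prop where
  tri₁ : ∀ σ τ, σ ≠ τ → min (d σ) (i (σ⁻¹ * τ)) ≤ d τ
  tri₂ : ∀ σ τ, σ ≠ τ → min (d σ) (d τ) ≤ i (σ⁻¹ * τ)

theorem RootDist.sum_eq_psi [DecidableEq G] {i d : G → ℕ} (hi : RamFn i) (hd : RootDist i d) :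
    ∃ t, (∃ σ, d σ = t) ∧ ∑ σ, d σ = psi i t := by
  obtain ⟨σ₀, -, hmax⟩ := Finset.exists_max_image (univ : Finset G) d univ_nonempty
  refine ⟨d σ₀, ⟨σ₀, rfl⟩, ?_⟩
  have hre : ∑ σ, d σ = ∑ ρ, d (σ₀ * ρ) :=
    (Fintype.sum_equiv (Equiv.mulLeft σ₀) _ _ (fun _ => rfl)).symm
  have hpt : ∀ ρ : G, d (σ₀ * ρ) = min (d σ₀) (i ρ) + if ρ = 1 then d σ₀ else 0 := by
    intro ρ
    by_cases hρ : ρ = 1
    · subst hρ
      simp [hi.one]
    · rw [if_neg hρ, add_zero]
      have hne : σ₀ ≠ σ₀ * ρ := by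
        intro h
        exact hρ (by simpa using h.symm)
      have e1 : σ₀⁻¹ * (σ₀ * ρ) = ρ := by group
      have h1 := hd.tri₁ σ₀ (σ₀ * ρ) hne
      have h2 := hd.tri₂ σ₀ (σ₀ * ρ) hne
      rw [e1] at h1 h2
      have h3 := hmax (σ₀ * ρ) (mem_univ _)
      refine le_antisymm ?_ h1
      rcases lt_or_ge (i ρ) (d σ₀) with h4 | h4
      · rw [min_eq_right h4.le]
        by_contra hcon
        push Not at hcon
        have : i ρ < min (d σ₀) (d (σ₀ * ρ)) := lt_min h4 hcon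
        omega
      · rw [min_eq_left h4]
        exact h3
  rw [hre, psi, Finset.sum_congr rfl (fun ρ _ => hpt ρ), Finset.sum_add_distrib,
    Finset.sum_ite_eq' univ (1 : G) (fun _ => d σ₀)]
  simp [add_comm]

/-- `Ψ(t) ≠ D + i_max − 1` for every `t` (`Ψ` is strictly increasing, `Ψ(i_max) = D + i_max`,
`Ψ(i_max − 1) ≤ D + i_max − 2`). -/
theorem psi_ne [DecidableEq G] {i : G → ℕ} (hi : RamFn i) (hG : ∃ σ : G, σ ≠ 1) (t : ℕ) :
    psi i t ≠ D i + iMax i - 1 := by
  obtain ⟨σ₁, hσ₁⟩ := hG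
  have hM1 : 1 ≤ iMax i := (hi.pos σ₁ hσ₁).trans (le_iMax i σ₁)
  have hMD := iMax_le_D i
  obtain ⟨σs, hσs⟩ := exists_eq_iMax i
  rcases le_or_gt (iMax i) t with h | h
  · -- `t ≥ i_max`
    have : ∑ σ, min t (i σ) = D i := by
      apply Finset.sum_congr rfl
      intro σ _
      exact min_eq_right ((le_iMax i σ).trans h)
    rw [psi, this]
    omega
  · -- `t < i_max`
    have hsum : ∑ σ, min t (i σ) + iMax i ≤ D i + t := by
      have h1 : ∑ σ, min t (i σ) = min t (i σs) + ∑ σ ∈ univ.erase σs, min t (i σ) :=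
        (Finset.add_sum_erase univ (fun σ => min t (i σ)) (mem_univ σs)).symm
      have h2 : D i = i σs + ∑ σ ∈ univ.erase σs, i σ :=
        (Finset.add_sum_erase univ i (mem_univ σs)).symm
      have h3 : ∑ σ ∈ univ.erase σs, min t (i σ) ≤ ∑ σ ∈ univ.erase σs, i σ :=
        Finset.sum_le_sum (fun σ _ => min_le_right _ _)
      have h4 : min t (i σs) = t := by
        rw [hσs]
        exact min_eq_left h.le
      rw [h1, h2, h4, hσs]
      omega
    rw [psi]
    omega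

/-- **(B1c)**: the sum of the root distances is never `D + i_max − 1`. -/
theorem RootDist.sum_ne [DecidableEq G] {i d : G → ℕ} (hi : RamFn i) (hd : RootDist i d)
    (hG : ∃ σ : G, σ ≠ 1) : ∑ σ, d σ ≠ D i + iMax i - 1 := by
  obtain ⟨t, -, ht⟩ := hd.sum_eq_psi hi
  rw [ht]
  exact psi_ne hi hG t

/-! ### (B2): the wild subgroup -/

/-- the wild inertia subgroup `G₁ = {σ | σ = 1 ∨ 2 ≤ i σ}` -/
def wildSub {i : G → ℕ} (hi : RamFn i) : Subgroup G where
  carrier := {σ | σ = 1 ∨ 2 ≤ i σ}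
  one_mem' := Or.inl rfl
  mul_mem' := by
    intro σ τ hσ hτ
    by_cases h1 : σ * τ = 1
    · exact Or.inl h1
    right
    rcases hσ with rfl | hσ
    · rcases hτ with rfl | hτ
      · simp at h1
      · simpa using hτ
    rcases hτ with rfl | hτ
    · simpa using hσ
    exact (le_min hσ hτ).trans (hi.ultra σ τ h1)
  inv_mem' := by
    intro σ hσ
    rcases hσ with rfl | hσ
    · exact Or.inl inv_one
    · right
      rw [hi.inv]
      exact hσ

theorem mem_wildSub {i : G → ℕ} (hi : RamFn i) {σ : G} :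
    σ ∈ wildSub hi ↔ σ = 1 ∨ 2 ≤ i σ := Iff.rfl

theorem mem_wildSub_iff_ne_one {i : G → ℕ} (hi : RamFn i) {σ : G} :
    σ ∈ wildSub hi ↔ i σ ≠ 1 := by
  rw [mem_wildSub]
  constructor
  · rintro (rfl | h)
    · rw [hi.one]
      omega
    · omega
  · intro h
    by_cases h1 : σ = 1
    · exact Or.inl h1
    · right
      have := hi.pos σ h1
      omega

/-- the restriction of a lower-numbering function to a subgroup -/
theorem RamFn.subgroup {i : G → ℕ} (hi : RamFn i) (H : Subgroup G) :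
    RamFn (fun τ : H => i (τ : G)) where
  one := hi.one
  pos := fun σ hσ => hi.pos σ (fun h => hσ (Subtype.ext h))
  ultra := fun σ τ h => hi.ultra σ τ (fun h1 => h (Subtype.ext h1))
  inv := fun σ => hi.inv σ

/-- **(B2)**: `D = (|G| − |G₁|) + ∑_{τ ∈ G₁} i τ`. -/
theorem D_eq_tame_add_wild {i : G → ℕ} (hi : RamFn i) [Fintype (wildSub hi)] :
    D i = (Nat.card G - Nat.card (wildSub hi)) + ∑ τ : wildSub hi, i (τ : G) := by
  classical
  have h1 : D i = ∑ σ ∈ univ.filter (· ∈ wildSub hi), i σ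
      + ∑ σ ∈ univ.filter (fun σ => ¬ σ ∈ wildSub hi), i σ :=
    (Finset.sum_filter_add_sum_filter_not univ (· ∈ wildSub hi) i).symm
  have h2 : ∑ σ ∈ univ.filter (· ∈ wildSub hi), i σ = ∑ τ : wildSub hi, i (τ : G) := by
    rw [← Finset.sum_subtype (univ.filter (· ∈ wildSub hi)) (p := (· ∈ wildSub hi))
      (fun x => by simp) i]
  have h3 : ∑ σ ∈ univ.filter (fun σ => ¬ σ ∈ wildSub hi), i σ
      = (univ.filter (fun σ => ¬ σ ∈ wildSub hi)).card := by
    rw [Finset.card_eq_sum_ones]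
    apply Finset.sum_congr rfl
    intro σ hσ
    rw [Finset.mem_filter, mem_wildSub_iff_ne_one] at hσ
    push Not at hσ
    exact hσ.2
  have h4 : (univ.filter (fun σ => ¬ σ ∈ wildSub hi)).card
      = Nat.card G - Nat.card (wildSub hi) := by
    have h5 : (univ.filter (· ∈ wildSub hi)).card
        + (univ.filter (fun σ => ¬ σ ∈ wildSub hi)).card = (univ : Finset G).card :=
      Finset.card_filter_add_card_filter_not (s := (univ : Finset G)) (· ∈ wildSub hi)
    have h6 : (univ.filter (· ∈ wildSub hi)).card = Nat.card (wildSub hi) := by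
      rw [Nat.card_eq_fintype_card, Fintype.card_subtype]
    rw [Finset.card_univ, ← Nat.card_eq_fintype_card] at h5
    omega
  rw [h1, h2, h3, h4, add_comm]

/-! ### (B3c): the coset sums -/

section Coset

variable [DecidableEq G]

/-- the sum over a left coset -/
theorem sum_coset (H : Subgroup G) [Fintype H] [DecidablePred (· ∈ H)] (σ : G) (f : G → ℕ) :
    ∑ g ∈ univ.filter (fun g => σ⁻¹ * g ∈ H), f g = ∑ τ : H, f (σ * τ) := by
  have hinj : Function.Injective (fun τ : H => σ * (τ : G)) := by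
    intro a b h
    exact Subtype.ext (mul_left_cancel h)
  have himg : univ.filter (fun g => σ⁻¹ * g ∈ H) = univ.image (fun τ : H => σ * (τ : G)) := by
    ext g
    simp only [mem_filter, mem_univ, true_and, mem_image]
    constructor
    · intro h
      exact ⟨⟨σ⁻¹ * g, h⟩, by simp⟩
    · rintro ⟨τ, rfl⟩
      simp
  rw [himg, Finset.sum_image (fun a _ b _ h => hinj h)]

/-- **(B3c)**: if every non-trivial coset `σH` has `|H| c ≤ ∑_{τ ∈ H} i (σ τ)`, then
`|G| c ≤ s + ∑ τ, i τ` for every bound `s` of `i`. -/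
theorem card_mul_le_of_coset_bound {i : G → ℕ} (hi : RamFn i) (H : Subgroup G) [Fintype H]
    (hH : H ≠ ⊤)
    {s c : ℕ} (hs : ∀ τ, i τ ≤ s)
    (hb : ∀ σ, σ ∉ H → Nat.card H * c ≤ ∑ τ : H, i (σ * (τ : G))) :
    Nat.card G * c ≤ s + ∑ τ, i τ := by
  classical
  -- the modified function `f τ = i τ` for `τ ≠ 1`, `f 1 = s`
  set f : G → ℕ := fun τ => if τ = 1 then s else i τ with hf
  have hfsum : ∑ τ, f τ = s + ∑ τ, i τ := by
    have : ∀ τ, f τ = i τ + if τ = 1 then s else 0 := by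
      intro τ
      by_cases h : τ = 1
      · subst h
        simp [hf, hi.one]
      · simp [hf, h]
    rw [Finset.sum_congr rfl (fun τ _ => this τ), Finset.sum_add_distrib,
      Finset.sum_ite_eq' univ (1 : G) (fun _ => s)]
    simp [add_comm]
  -- every coset has `f`-sum at least `|H| c`
  have hcoset : ∀ σ : G, Nat.card H * c ≤ ∑ τ : H, f (σ * (τ : G)) := by
    intro σ
    by_cases hσ : σ ∈ H
    · -- the trivial coset: compare with a non-trivial coset through a maximal element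
      obtain ⟨ρ, hρ⟩ : ∃ ρ : G, ρ ∉ H := by
        by_contra hcon
        push Not at hcon
        exact hH (Subgroup.eq_top_iff' H |>.2 hcon)
      -- `σ₀ ∈ ρH` with `i σ₀` maximal
      obtain ⟨τ₀, -, hτ₀⟩ := Finset.exists_max_image (univ : Finset H)
        (fun τ : H => i (ρ * (τ : G))) univ_nonempty
      set σ₀ : G := ρ * (τ₀ : G) with hσ₀
      have hσ₀H : σ₀ ∉ H := by
        intro h
        apply hρ
        have : ρ = σ₀ * (τ₀ : G)⁻¹ := by rw [hσ₀]; group
        rw [this]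
        exact H.mul_mem h (H.inv_mem τ₀.2)
      have hσ₀1 : σ₀ ≠ 1 := fun h => hσ₀H (h ▸ H.one_mem)
      have hmax : ∀ τ : H, i (σ₀ * (τ : G)) ≤ i σ₀ := by
        intro τ
        have := hτ₀ (τ₀ * τ) (mem_univ _)
        simpa [hσ₀, mul_assoc] using this
      -- reindex the trivial coset
      have hre : ∑ τ : H, f (σ * (τ : G)) = ∑ τ : H, f (τ : G) := by
        refine Fintype.sum_equiv (Equiv.mulLeft (⟨σ, hσ⟩ : H)) _ _ (fun τ => ?_)
        simp
      rw [hre]
      refine (hb σ₀ hσ₀H).trans (Finset.sum_le_sum (fun τ _ => ?_))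
      by_cases hτ : (τ : G) = 1
      · simp only [hf, hτ, if_true, mul_one]
        exact hs σ₀
      · simp only [hf, hτ, if_false]
        exact hi.mul_le_right_of_mul_le_left hτ (hmax τ)
    · -- a non-trivial coset: `f = i` there
      refine (hb σ hσ).trans (le_of_eq (Finset.sum_congr rfl (fun τ _ => ?_)))
      have : σ * (τ : G) ≠ 1 := by
        intro h
        apply hσ
        have : σ = (τ : G)⁻¹ := mul_eq_one_iff_eq_inv.mp h
        rw [this]
        exact H.inv_mem τ.2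
      simp [hf, this]
  -- sum over the cosets
  have hfib : ∑ τ, f τ
      = ∑ q : G ⧸ H, ∑ g ∈ univ.filter (fun g : G => (QuotientGroup.mk g : G ⧸ H) = q), f g :=
    (Finset.sum_fiberwise univ (fun g : G => (QuotientGroup.mk g : G ⧸ H)) f).symm
  have hq : ∀ q : G ⧸ H, Nat.card H * c
      ≤ ∑ g ∈ univ.filter (fun g : G => (QuotientGroup.mk g : G ⧸ H) = q), f g := by
    intro q
    obtain ⟨σ, rfl⟩ := QuotientGroup.mk_surjective q
    have hset : univ.filter (fun g : G => (QuotientGroup.mk g : G ⧸ H) = (QuotientGroup.mk σ : G ⧸ H))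
        = univ.filter (fun g => σ⁻¹ * g ∈ H) := by
      ext g
      simp only [mem_filter, mem_univ, true_and]
      rw [eq_comm, QuotientGroup.eq]
    rw [hset, sum_coset H σ f]
    exact hcoset σ
  rw [← hfsum, hfib]
  calc Nat.card G * c = Nat.card (G ⧸ H) * (Nat.card H * c) := by
        rw [← mul_assoc, ← Subgroup.card_eq_card_quotient_mul_card_subgroup]
    _ = ∑ _q : G ⧸ H, Nat.card H * c := by
        rw [Finset.sum_const, Finset.card_univ, Nat.card_eq_fintype_card, smul_eq_mul]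
    _ ≤ _ := Finset.sum_le_sum (fun q _ => hq q)

end Coset

/-! ### the final arithmetic of [FL-B] -/

/-- **[FL-B], combinatorial core.**  `G` the inertia group with lower numbering `i`, `G₁` its wild
subgroup, `|G| = e |G₁|`, `(p − 1) ∣ e`; (B1) for every real `m > p/(p−1)`; a proper subgroup `H` of
`G₁` all of whose non-trivial cosets have `|H| (p e/(p−1) − lvl + 1) ≤ ∑_{τ ∈ H} i (σ τ)`
((B3a)+(B3b) for a Kummer generator of level `lvl`).  Then `e ≤ lvl`. -/
theorem level_ge [DecidableEq G] {i : G → ℕ} (hi : RamFn i) [Fintype (wildSub hi)]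
    (H : Subgroup (wildSub hi)) [Fintype H] (hH : H ≠ ⊤) {p e lvl : ℕ} (hp : 2 ≤ p) (hpe : (p - 1) ∣ e)
    (hcard : Nat.card G = e * Nat.card (wildSub hi))
    (hB1 : ∀ m : ℝ, (p : ℝ) / ((p : ℝ) - 1) < m →
      ((D i + iMax i : ℕ) : ℝ) - 1 < (Nat.card G : ℝ) * m)
    (hb : ∀ σ : wildSub hi, σ ∉ H →
      Nat.card H * (p * (e / (p - 1)) - lvl + 1) ≤ ∑ τ : H, i ((σ * (τ : wildSub hi) : wildSub hi) : G)) :
    e ≤ lvl := by
  classical
  obtain ⟨q, rfl⟩ := hpe
  have hp1 : 0 < p - 1 := by omega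
  have hq : (p - 1) * q / (p - 1) = q := Nat.mul_div_cancel_left q hp1
  rw [hq] at hb
  obtain ⟨g₁, hg₁⟩ : ∃ g₁, g₁ = Nat.card (wildSub hi) := ⟨_, rfl⟩
  rw [← hg₁] at hcard
  -- (B1) in the limit `m ↓ p/(p−1)`
  have hS1 : D i + iMax i ≤ g₁ * (p * q) + 1 := by
    have hreal : ((D i + iMax i : ℕ) : ℝ) - 1 ≤ (Nat.card G : ℝ) * ((p : ℝ) / ((p : ℝ) - 1)) := by
      by_contra hcon
      push Not at hcon
      have hGpos : (0 : ℝ) < (Nat.card G : ℝ) := by
        exact_mod_cast Nat.card_pos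
      set δ := ((D i + iMax i : ℕ) : ℝ) - 1 - (Nat.card G : ℝ) * ((p : ℝ) / ((p : ℝ) - 1)) with hδ
      have hδpos : 0 < δ := by rw [hδ]; linarith
      have := hB1 ((p : ℝ) / ((p : ℝ) - 1) + δ / (Nat.card G : ℝ))
        (by have : 0 < δ / (Nat.card G : ℝ) := div_pos hδpos hGpos
            linarith)
      rw [mul_add, mul_div_cancel₀ _ hGpos.ne'] at this
      rw [hδ] at this
      linarith
    have hpR : ((p : ℝ) - 1) ≠ 0 := by
      have : (2 : ℝ) ≤ (p : ℝ) := by exact_mod_cast hp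
      intro h
      linarith
    have hcardR : (Nat.card G : ℝ) * ((p : ℝ) / ((p : ℝ) - 1)) = ((g₁ * (p * q) : ℕ) : ℝ) := by
      rw [hcard]
      push_cast
      rw [Nat.cast_sub (by omega : 1 ≤ p)]
      push_cast
      field_simp
    rw [hcardR] at hreal
    have : ((D i + iMax i : ℕ) : ℝ) ≤ ((g₁ * (p * q) + 1 : ℕ) : ℝ) := by
      push_cast at hreal ⊢
      linarith
    exact_mod_cast this
  -- (B2) + (B3c)
  have hS2 : g₁ * ((p - 1) * q - 1) + g₁ * (p * q - lvl + 1) ≤ D i + iMax i := by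
    have h1 := D_eq_tame_add_wild hi
    have h2 := card_mul_le_of_coset_bound (hi.subgroup (wildSub hi)) H hH
      (s := iMax i) (c := p * q - lvl + 1) (fun τ => le_iMax i τ) hb
    have h3 : Nat.card G - g₁ = g₁ * ((p - 1) * q - 1) := by
      rw [hcard, Nat.mul_sub, mul_one, mul_comm]
    rw [← hg₁] at h1 h2
    rw [h3] at h1
    omega
  -- conclusion
  have hg₁2 : 2 ≤ g₁ := by
    by_contra hcon
    push Not at hcon
    have hle : Nat.card (wildSub hi) ≤ 1 := by omega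
    have hsub : Subsingleton (wildSub hi) := (Finite.card_le_one_iff_subsingleton).1 hle
    exact hH (Subsingleton.elim _ _)
  by_contra hcon
  push Not at hcon
  -- `lvl < e = (p−1) q ≤ p q`
  have hq1 : 1 ≤ q := by
    rcases Nat.eq_zero_or_pos q with h | h
    · subst h
      simp at hcon
    · exact h
  have hpq : (p - 1) * q ≤ p * q := Nat.mul_le_mul_right q (Nat.sub_le p 1)
  have hpq1 : 1 ≤ (p - 1) * q := Nat.mul_pos hp1 hq1
  have key : g₁ * ((p - 1) * q - 1) + g₁ * (p * q - lvl + 1) ≤ g₁ * (p * q) + 1 := hS2.trans hS1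
  have e1 : g₁ * ((p - 1) * q - 1) + g₁ * (p * q - lvl + 1)
      = g₁ * ((p - 1) * q + p * q - lvl) := by
    rw [← Nat.mul_add]
    congr 1
    omega
  rw [e1] at key
  have e2 : (p - 1) * q + p * q - lvl = p * q + ((p - 1) * q - lvl) := by omega
  rw [e2, Nat.mul_add] at key
  have : g₁ * ((p - 1) * q - lvl) ≤ 1 := by omega
  have h5 : 1 ≤ (p - 1) * q - lvl := by omega
  have : g₁ * 1 ≤ g₁ * ((p - 1) * q - lvl) := Nat.mul_le_mul_left _ h5
  omega

end Fermat.Agent.S56.Flat.KummerBound.Count
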