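/-
Copyright: helper5 (S56 team).  [FL-B] leaf FLB-Pert (Mathlib only).

Perturbations of a monic Eisenstein polynomial over a discrete valuation ring that stay
monic Eisenstein of the same degree:
* `Q - ϖ ^ c * X ^ j` for `j < deg Q`, `1 ≤ c`, `(j, c) ≠ (0, 1)`;
* `Q - η * ϖ` with `η = ± 1` when `2` is a unit.
-/
import Mathlib

set_option autoImplicit false

open IsLocalRing Polynomial

namespace Fermat.Agent.S56.Flat.KummerBound.Perturb

variable {O : Type*} [CommRing O] [IsDomain O] [IsDiscreteValuationRing O]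

/-- A uniformiser lies in the maximal ideal. -/
theorem irreducible_mem_maximalIdeal {ϖ : O} (hϖ : Irreducible ϖ) : ϖ ∈ maximalIdeal O := by
  rw [mem_maximalIdeal, mem_nonunits_iff]
  exact hϖ.not_isUnit

/-- Positive powers of a uniformiser lie in the maximal ideal. -/
theorem pow_mem_maximalIdeal {ϖ : O} (hϖ : Irreducible ϖ) {c : ℕ} (hc : 1 ≤ c) :
    ϖ ^ c ∈ maximalIdeal O :=
  Ideal.pow_mem_of_mem _ (irreducible_mem_maximalIdeal hϖ) c (by omega)

/-- Powers `≥ 2` of a uniformiser lie in the square of the maximal ideal. -/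
theorem pow_mem_maximalIdeal_sq {ϖ : O} (hϖ : Irreducible ϖ) {c : ℕ} (hc : 2 ≤ c) :
    ϖ ^ c ∈ maximalIdeal O ^ 2 := by
  obtain ⟨d, rfl⟩ := Nat.exists_eq_add_of_le hc
  rw [pow_add]
  exact Ideal.mul_mem_right _ _ (Ideal.pow_mem_pow (irreducible_mem_maximalIdeal hϖ) 2)

/-- A uniformiser does not lie in the square of the maximal ideal. -/
theorem irreducible_not_mem_maximalIdeal_sq {ϖ : O} (hϖ : Irreducible ϖ) :
    ϖ ∉ maximalIdeal O ^ 2 := by
  intro h
  rw [hϖ.maximalIdeal_eq, Ideal.span_singleton_pow, Ideal.mem_span_singleton] at h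
  obtain ⟨u, hu⟩ := h
  have h0 : ϖ ≠ 0 := hϖ.ne_zero
  have h1 : ϖ * 1 = ϖ * (ϖ * u) := by rw [mul_one]; calc ϖ = ϖ ^ 2 * u := hu
    _ = ϖ * (ϖ * u) := by ring
  have h2 : (1 : O) = ϖ * u := mul_left_cancel₀ h0 h1
  exact hϖ.not_isUnit (IsUnit.of_mul_eq_one u h2.symm)

/-- General perturbation lemma: subtracting a polynomial of smaller degree with coefficients in
`𝔪` and constant coefficient in `𝔪 ^ 2` keeps "monic Eisenstein of degree `n`". -/
theorem isEisensteinAt_sub (Q P : O[X]) (hQm : Q.Monic)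
    (hQ : Q.IsEisensteinAt (maximalIdeal O)) (hdeg : P.degree < Q.degree)
    (hP : ∀ n, P.coeff n ∈ maximalIdeal O) (hP0 : P.coeff 0 ∈ maximalIdeal O ^ 2) :
    (Q - P).Monic ∧ (Q - P).IsEisensteinAt (maximalIdeal O) ∧
      (Q - P).natDegree = Q.natDegree := by
  have hmon : (Q - P).Monic := hQm.sub_of_left hdeg
  have hnat : (Q - P).natDegree = Q.natDegree := by
    have h1 : (Q - P).degree = Q.degree := degree_sub_eq_left_of_degree_lt hdeg
    exact natDegree_eq_of_degree_eq h1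
  refine ⟨hmon, ⟨?_, ?_, ?_⟩, hnat⟩
  · rw [hmon.leadingCoeff]
    intro h
    exact (Ideal.ne_top_iff_one _).1 (maximalIdeal.isMaximal O).ne_top h
  · intro n hn
    rw [hnat] at hn
    rw [coeff_sub]
    exact Ideal.sub_mem _ (hQ.mem hn) (hP n)
  · rw [coeff_sub]
    intro h
    apply hQ.notMem
    have := Ideal.add_mem _ h hP0
    simpa using this

theorem isEisensteinAt_sub_monomial (Q : O[X]) (hQm : Q.Monic)
    (hQ : Q.IsEisensteinAt (maximalIdeal O))
    (ϖ : O) (hϖ : Irreducible ϖ) (c j : ℕ) (hc : 1 ≤ c) (hj : j < Q.natDegree)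
    (hjc : ¬ (j = 0 ∧ c = 1)) :
    (Q - C (ϖ ^ c) * X ^ j).Monic ∧ (Q - C (ϖ ^ c) * X ^ j).IsEisensteinAt (maximalIdeal O) ∧
    (Q - C (ϖ ^ c) * X ^ j).natDegree = Q.natDegree := by
  have hQ0 : Q ≠ 0 := hQm.ne_zero
  apply isEisensteinAt_sub Q _ hQm hQ
  · calc (C (ϖ ^ c) * X ^ j).degree ≤ (j : WithBot ℕ) := degree_C_mul_X_pow_le j _
      _ < (Q.natDegree : WithBot ℕ) := by exact_mod_cast hj
      _ = Q.degree := (degree_eq_natDegree hQ0).symm
  · intro n
    rw [coeff_C_mul_X_pow]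
    split_ifs
    · exact pow_mem_maximalIdeal hϖ hc
    · exact Ideal.zero_mem _
  · rw [coeff_C_mul_X_pow]
    split_ifs with h0
    · have hc2 : 2 ≤ c := by
        rcases Nat.lt_or_ge c 2 with h | h
        · exact absurd ⟨h0.symm, by omega⟩ hjc
        · exact h
      exact pow_mem_maximalIdeal_sq hϖ hc2
    · exact Ideal.zero_mem _

/-- Subtracting a constant of `𝔪` not congruent to the constant term mod `𝔪 ^ 2`. -/
theorem isEisensteinAt_sub_C (Q : O[X]) (hQm : Q.Monic)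
    (hQ : Q.IsEisensteinAt (maximalIdeal O)) (hdeg : 1 ≤ Q.natDegree)
    (a : O) (ha : a ∈ maximalIdeal O) (ha0 : Q.coeff 0 - a ∉ maximalIdeal O ^ 2) :
    (Q - C a).Monic ∧ (Q - C a).IsEisensteinAt (maximalIdeal O) ∧
      (Q - C a).natDegree = Q.natDegree := by
  have hQ0 : Q ≠ 0 := hQm.ne_zero
  have hlt : (C a).degree < Q.degree := by
    calc (C a).degree ≤ 0 := degree_C_le
      _ < (Q.natDegree : WithBot ℕ) := by exact_mod_cast hdeg
      _ = Q.degree := (degree_eq_natDegree hQ0).symm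
  have hmon : (Q - C a).Monic := hQm.sub_of_left hlt
  have hnat : (Q - C a).natDegree = Q.natDegree :=
    natDegree_eq_of_degree_eq (degree_sub_eq_left_of_degree_lt hlt)
  refine ⟨hmon, ⟨?_, ?_, ?_⟩, hnat⟩
  · rw [hmon.leadingCoeff]
    intro h
    exact (Ideal.ne_top_iff_one _).1 (maximalIdeal.isMaximal O).ne_top h
  · intro n hn
    rw [hnat] at hn
    rw [coeff_sub, coeff_C]
    split_ifs
    · exact Ideal.sub_mem _ (hQ.mem hn) ha
    · simpa using hQ.mem hn
  · rw [coeff_sub, coeff_C_zero]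
    exact ha0

theorem exists_isEisensteinAt_sub_const (Q : O[X]) (hQm : Q.Monic)
    (hQ : Q.IsEisensteinAt (maximalIdeal O)) (hdeg : 1 ≤ Q.natDegree)
    (ϖ : O) (hϖ : Irreducible ϖ) (h2 : (2 : O) ∉ maximalIdeal O) :
    ∃ η : O, (η = 1 ∨ η = -1) ∧ (Q - C (η * ϖ)).Monic ∧
      (Q - C (η * ϖ)).IsEisensteinAt (maximalIdeal O) ∧
      (Q - C (η * ϖ)).natDegree = Q.natDegree := by
  have hϖm : ϖ ∈ maximalIdeal O := irreducible_mem_maximalIdeal hϖ
  by_cases h1 : Q.coeff 0 - 1 * ϖ ∈ maximalIdeal O ^ 2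
  · -- then `η = -1` works
    refine ⟨-1, Or.inr rfl, ?_⟩
    apply isEisensteinAt_sub_C Q hQm hQ hdeg
    · exact Ideal.mul_mem_left _ _ hϖm
    · intro h
      -- `2 ϖ ∈ 𝔪 ^ 2`
      have h3 : (2 : O) * ϖ ∈ maximalIdeal O ^ 2 := by
        have := Ideal.sub_mem _ h h1
        have e : Q.coeff 0 - -1 * ϖ - (Q.coeff 0 - 1 * ϖ) = 2 * ϖ := by ring
        rwa [e] at this
      have hu : IsUnit (2 : O) := by
        by_contra hn
        exact h2 ((mem_maximalIdeal _).2 hn)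
      obtain ⟨u, hu⟩ := hu
      have h4 : ϖ ∈ maximalIdeal O ^ 2 := by
        have := Ideal.mul_mem_left (maximalIdeal O ^ 2) (↑u⁻¹ : O) h3
        rwa [← hu, ← mul_assoc, Units.inv_mul, one_mul] at this
      exact irreducible_not_mem_maximalIdeal_sq hϖ h4
  · exact ⟨1, Or.inl rfl, isEisensteinAt_sub_C Q hQm hQ hdeg _
      (Ideal.mul_mem_left _ _ hϖm) h1⟩

end Fermat.Agent.S56.Flat.KummerBound.Perturb
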