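/-
S56 / FLAT, block [FL-B] (paper proof = `moonshots` row 51, helper20), step (B1), **the generic
DVR half** (helper12).  Mathlib + `KummerBound/Count.lean`.

`B` a discrete valuation ring (`𝒪_L`), `G` a finite group acting on `B` by ring automorphisms
(`Gal(L/K₀)`), `ϖ, β ∈ B`.

* `addVal_smul` : ring automorphisms preserve `addVal`;
* `iNat ϖ σ := (addVal B (σ • ϖ − ϖ)).toNat` (`= 0` for `σ = 1`), `dNat ϖ β σ :=
  (addVal B (β − σ • ϖ)).toNat`; `ramFn_iNat` : `Count.RamFn (iNat ϖ)` for `ϖ ∈ 𝔪_B` on which `G`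
  acts faithfully; `rootDist_dNat` : `Count.RootDist (iNat ϖ) (dNat ϖ β)` for `β ∉ G ϖ`;
* **`addVal_prod_ne`** : `addVal B (∏ σ, (β − σ • ϖ)) ≠ D + i_max − 1` — the contradiction of the
  Fontaine–Krasner count;
* `irreducible_of_isEisensteinAt_root` : in a DVR `B ⊇ O` with `𝔪_O B = 𝔪_B ^ n`, a root of a monic
  Eisenstein polynomial of degree `n` over `O` is a uniformiser;
* `minpoly_map_eq_prod_int` : `E/F` Galois, `B` the integral closure of `O` in `E`, `ϖ ∈ B` with
  `deg (minpoly O ϖ) = [E : F]`: `minpoly O ϖ = ∏_{σ ∈ Aut_O(B)} (X − σ ϖ)` (and `σ ↦ σ ϖ` is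
  injective, `card_algEquiv_int : |Aut_O(B)| = [E : F]`);
* **`krasner_rel`** : the generic relative form of (B1): if `Q̃ = Q − η π^c X^j` (monic Eisenstein of
  degree `n`, `Q = minpoly O ϖ`) has a root IN `B`, then `n c + j ≠ D + i_max − 1`.
-/
import Mathlib
import Fermat.Agent.S56.Flat.KummerBound.Count
import Fermat.Agent.S56.Flat.KummerBound.Perturb

set_option autoImplicit false
set_option linter.unusedSectionVars false

namespace Fermat.Agent.S56.Flat.KummerBound.KrasnerRel

open IsLocalRing Polynomial Finset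
open IsDiscreteValuationRing (addVal)
open Fermat.Agent.S56.Flat.KummerBound.Count

variable {B : Type*} [CommRing B] [IsDomain B] [IsDiscreteValuationRing B]

section Action

variable {G : Type*} [Group G] [MulSemiringAction G B]

theorem smul_irreducible (σ : G) {x : B} (hx : Irreducible x) : Irreducible (σ • x) :=
  (MulEquiv.irreducible_iff (MulSemiringAction.toRingEquiv G B σ).toMulEquiv).2 hx

/-- ring automorphisms preserve the valuation -/
theorem addVal_smul (σ : G) (x : B) : addVal B (σ • x) = addVal B x := by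
  by_cases hx : x = 0
  · subst hx
    rw [smul_zero]
  obtain ⟨ϖ, hϖ⟩ := IsDiscreteValuationRing.exists_irreducible B
  obtain ⟨n, u, rfl⟩ := IsDiscreteValuationRing.eq_unit_mul_pow_irreducible hx hϖ
  have hu : IsUnit (σ • (u : B)) :=
    (MulSemiringAction.toRingEquiv G B σ).toRingHom.isUnit_map u.isUnit
  rw [smul_mul', smul_pow', IsDiscreteValuationRing.addVal_def' u hϖ n]
  have := IsDiscreteValuationRing.addVal_def' hu.unit (smul_irreducible σ hϖ) n
  rwa [IsUnit.unit_spec] at this

/-- the lower numbering function, `ℕ`-valued, `= 0` at `σ = 1` -/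
noncomputable def iNat (ϖ : B) (σ : G) : ℕ := (addVal B (σ • ϖ - ϖ)).toNat

/-- the distances of `β` to the conjugates of `ϖ` -/
noncomputable def dNat (ϖ β : B) (σ : G) : ℕ := (addVal B (β - σ • ϖ)).toNat

theorem coe_toNat_addVal {x : B} (hx : x ≠ 0) : ((addVal B x).toNat : ℕ∞) = addVal B x :=
  ENat.natCast_toNat (fun h => hx (IsDiscreteValuationRing.addVal_eq_top_iff.1 h))

theorem one_le_addVal_of_mem {x : B} (hx : x ∈ maximalIdeal B) : 1 ≤ addVal B x := by
  obtain ⟨ϖ, hϖ⟩ := IsDiscreteValuationRing.exists_irreducible B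
  rw [hϖ.maximalIdeal_eq, Ideal.mem_span_singleton] at hx
  rw [← IsDiscreteValuationRing.addVal_uniformizer hϖ]
  exact IsDiscreteValuationRing.addVal_le_iff_dvd.2 hx

theorem smul_mem_maximalIdeal (σ : G) {x : B} (hx : x ∈ maximalIdeal B) :
    σ • x ∈ maximalIdeal B := by
  rw [mem_maximalIdeal, mem_nonunits_iff] at hx ⊢
  intro h
  apply hx
  have := (MulSemiringAction.toRingEquiv G B σ⁻¹).toRingHom.isUnit_map h
  simpa using this

/-- `toNat` of a minimum in `ℕ∞` with finite arguments, as an inequality -/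
theorem min_toNat_le_toNat {a b c : ℕ∞} (ha : a ≠ ⊤) (hb : b ≠ ⊤) (hc : c ≠ ⊤)
    (h : min a b ≤ c) : min a.toNat b.toNat ≤ c.toNat := by
  lift a to ℕ using ha
  lift b to ℕ using hb
  lift c to ℕ using hc
  simp only [ENat.toNat_natCast]
  rcases le_total a b with hab | hab
  · rw [min_eq_left hab]
    rw [min_eq_left (by exact_mod_cast hab)] at h
    exact_mod_cast h
  · rw [min_eq_right hab]
    rw [min_eq_right (by exact_mod_cast hab)] at h
    exact_mod_cast h

theorem addVal_prod {ι : Type*} (s : Finset ι) (f : ι → B) :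
    addVal B (∏ i ∈ s, f i) = ∑ i ∈ s, addVal B (f i) := by
  classical
  induction s using Finset.induction_on with
  | empty => simp
  | insert a s ha ih =>
    rw [Finset.prod_insert ha, Finset.sum_insert ha, IsDiscreteValuationRing.addVal_mul, ih]

theorem addVal_sub_ge {x y z : B} : min (addVal B (x - y)) (addVal B (y - z)) ≤ addVal B (x - z) := by
  have : x - z = (x - y) + (y - z) := by ring
  rw [this]
  exact IsDiscreteValuationRing.addVal_add

theorem addVal_sub_comm (x y : B) : addVal B (x - y) = addVal B (y - x) := by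
  rw [← neg_sub, (addVal B).map_neg]

variable (ϖ : B) (hfaith : ∀ σ : G, σ ≠ 1 → σ • ϖ ≠ ϖ)

include hfaith in
theorem smul_sub_ne_zero {σ τ : G} (h : σ ≠ τ) : σ • ϖ - τ • ϖ ≠ 0 := by
  intro h0
  have h1 : σ • ϖ = τ • ϖ := sub_eq_zero.1 h0
  have h2 : (τ⁻¹ * σ) • ϖ = ϖ := by
    rw [mul_smul, h1, inv_smul_smul]
  exact hfaith (τ⁻¹ * σ) (fun h3 => h (by
    have := inv_mul_eq_one.1 h3
    exact this.symm)) h2

/-- `v(σ ϖ − τ ϖ) = i (σ⁻¹ τ)` -/
theorem addVal_smul_sub_smul (σ τ : G) :
    addVal B (σ • ϖ - τ • ϖ) = addVal B ((σ⁻¹ * τ) • ϖ - ϖ) := by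
  have : σ • ϖ - τ • ϖ = σ • (ϖ - (σ⁻¹ * τ) • ϖ) := by
    rw [smul_sub, mul_smul, smul_inv_smul]
  rw [this, addVal_smul, addVal_sub_comm]

include hfaith in
/-- **the lower numbering function of a faithful action is a `Count.RamFn`** -/
theorem ramFn_iNat [Fintype G] (hϖ : ϖ ∈ maximalIdeal B) : RamFn (iNat (G := G) ϖ) where
  one := by simp [iNat]
  pos := by
    intro σ hσ
    have hne : σ • ϖ - ϖ ≠ 0 := sub_ne_zero.2 (hfaith σ hσ)
    have h1 : 1 ≤ addVal B (σ • ϖ - ϖ) :=
      one_le_addVal_of_mem (Ideal.sub_mem _ (smul_mem_maximalIdeal σ hϖ) hϖ)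
    rw [← coe_toNat_addVal hne] at h1
    exact_mod_cast h1
  ultra := by
    intro σ τ hστ
    by_cases hσ : σ = 1
    · subst hσ
      simp [iNat]
    by_cases hτ : τ = 1
    · subst hτ
      simp [iNat]
    have h1 : σ • ϖ - ϖ ≠ 0 := sub_ne_zero.2 (hfaith σ hσ)
    have h2 : τ • ϖ - ϖ ≠ 0 := sub_ne_zero.2 (hfaith τ hτ)
    have h3 : (σ * τ) • ϖ - ϖ ≠ 0 := sub_ne_zero.2 (hfaith _ hστ)
    refine min_toNat_le_toNat (fun h => h1 (IsDiscreteValuationRing.addVal_eq_top_iff.1 h))
      (fun h => h2 (IsDiscreteValuationRing.addVal_eq_top_iff.1 h))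
      (fun h => h3 (IsDiscreteValuationRing.addVal_eq_top_iff.1 h)) ?_
    -- `σ τ ϖ − ϖ = σ (τ ϖ − ϖ) + (σ ϖ − ϖ)`
    have e : (σ * τ) • ϖ - ϖ = (σ • ϖ - ϖ) + σ • (τ • ϖ - ϖ) := by
      rw [smul_sub, mul_smul]
      ring
    rw [e]
    have := IsDiscreteValuationRing.addVal_add (R := B) (a := σ • ϖ - ϖ) (b := σ • (τ • ϖ - ϖ))
    rwa [addVal_smul] at this
  inv := by
    intro σ
    unfold iNat
    have e : σ⁻¹ • ϖ - ϖ = σ⁻¹ • (ϖ - σ • ϖ) := by
      rw [smul_sub, inv_smul_smul]
    rw [e, addVal_smul, addVal_sub_comm]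

include hfaith in
/-- **the distances to the conjugates form a `Count.RootDist`** -/
theorem rootDist_dNat (β : B) (hβ : ∀ σ : G, β ≠ σ • ϖ) :
    RootDist (iNat (G := G) ϖ) (dNat ϖ β) where
  tri₁ := by
    intro σ τ hστ
    have h1 : β - σ • ϖ ≠ 0 := sub_ne_zero.2 (hβ σ)
    have h2 : β - τ • ϖ ≠ 0 := sub_ne_zero.2 (hβ τ)
    have h3 : σ • ϖ - τ • ϖ ≠ 0 := smul_sub_ne_zero ϖ hfaith hστ
    have h3' : (σ⁻¹ * τ) • ϖ - ϖ ≠ 0 := by
      intro h
      apply h3
      rw [← IsDiscreteValuationRing.addVal_eq_top_iff, addVal_smul_sub_smul, h,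
        IsDiscreteValuationRing.addVal_zero]
    refine min_toNat_le_toNat (fun h => h1 (IsDiscreteValuationRing.addVal_eq_top_iff.1 h))
      (fun h => h3' (IsDiscreteValuationRing.addVal_eq_top_iff.1 h))
      (fun h => h2 (IsDiscreteValuationRing.addVal_eq_top_iff.1 h)) ?_
    rw [← addVal_smul_sub_smul]
    exact addVal_sub_ge
  tri₂ := by
    intro σ τ hστ
    have h1 : β - σ • ϖ ≠ 0 := sub_ne_zero.2 (hβ σ)
    have h2 : β - τ • ϖ ≠ 0 := sub_ne_zero.2 (hβ τ)
    have h3 : σ • ϖ - τ • ϖ ≠ 0 := smul_sub_ne_zero ϖ hfaith hστ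
    have h3' : (σ⁻¹ * τ) • ϖ - ϖ ≠ 0 := by
      intro h
      apply h3
      rw [← IsDiscreteValuationRing.addVal_eq_top_iff, addVal_smul_sub_smul, h,
        IsDiscreteValuationRing.addVal_zero]
    refine min_toNat_le_toNat (fun h => h1 (IsDiscreteValuationRing.addVal_eq_top_iff.1 h))
      (fun h => h2 (IsDiscreteValuationRing.addVal_eq_top_iff.1 h))
      (fun h => h3' (IsDiscreteValuationRing.addVal_eq_top_iff.1 h)) ?_
    rw [← addVal_smul_sub_smul]
    -- `σ ϖ − τ ϖ = (σ ϖ − β) + (β − τ ϖ)`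
    have := addVal_sub_ge (B := B) (x := σ • ϖ) (y := β) (z := τ • ϖ)
    rwa [addVal_sub_comm (σ • ϖ) β] at this

include hfaith in
/-- **(B1), the contradiction**: the valuation of `∏ σ, (β − σ ϖ)` is never `D + i_max − 1`. -/
theorem addVal_prod_ne [Fintype G] [DecidableEq G] (hϖ : ϖ ∈ maximalIdeal B) (hG : ∃ σ : G, σ ≠ 1)
    (β : B) (hβ : ∀ σ : G, β ≠ σ • ϖ) :
    addVal B (∏ σ : G, (β - σ • ϖ))
      ≠ ((D (iNat (G := G) ϖ) + iMax (iNat (G := G) ϖ) - 1 : ℕ) : ℕ∞) := by
  have hsum : addVal B (∏ σ : G, (β - σ • ϖ)) = ((∑ σ : G, dNat ϖ β σ : ℕ) : ℕ∞) := by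
    rw [addVal_prod, Nat.cast_sum]
    refine Finset.sum_congr rfl (fun σ _ => ?_)
    exact (coe_toNat_addVal (sub_ne_zero.2 (hβ σ))).symm
  rw [hsum]
  intro h
  exact (rootDist_dNat ϖ hfaith β hβ).sum_ne (ramFn_iNat ϖ hfaith hϖ) hG (by exact_mod_cast h)

end Action

/-! ### roots of Eisenstein polynomials in a totally ramified extension -/

section Eis

variable {O : Type*} [CommRing O] [IsDomain O] [IsDiscreteValuationRing O] [Algebra O B]

theorem irreducible_of_addVal_eq_one {x : B} (h : addVal B x = 1) : Irreducible x := by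
  obtain ⟨ϖ, hϖ⟩ := IsDiscreteValuationRing.exists_irreducible B
  have : Associated x ϖ := by
    rw [← IsDiscreteValuationRing.addVal_eq_iff_associated, h,
      IsDiscreteValuationRing.addVal_uniformizer hϖ]
  exact this.symm.irreducible hϖ

/-- `v_B(π_O) = n` when `𝔪_O B = 𝔪_B ^ n` -/
theorem addVal_algebraMap_irreducible {n : ℕ}
    (htr : (maximalIdeal O).map (algebraMap O B) = maximalIdeal B ^ n) {π : O}
    (hπ : Irreducible π) : addVal B (algebraMap O B π) = n := by
  obtain ⟨ϖ, hϖ⟩ := IsDiscreteValuationRing.exists_irreducible B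
  rw [hπ.maximalIdeal_eq, hϖ.maximalIdeal_eq, Ideal.map_span, Set.image_singleton,
    Ideal.span_singleton_pow, Ideal.span_singleton_eq_span_singleton] at htr
  rw [(IsDiscreteValuationRing.addVal_eq_iff_associated _ _).2 htr,
    IsDiscreteValuationRing.addVal_pow, IsDiscreteValuationRing.addVal_uniformizer hϖ]
  simp

/-- `v_B(a) ≥ n` for `a ∈ 𝔪_O` when `𝔪_O B = 𝔪_B ^ n` -/
theorem le_addVal_algebraMap_of_mem {n : ℕ}
    (htr : (maximalIdeal O).map (algebraMap O B) = maximalIdeal B ^ n) {a : O}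
    (ha : a ∈ maximalIdeal O) : (n : ℕ∞) ≤ addVal B (algebraMap O B a) := by
  obtain ⟨π, hπ⟩ := IsDiscreteValuationRing.exists_irreducible O
  rw [hπ.maximalIdeal_eq, Ideal.mem_span_singleton] at ha
  obtain ⟨b, rfl⟩ := ha
  rw [map_mul, IsDiscreteValuationRing.addVal_mul, addVal_algebraMap_irreducible htr hπ]
  exact le_self_add

/-- `v_B(a) = n` for `a ∈ 𝔪_O ∖ 𝔪_O ^ 2` when `𝔪_O B = 𝔪_B ^ n` -/
theorem addVal_algebraMap_of_not_mem_sq {n : ℕ}
    (htr : (maximalIdeal O).map (algebraMap O B) = maximalIdeal B ^ n) {a : O}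
    (ha : a ∈ maximalIdeal O) (ha2 : a ∉ maximalIdeal O ^ 2) :
    addVal B (algebraMap O B a) = n := by
  obtain ⟨π, hπ⟩ := IsDiscreteValuationRing.exists_irreducible O
  have ha' := ha
  rw [hπ.maximalIdeal_eq, Ideal.mem_span_singleton] at ha'
  obtain ⟨b, rfl⟩ := ha'
  have hb : IsUnit b := by
    by_contra hb
    apply ha2
    have hbm : b ∈ maximalIdeal O := (mem_maximalIdeal b).2 hb
    rw [pow_two]
    exact Ideal.mul_mem_mul (Perturb.irreducible_mem_maximalIdeal hπ) hbm
  have hb' : IsUnit (algebraMap O B b) := (algebraMap O B).isUnit_map hb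
  have hb0 : addVal B (algebraMap O B b) = 0 := by
    have := IsDiscreteValuationRing.addVal_eq_zero_of_unit hb'.unit
    rwa [IsUnit.unit_spec] at this
  rw [map_mul, IsDiscreteValuationRing.addVal_mul, addVal_algebraMap_irreducible htr hπ, hb0,
    add_zero]

/-- **A root of a monic Eisenstein polynomial of degree `n` over `O` in a DVR `B ⊇ O` with
`𝔪_O B = 𝔪_B ^ n` is a uniformiser of `B`.** -/
theorem irreducible_of_isEisensteinAt_root {n : ℕ} (hn : 1 ≤ n)
    (htr : (maximalIdeal O).map (algebraMap O B) = maximalIdeal B ^ n)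
    (Q : O[X]) (hQm : Q.Monic) (hQ : Q.IsEisensteinAt (maximalIdeal O)) (hdeg : Q.natDegree = n)
    (β : B) (hβ : aeval β Q = 0) : Irreducible β := by
  -- the lower coefficients
  have hcoef : ∀ k, k < n → (n : ℕ∞) ≤ addVal B (algebraMap O B (Q.coeff k)) := fun k hk =>
    le_addVal_algebraMap_of_mem htr (hQ.mem (hdeg ▸ hk))
  have h0 : addVal B (algebraMap O B (Q.coeff 0)) = n :=
    addVal_algebraMap_of_not_mem_sq htr (hQ.mem (by omega)) hQ.notMem
  -- the equation `β ^ n = - ∑_{k < n} a_k β ^ k`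
  have heq : β ^ n + ∑ k ∈ Finset.range n, algebraMap O B (Q.coeff k) * β ^ k = 0 := by
    rw [Polynomial.aeval_eq_sum_range, hdeg, Finset.sum_range_succ] at hβ
    have hlead : Q.coeff n = 1 := by rw [← hdeg]; exact hQm.coeff_natDegree
    rw [hlead, one_smul] at hβ
    rw [add_comm]
    simpa [Algebra.smul_def] using hβ
  -- `β ∈ 𝔪_B`
  have hβm : 1 ≤ addVal B β := by
    by_contra hcon
    have hβ0 : addVal B β = 0 := by
      have : addVal B β < 1 := not_le.1 hcon
      exact Order.lt_one_iff.1 this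
    have hsum : (1 : ℕ∞) ≤ addVal B (∑ k ∈ Finset.range n, algebraMap O B (Q.coeff k) * β ^ k) := by
      refine (addVal B).map_le_sum (fun k hk => ?_)
      rw [IsDiscreteValuationRing.addVal_mul]
      have h1 := hcoef k (Finset.mem_range.1 hk)
      have hn' : (1 : ℕ∞) ≤ n := by exact_mod_cast hn
      exact (hn'.trans h1).trans le_self_add
    have hpow : addVal B (β ^ n) = 0 := by
      rw [IsDiscreteValuationRing.addVal_pow, hβ0, smul_zero]
    have : β ^ n = -∑ k ∈ Finset.range n, algebraMap O B (Q.coeff k) * β ^ k :=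
      eq_neg_of_add_eq_zero_left heq
    rw [this, (addVal B).map_neg] at hpow
    rw [hpow] at hsum
    exact absurd hsum (by simp)
  -- the terms `k ≥ 1` have valuation `> n`
  have hn1 : 0 < n := hn
  have hsplit : ∑ k ∈ Finset.range n, algebraMap O B (Q.coeff k) * β ^ k
      = algebraMap O B (Q.coeff 0)
        + ∑ k ∈ (Finset.range n).erase 0, algebraMap O B (Q.coeff k) * β ^ k := by
    rw [← Finset.add_sum_erase (Finset.range n) _ (Finset.mem_range.2 hn1), pow_zero, mul_one]
  have hrest : ((n + 1 : ℕ) : ℕ∞)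
      ≤ addVal B (∑ k ∈ (Finset.range n).erase 0, algebraMap O B (Q.coeff k) * β ^ k) := by
    refine (addVal B).map_le_sum (fun k hk => ?_)
    rw [Finset.mem_erase, Finset.mem_range] at hk
    rw [IsDiscreteValuationRing.addVal_mul, IsDiscreteValuationRing.addVal_pow]
    have h1 := hcoef k hk.2
    have h2 : (1 : ℕ∞) ≤ k • addVal B β := by
      have hk1 : 1 ≤ k := Nat.one_le_iff_ne_zero.2 hk.1
      calc (1 : ℕ∞) ≤ addVal B β := hβm
        _ = 1 • addVal B β := (one_smul _ _).symm
        _ ≤ k • addVal B β := smul_le_smul_of_nonneg_right hk1 (by positivity)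
    push_cast
    exact add_le_add h1 h2
  have hval : addVal B (β ^ n) = n := by
    have : β ^ n = -(algebraMap O B (Q.coeff 0)
        + ∑ k ∈ (Finset.range n).erase 0, algebraMap O B (Q.coeff k) * β ^ k) := by
      rw [← hsplit]
      exact eq_neg_of_add_eq_zero_left heq
    rw [this, (addVal B).map_neg, (addVal B).map_add_eq_of_lt_left, h0]
    rw [h0]
    refine lt_of_lt_of_le ?_ hrest
    exact_mod_cast Nat.lt_succ_self n
  -- `n · v(β) = n`
  rw [IsDiscreteValuationRing.addVal_pow] at hval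
  apply irreducible_of_addVal_eq_one
  have hfin : addVal B β ≠ ⊤ := by
    intro h
    rw [h] at hval
    have : n • (⊤ : ℕ∞) = ⊤ := by
      rw [nsmul_eq_mul]
      exact ENat.mul_top (by exact_mod_cast hn1.ne')
    rw [this] at hval
    exact ENat.top_ne_natCast _ hval
  lift addVal B β to ℕ using hfin with v hv
  have : n * v = n := by
    have h : ((n * v : ℕ) : ℕ∞) = n := by
      rw [← hval, nsmul_eq_mul]
      push_cast
      rfl
    exact_mod_cast h
  have hv1 : v = 1 := by
    have := Nat.eq_of_mul_eq_mul_left hn1 (this.trans (mul_one n).symm)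
    exact this
  rw [hv1]
  rfl

end Eis

/-! ### the minimal polynomial of a generator of a Galois extension -/

section Galois

/-- field level: if `deg (minpoly F x) = [E : F]` and `E/F` is Galois, then
`minpoly F x = ∏_{τ ∈ Gal(E/F)} (X − τ x)` and `τ ↦ τ x` is injective. -/
theorem algEquiv_apply_injective_of_natDegree {F E : Type*} [Field F] [Field E] [Algebra F E]
    [FiniteDimensional F E] (x : E) (hdeg : (minpoly F x).natDegree = Module.finrank F E) :
    Function.Injective (fun τ : E ≃ₐ[F] E => τ x) := by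
  have hx : IsIntegral F x := Algebra.IsIntegral.isIntegral x
  have htop : IntermediateField.adjoin F {x} = ⊤ := by
    apply IntermediateField.eq_of_le_of_finrank_eq le_top
    rw [IntermediateField.adjoin.finrank hx, hdeg, IntermediateField.finrank_top']
  have halg : Algebra.adjoin F {x} = ⊤ := by
    rw [← IntermediateField.adjoin_simple_toSubalgebra_of_isAlgebraic hx.isAlgebraic, htop,
      IntermediateField.top_toSubalgebra]
  intro τ τ' h
  have : (τ : E →ₐ[F] E) = (τ' : E →ₐ[F] E) := by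
    apply AlgHom.ext_of_adjoin_eq_top halg
    intro y hy
    rw [Set.mem_singleton_iff] at hy
    subst hy
    exact h
  exact AlgEquiv.coe_toAlgHom_injective this

theorem minpoly_map_eq_prod_of_natDegree {F E : Type*} [Field F] [Field E] [Algebra F E]
    [FiniteDimensional F E] [IsGalois F E] (x : E)
    (hdeg : (minpoly F x).natDegree = Module.finrank F E) [Fintype (E ≃ₐ[F] E)] :
    (minpoly F x).map (algebraMap F E) = ∏ τ : E ≃ₐ[F] E, (X - C (τ x)) := by
  classical
  have hx : IsIntegral F x := Algebra.IsIntegral.isIntegral x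
  have hinj := algEquiv_apply_injective_of_natDegree x hdeg
  have hmon : ((minpoly F x).map (algebraMap F E)).Monic := (minpoly.monic hx).map _
  have hPmon : (∏ τ : E ≃ₐ[F] E, (X - C (τ x))).Monic :=
    monic_prod_of_monic _ _ (fun τ _ => monic_X_sub_C _)
  have hPdeg : (∏ τ : E ≃ₐ[F] E, (X - C (τ x))).natDegree = Module.finrank F E := by
    rw [natDegree_prod_of_monic _ _ (fun τ _ => monic_X_sub_C _)]
    simp only [natDegree_X_sub_C, Finset.sum_const, Finset.card_univ, smul_eq_mul, mul_one]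
    rw [← Nat.card_eq_fintype_card, IsGalois.card_aut_eq_finrank]
  -- the product divides the minimal polynomial
  have hdvd : (∏ τ : E ≃ₐ[F] E, (X - C (τ x))) ∣ (minpoly F x).map (algebraMap F E) := by
    have h1 : (∏ τ : E ≃ₐ[F] E, (X - C (τ x)))
        = ((Finset.univ.val.map (fun τ : E ≃ₐ[F] E => τ x)).map (fun a => X - C a)).prod := by
      rw [Multiset.map_map]
      rfl
    rw [h1, Multiset.prod_X_sub_C_dvd_iff_le_roots hmon.ne_zero]
    rw [Multiset.le_iff_subset ((Multiset.nodup_map_iff_of_injective hinj).2 Finset.univ.nodup)]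
    intro a ha
    rw [Multiset.mem_map] at ha
    obtain ⟨τ, -, rfl⟩ := ha
    rw [mem_roots hmon.ne_zero, IsRoot.def, eval_map_algebraMap, aeval_algHom_apply τ,
      minpoly.aeval, map_zero]
  refine (eq_of_monic_of_dvd_of_natDegree_le hPmon hmon hdvd ?_)
  rw [(minpoly.monic hx).natDegree_map, hdeg, hPdeg]

variable (O : Type*) [CommRing O] [IsDomain O] [IsIntegrallyClosed O]
  (F : Type*) [Field F] [Algebra O F] [IsFractionRing O F]
  (E : Type*) [Field E] [Algebra F E] [Algebra O E] [IsScalarTower O F E]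
  [FiniteDimensional F E] [IsGalois F E]
  [Algebra O B] [Algebra B E] [IsScalarTower O B E] [IsIntegralClosure B O E]

/-- ring level: the minimal polynomial over `O` of an element `ϖ` of `B` of full degree is
`∏_{σ ∈ Aut_O(B)} (X − σ ϖ)`, and `σ ↦ σ ϖ` is injective. -/
theorem algEquiv_apply_injective_of_natDegree_int (ϖ : B)
    (hdeg : (minpoly O ϖ).natDegree = Module.finrank F E) :
    Function.Injective (fun σ : B ≃ₐ[O] B => σ ϖ) := by
  have hint : IsIntegral O ϖ := IsIntegralClosure.isIntegral O E ϖ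
  have hmin : minpoly F (algebraMap B E ϖ) = (minpoly O ϖ).map (algebraMap O F) :=
    minpoly.isIntegrallyClosed_eq_field_fractions F E hint
  have hdegF : (minpoly F (algebraMap B E ϖ)).natDegree = Module.finrank F E := by
    rw [hmin, (minpoly.monic hint).natDegree_map, hdeg]
  have hinj := algEquiv_apply_injective_of_natDegree (algebraMap B E ϖ) hdegF
  intro σ σ' h
  have h1 : (galRestrict O F E B).symm σ (algebraMap B E ϖ)
      = (galRestrict O F E B).symm σ' (algebraMap B E ϖ) := by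
    rw [galRestrict_symm_algebraMap_apply, galRestrict_symm_algebraMap_apply]
    exact congrArg _ h
  exact (galRestrict O F E B).symm.injective (hinj h1)

theorem minpoly_map_eq_prod_int (ϖ : B) (hdeg : (minpoly O ϖ).natDegree = Module.finrank F E)
    [Fintype (B ≃ₐ[O] B)] :
    (minpoly O ϖ).map (algebraMap O B) = ∏ σ : B ≃ₐ[O] B, (X - C (σ ϖ)) := by
  classical
  have hint : IsIntegral O ϖ := IsIntegralClosure.isIntegral O E ϖ
  have hmin : minpoly F (algebraMap B E ϖ) = (minpoly O ϖ).map (algebraMap O F) :=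
    minpoly.isIntegrallyClosed_eq_field_fractions F E hint
  have hdegF : (minpoly F (algebraMap B E ϖ)).natDegree = Module.finrank F E := by
    rw [hmin, (minpoly.monic hint).natDegree_map, hdeg]
  have hBE : Function.Injective (algebraMap B E) := IsIntegralClosure.algebraMap_injective B O E
  apply Polynomial.map_injective (algebraMap B E) hBE
  rw [Polynomial.map_map, ← IsScalarTower.algebraMap_eq, IsScalarTower.algebraMap_eq O F E,
    ← Polynomial.map_map, ← hmin, minpoly_map_eq_prod_of_natDegree _ hdegF, Polynomial.map_prod]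
  refine (Fintype.prod_equiv (galRestrict O F E B).toEquiv _ _ (fun τ => ?_))
  rw [Polynomial.map_sub, Polynomial.map_X, Polynomial.map_C]
  congr 2
  exact (algebraMap_galRestrict_apply O τ ϖ).symm

end Galois

/-! ### the generic form of (B1) -/

section Main

variable (O : Type*) [CommRing O] [IsDomain O] [IsDiscreteValuationRing O]
  (F : Type*) [Field F] [Algebra O F] [IsFractionRing O F]
  (E : Type*) [Field E] [Algebra F E] [Algebra O E] [IsScalarTower O F E]
  [FiniteDimensional F E] [IsGalois F E]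
  [Algebra O B] [Algebra B E] [IsScalarTower O B E] [IsIntegralClosure B O E]

/-- the number of `O`-automorphisms of `B` -/
theorem card_algEquiv_int : Nat.card (B ≃ₐ[O] B) = Module.finrank F E := by
  rw [← IsGalois.card_aut_eq_finrank F E]
  exact (Nat.card_congr (galRestrict O F E B).toEquiv).symm

/-- **(B1), generic relative form.**  `E/F` finite Galois, totally ramified of degree `n ≥ 2`
(`𝔪_O B = 𝔪_B ^ n`), `ϖ` a uniformiser of `B` whose minimal polynomial `Q` over `O` has degree `n`,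
`Q̃ = Q − η π^c X^j` monic Eisenstein of degree `n`.  If `Q̃` has a root `β` IN `B`, then
`n c + j ≠ D + i_max − 1`. -/
theorem krasner_rel [Fintype (B ≃ₐ[O] B)] [DecidableEq (B ≃ₐ[O] B)] {n : ℕ} (hn : 2 ≤ n)
    (hfr : Module.finrank F E = n)
    (htr : (maximalIdeal O).map (algebraMap O B) = maximalIdeal B ^ n)
    (ϖ : B) (hϖ : Irreducible ϖ) (hdeg : (minpoly O ϖ).natDegree = n)
    (π : O) (hπ : Irreducible π) (η : O) (hη : IsUnit η) (c j : ℕ)
    (hQm : (minpoly O ϖ - C (η * π ^ c) * X ^ j).Monic)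
    (hQe : (minpoly O ϖ - C (η * π ^ c) * X ^ j).IsEisensteinAt (maximalIdeal O))
    (hQd : (minpoly O ϖ - C (η * π ^ c) * X ^ j).natDegree = n)
    (β : B) (hβ : aeval β (minpoly O ϖ - C (η * π ^ c) * X ^ j) = 0) :
    n * c + j ≠ D (iNat (G := B ≃ₐ[O] B) ϖ) + iMax (iNat (G := B ≃ₐ[O] B) ϖ) - 1 := by
  have hβirr : Irreducible β :=
    irreducible_of_isEisensteinAt_root (by omega) htr _ hQm hQe hQd β hβ
  -- `Q(β) = η π^c β^j`
  have hQβ : aeval β (minpoly O ϖ) = algebraMap O B (η * π ^ c) * β ^ j := by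
    have := hβ
    rw [map_sub, map_mul, aeval_C, map_pow, aeval_X, sub_eq_zero] at this
    exact this
  have hval : addVal B (aeval β (minpoly O ϖ)) = ((n * c + j : ℕ) : ℕ∞) := by
    have hη' : addVal B (algebraMap O B η) = 0 := by
      have h := IsDiscreteValuationRing.addVal_eq_zero_of_unit ((algebraMap O B).isUnit_map hη).unit
      rwa [IsUnit.unit_spec] at h
    have e1 : algebraMap O B (η * π ^ c) = algebraMap O B η * (algebraMap O B π) ^ c := by
      rw [map_mul, map_pow]
    rw [hQβ, e1, IsDiscreteValuationRing.addVal_mul,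
      IsDiscreteValuationRing.addVal_mul, IsDiscreteValuationRing.addVal_pow,
      IsDiscreteValuationRing.addVal_pow, hη', addVal_algebraMap_irreducible htr hπ,
      IsDiscreteValuationRing.addVal_uniformizer hβirr, zero_add, nsmul_eq_mul, nsmul_eq_mul,
      mul_one]
    push_cast
    ring
  -- the product formula
  have hprod : aeval β (minpoly O ϖ) = ∏ σ : B ≃ₐ[O] B, (β - σ • ϖ) := by
    have h1 := minpoly_map_eq_prod_int O F E ϖ (hdeg.trans hfr.symm)
    have h2 := congrArg (Polynomial.eval β) h1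
    rw [Polynomial.eval_map_algebraMap, Polynomial.eval_prod] at h2
    rw [h2]
    refine Finset.prod_congr rfl (fun σ _ => ?_)
    simp [AlgEquiv.smul_def]
  have hinj := algEquiv_apply_injective_of_natDegree_int O F E ϖ (hdeg.trans hfr.symm)
  have hfaith : ∀ σ : B ≃ₐ[O] B, σ ≠ 1 → σ • ϖ ≠ ϖ := by
    intro σ hσ h
    exact hσ (hinj (by simpa [AlgEquiv.smul_def] using h))
  have hβne : ∀ σ : B ≃ₐ[O] B, β ≠ σ • ϖ := by
    intro σ h
    have h0 : aeval β (minpoly O ϖ) = 0 := by
      rw [h, AlgEquiv.smul_def, aeval_algHom_apply, minpoly.aeval, map_zero]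
    rw [h0, IsDiscreteValuationRing.addVal_zero] at hval
    exact ENat.top_ne_natCast _ hval
  have hG : ∃ σ : B ≃ₐ[O] B, σ ≠ 1 := by
    have hcard : Nat.card (B ≃ₐ[O] B) = n := (card_algEquiv_int O F E).trans hfr
    have : Nontrivial (B ≃ₐ[O] B) := by
      rw [← Finite.one_lt_card_iff_nontrivial, hcard]
      omega
    exact exists_ne 1
  have hϖm : ϖ ∈ maximalIdeal B := Perturb.irreducible_mem_maximalIdeal hϖ
  have hne := addVal_prod_ne (G := B ≃ₐ[O] B) ϖ hfaith hϖm hG β hβne
  rw [← hprod, hval] at hne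
  intro h
  exact hne (by rw [h])

end Main

end Fermat.Agent.S56.Flat.KummerBound.KrasnerRel
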