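/-
S56, block F (FLAT), leaf [FL-B] (support for FLB-Main): the subgroups of
`G = Aut(𝒪_L/𝒪_{K₀})` fixing the integers of an intermediate field.

Vocabulary of `Defs.lean` / S55 `Local/KillTransport`: `K₀ ≤ M ≤ L` subfields of `PadicAlgCl p`,
`L/ℚ_p` finite Galois, rings of integers `integralClosure ℤ_[p] _`, inclusions `intIncl ℤ_[p] _`
(= `algebraMap` of the local instances `algIntInt ℤ_[p] _`).  All statements are about an
ARBITRARY subgroup `P` of `G` with a membership characterisation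
`hP : ∀ σ, σ ∈ P ↔ ∀ x : 𝒪_M, σ (intIncl hML x) = intIncl hML x` (`fixer hKL hML` is one).

* `intIncl_intIncl` : transitivity of the inclusions;
* `fixer`, `mem_fixer_iff`;
* `equivOfMem` : `P ≃ Aut(𝒪_L/𝒪_M)`; `card_eq_finrank` : **(card)** `#P = [L : M]`;
* `exists_intIncl_eq_of_fixed` : `𝒪_L^P = 𝒪_M`;
* `mem_adjoin_range`, `mem_adjoin_of_fixed` : **(hy)** the hypothesis `hy` of
  `Comb.addVal_le_sum_iFun_coset` from `𝒪_{E₁} = 𝒪_{F₁}[y₁]`;
* `le_of_mem_iff` : `H ≤ P`; `addVal_le_sum_iFun_coset` : **(B3b)** in concrete form;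
* `relIndex_eq_finrank` : `[P : H] = [E₁ : F₁]`.
-/
import Mathlib
import Fermat.Agent.S55.Local.KillTransport
import Fermat.Agent.S56.Flat.KummerBound.Defs
import Fermat.Agent.S56.Flat.KummerBound.KrasnerRel
import Fermat.Agent.S56.Flat.KummerBound.Comb

set_option autoImplicit false
set_option linter.style.haveILetI false
set_option linter.unusedSectionVars false

namespace Fermat.Agent.S56.Flat.KummerBound.Fixer

open IsLocalRing IntermediateField Polynomial Fermat.Agent.S55.Local Fermat.Agent.S55.Local.Unram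
  Fermat.Agent.S55.Local.KillTransport Fermat.Agent.S55.LocalInt

attribute [local instance 2000] Algebra.toSMul Algebra.toModule

variable {p : ℕ} [Fact p.Prime]
variable {K₀ M L : IntermediateField ℚ_[p] (PadicAlgCl p)}

theorem intIncl_intIncl (hKM : K₀ ≤ M) (hML : M ≤ L) (x : integralClosure ℤ_[p] K₀) :
    intIncl ℤ_[p] hML (intIncl ℤ_[p] hKM x) = intIncl ℤ_[p] (hKM.trans hML) x := by
  apply Subtype.ext
  apply Subtype.ext
  rw [coe_intIncl, coe_intIncl, coe_intIncl]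

/-- The subgroup of `Aut(𝒪_L/𝒪_{K₀})` fixing the integers of `M`. -/
def fixer (hKL : K₀ ≤ L) (hML : M ≤ L) :
    letI := algIntInt ℤ_[p] hKL
    Subgroup (integralClosure ℤ_[p] L ≃ₐ[integralClosure ℤ_[p] K₀] integralClosure ℤ_[p] L) :=
  letI := algIntInt ℤ_[p] hKL
  { carrier := {σ | ∀ x : integralClosure ℤ_[p] M,
      σ (intIncl ℤ_[p] hML x) = intIncl ℤ_[p] hML x}
    mul_mem' := fun {a b} ha hb x => by
      rw [AlgEquiv.mul_apply, hb x, ha x]
    one_mem' := fun x => rfl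
    inv_mem' := fun {a} ha x => by
      have h := ha x
      calc a⁻¹ (intIncl ℤ_[p] hML x) = a⁻¹ (a (intIncl ℤ_[p] hML x)) := by rw [h]
        _ = intIncl ℤ_[p] hML x := by
          rw [← AlgEquiv.mul_apply, inv_mul_cancel, AlgEquiv.one_apply] }

theorem mem_fixer_iff (hKL : K₀ ≤ L) (hML : M ≤ L) :
    letI := algIntInt ℤ_[p] hKL
    ∀ σ : integralClosure ℤ_[p] L ≃ₐ[integralClosure ℤ_[p] K₀] integralClosure ℤ_[p] L,
      σ ∈ fixer hKL hML ↔ ∀ x : integralClosure ℤ_[p] M,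
        σ (intIncl ℤ_[p] hML x) = intIncl ℤ_[p] hML x :=
  fun _ => Iff.rfl

/-- Adjoining to a ring or to its image is the same. -/
theorem mem_adjoin_range {A B : Type*} [CommRing A] [CommRing B] [Algebra A B] (s : Set B) {b : B}
    (hb : b ∈ Algebra.adjoin A s) : b ∈ Algebra.adjoin (algebraMap A B).range s := by
  induction hb using Algebra.adjoin_induction with
  | mem x hx => exact Algebra.subset_adjoin hx
  | algebraMap r =>
    exact Subalgebra.algebraMap_mem _ (⟨algebraMap A B r, r, rfl⟩ : (algebraMap A B).range)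
  | add a b _ _ iha ihb => exact Subalgebra.add_mem _ iha ihb
  | mul a b _ _ iha ihb => exact Subalgebra.mul_mem _ iha ihb

section Card

variable [FiniteDimensional ℚ_[p] L] [IsGalois ℚ_[p] L]

/-- A subgroup `P` of `Aut(𝒪_L/𝒪_{K₀})` consisting of the automorphisms fixing `𝒪_M` is in
bijection with `Aut(𝒪_L/𝒪_M)`. -/
noncomputable def equivOfMem (hKM : K₀ ≤ M) (hML : M ≤ L) :
    letI := algIntInt ℤ_[p] (hKM.trans hML)
    letI := algIntInt ℤ_[p] hML
    ∀ (P : Subgroup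
      (integralClosure ℤ_[p] L ≃ₐ[integralClosure ℤ_[p] K₀] integralClosure ℤ_[p] L)),
    (∀ σ, σ ∈ P ↔ ∀ x : integralClosure ℤ_[p] M,
        σ (intIncl ℤ_[p] hML x) = intIncl ℤ_[p] hML x) →
    ↥P ≃ (integralClosure ℤ_[p] L ≃ₐ[integralClosure ℤ_[p] M] integralClosure ℤ_[p] L) :=
  letI := algIntInt ℤ_[p] (hKM.trans hML)
  letI := algIntInt ℤ_[p] hML
  fun P hP =>
  { toFun := fun σ =>
      { (σ.1 : integralClosure ℤ_[p] L ≃+* integralClosure ℤ_[p] L) with
        commutes' := fun x => (hP σ.1).1 σ.2 x }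
    invFun := fun τ =>
      ⟨{ (τ : integralClosure ℤ_[p] L ≃+* integralClosure ℤ_[p] L) with
          commutes' := fun x => by
            have h := τ.commutes (intIncl ℤ_[p] hKM x)
            have h2 : algebraMap (integralClosure ℤ_[p] M) (integralClosure ℤ_[p] L)
                (intIncl ℤ_[p] hKM x) =
                algebraMap (integralClosure ℤ_[p] K₀) (integralClosure ℤ_[p] L) x :=
              intIncl_intIncl hKM hML x
            rw [h2] at h
            exact h },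
        (hP _).2 fun x => τ.commutes x⟩
    left_inv := fun σ => Subtype.ext (AlgEquiv.ext fun _ => rfl)
    right_inv := fun τ => AlgEquiv.ext fun _ => rfl }

/-- **(card)** `#P = [L : M]` for the fixer `P` of `𝒪_M`. -/
theorem card_eq_finrank (hKM : K₀ ≤ M) (hML : M ≤ L) :
    letI := algIntInt ℤ_[p] (hKM.trans hML)
    letI := algInc hML
    ∀ (P : Subgroup
      (integralClosure ℤ_[p] L ≃ₐ[integralClosure ℤ_[p] K₀] integralClosure ℤ_[p] L)),
    (∀ σ, σ ∈ P ↔ ∀ x : integralClosure ℤ_[p] M,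
        σ (intIncl ℤ_[p] hML x) = intIncl ℤ_[p] hML x) →
    Nat.card P = Module.finrank M L := by
  letI := algIntInt ℤ_[p] (hKM.trans hML)
  letI := algInc hML
  letI := algIntField ℤ_[p] hML
  letI := algIntInt ℤ_[p] hML
  haveI := isScalarTower_algInc hML
  haveI := isScalarTower_int_field ℤ_[p] hML
  haveI := isScalarTower_int_int ℤ_[p] hML
  haveI := isScalarTower_base_int_int ℤ_[p] hML
  haveI := isIntegralClosure_int ℤ_[p] hML
  haveI : FiniteDimensional ℚ_[p] M :=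
    FiniteDimensional.of_injective (IntermediateField.inclusion hML).toLinearMap
      (IntermediateField.inclusion hML).injective
  haveI : FiniteDimensional M L := Module.Finite.right ℚ_[p] M L
  haveI : IsGalois M L := IsGalois.tower_top_of_isGalois ℚ_[p] M L
  intro P hP
  rw [Nat.card_congr (equivOfMem hKM hML P hP)]
  exact KrasnerRel.card_algEquiv_int (integralClosure ℤ_[p] M) M L

/-- **(fix)** an integer of `L` fixed by the fixer `P` of `𝒪_M` is an integer of `M`. -/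
theorem exists_intIncl_eq_of_fixed (hKM : K₀ ≤ M) (hML : M ≤ L) :
    letI := algIntInt ℤ_[p] (hKM.trans hML)
    ∀ (P : Subgroup
      (integralClosure ℤ_[p] L ≃ₐ[integralClosure ℤ_[p] K₀] integralClosure ℤ_[p] L)),
    (∀ σ, σ ∈ P ↔ ∀ x : integralClosure ℤ_[p] M,
        σ (intIncl ℤ_[p] hML x) = intIncl ℤ_[p] hML x) →
    ∀ b : integralClosure ℤ_[p] L, (∀ τ ∈ P, τ b = b) →
      ∃ x : integralClosure ℤ_[p] M, intIncl ℤ_[p] hML x = b := by
  letI := algIntInt ℤ_[p] (hKM.trans hML)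
  letI := algInc hML
  letI := algIntField ℤ_[p] hML
  letI := algIntInt ℤ_[p] hML
  haveI := isScalarTower_algInc hML
  haveI := isScalarTower_int_field ℤ_[p] hML
  haveI := isScalarTower_int_int ℤ_[p] hML
  haveI := isScalarTower_base_int_int ℤ_[p] hML
  haveI := isIntegralClosure_int ℤ_[p] hML
  haveI : FiniteDimensional ℚ_[p] M :=
    FiniteDimensional.of_injective (IntermediateField.inclusion hML).toLinearMap
      (IntermediateField.inclusion hML).injective
  haveI : FiniteDimensional M L := Module.Finite.right ℚ_[p] M L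
  haveI : IsGalois M L := IsGalois.tower_top_of_isGalois ℚ_[p] M L
  intro P hP b hb
  have hfix : ∀ f : L ≃ₐ[M] L, f (b : L) = (b : L) := by
    intro f
    set τ := (equivOfMem hKM hML P hP).symm
      (galRestrict (integralClosure ℤ_[p] M) M L (integralClosure ℤ_[p] L) f) with hτ
    have h1 : (τ : integralClosure ℤ_[p] L ≃ₐ[integralClosure ℤ_[p] K₀]
        integralClosure ℤ_[p] L) b = b := hb τ.1 τ.2
    have h2 : (τ : integralClosure ℤ_[p] L ≃ₐ[integralClosure ℤ_[p] K₀]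
        integralClosure ℤ_[p] L) b =
        galRestrict (integralClosure ℤ_[p] M) M L (integralClosure ℤ_[p] L) f b := rfl
    have h3 := algebraMap_galRestrict_apply (integralClosure ℤ_[p] M) f b
    rw [← h2, h1] at h3
    exact h3.symm
  obtain ⟨m, hm⟩ := (IsGalois.mem_range_algebraMap_iff_fixed (F := M) (E := L) (b : L)).2 hfix
  refine exists_intIncl_eq hML b ?_
  have : ((b : L) : PadicAlgCl p) = (m : PadicAlgCl p) := by
    rw [← hm]; rfl
  rw [this]
  exact m.2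

/-- **(hy)** the hypothesis `hy` of `Comb.addVal_le_sum_iFun_coset`: if `𝒪_{E₁} = 𝒪_{F₁}[y₁]`
then every integer of `L` fixed by the fixer `H` of `𝒪_{E₁}` is a polynomial in (the image of)
`y₁` with coefficients in (the image of) `𝒪_{F₁}`. -/
theorem mem_adjoin_of_fixed {F₁ E₁ : IntermediateField ℚ_[p] (PadicAlgCl p)} (hKF : K₀ ≤ F₁)
    (hFE : F₁ ≤ E₁) (hEL : E₁ ≤ L) :
    letI := algIntInt ℤ_[p] (hKF.trans (hFE.trans hEL))
    letI := algIntInt ℤ_[p] hFE
    ∀ (H : Subgroup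
      (integralClosure ℤ_[p] L ≃ₐ[integralClosure ℤ_[p] K₀] integralClosure ℤ_[p] L)),
    (∀ σ, σ ∈ H ↔ ∀ x : integralClosure ℤ_[p] E₁,
        σ (intIncl ℤ_[p] hEL x) = intIncl ℤ_[p] hEL x) →
    ∀ y₁ : integralClosure ℤ_[p] E₁, Algebra.adjoin (integralClosure ℤ_[p] F₁) {y₁} = ⊤ →
    ∀ b : integralClosure ℤ_[p] L, (∀ τ ∈ H, τ • b = b) →
      b ∈ Algebra.adjoin (intIncl ℤ_[p] (hFE.trans hEL)).toRingHom.range
        {intIncl ℤ_[p] hEL y₁} := by
  letI := algIntInt ℤ_[p] (hKF.trans (hFE.trans hEL))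
  letI := algIntInt ℤ_[p] hFE
  letI := algIntInt ℤ_[p] (hFE.trans hEL)
  intro H hH y₁ hy₁ b hb
  obtain ⟨x, rfl⟩ := exists_intIncl_eq_of_fixed (hKF.trans hFE) hEL H hH b hb
  let φ : integralClosure ℤ_[p] E₁ →ₐ[integralClosure ℤ_[p] F₁] integralClosure ℤ_[p] L :=
    { (intIncl ℤ_[p] hEL).toRingHom with
      commutes' := fun r => intIncl_intIncl hFE hEL r }
  have hx : x ∈ Algebra.adjoin (integralClosure ℤ_[p] F₁) {y₁} := by
    rw [hy₁]; exact Algebra.mem_top
  have h1 : φ x ∈ (Algebra.adjoin (integralClosure ℤ_[p] F₁) {y₁}).map φ :=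
    ⟨x, hx, rfl⟩
  rw [AlgHom.map_adjoin, Set.image_singleton] at h1
  exact mem_adjoin_range _ h1

/-- the fixer of the larger field is the smaller group -/
theorem le_of_mem_iff {F₁ E₁ : IntermediateField ℚ_[p] (PadicAlgCl p)} (hKL : K₀ ≤ L)
    (hFE : F₁ ≤ E₁) (hEL : E₁ ≤ L) :
    letI := algIntInt ℤ_[p] hKL
    ∀ (P H : Subgroup
      (integralClosure ℤ_[p] L ≃ₐ[integralClosure ℤ_[p] K₀] integralClosure ℤ_[p] L)),
    (∀ σ, σ ∈ P ↔ ∀ x : integralClosure ℤ_[p] F₁,
        σ (intIncl ℤ_[p] (hFE.trans hEL) x) = intIncl ℤ_[p] (hFE.trans hEL) x) →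
    (∀ σ, σ ∈ H ↔ ∀ x : integralClosure ℤ_[p] E₁,
        σ (intIncl ℤ_[p] hEL x) = intIncl ℤ_[p] hEL x) → H ≤ P := by
  letI := algIntInt ℤ_[p] hKL
  intro P H hP hH σ hσ
  rw [hP]
  intro x
  rw [← intIncl_intIncl hFE hEL]
  exact (hH σ).1 hσ _

/-- **(B3b), concrete.** -/
theorem addVal_le_sum_iFun_coset {F₁ E₁ : IntermediateField ℚ_[p] (PadicAlgCl p)} (hKF : K₀ ≤ F₁)
    (hFE : F₁ ≤ E₁) (hEL : E₁ ≤ L) :
    letI := algIntInt ℤ_[p] (hKF.trans (hFE.trans hEL))
    letI := algIntInt ℤ_[p] hFE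
    ∀ [Fintype (integralClosure ℤ_[p] L ≃ₐ[integralClosure ℤ_[p] K₀] integralClosure ℤ_[p] L)]
      [DecidableEq
        (integralClosure ℤ_[p] L ≃ₐ[integralClosure ℤ_[p] K₀] integralClosure ℤ_[p] L)]
      (P H : Subgroup
        (integralClosure ℤ_[p] L ≃ₐ[integralClosure ℤ_[p] K₀] integralClosure ℤ_[p] L))
      [DecidablePred (· ∈ H)],
    (∀ σ, σ ∈ P ↔ ∀ x : integralClosure ℤ_[p] F₁,
        σ (intIncl ℤ_[p] (hFE.trans hEL) x) = intIncl ℤ_[p] (hFE.trans hEL) x) →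
    (∀ σ, σ ∈ H ↔ ∀ x : integralClosure ℤ_[p] E₁,
        σ (intIncl ℤ_[p] hEL x) = intIncl ℤ_[p] hEL x) →
    ∀ y₁ : integralClosure ℤ_[p] E₁, Algebra.adjoin (integralClosure ℤ_[p] F₁) {y₁} = ⊤ →
    ∀ (ϖ : integralClosure ℤ_[p] L),
    ∀ σ ∈ P, IsDiscreteValuationRing.addVal (integralClosure ℤ_[p] L)
        (σ • intIncl ℤ_[p] hEL y₁ - intIncl ℤ_[p] hEL y₁) ≤
      ∑ τ : H, Comb.iFun ϖ (σ * (τ : integralClosure ℤ_[p] L ≃ₐ[integralClosure ℤ_[p] K₀]
        integralClosure ℤ_[p] L)) := by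
  letI := algIntInt ℤ_[p] (hKF.trans (hFE.trans hEL))
  letI := algIntInt ℤ_[p] hFE
  intro _ _ P H _ hP hH y₁ hy₁ ϖ σ hσ
  refine Comb.addVal_le_sum_iFun_coset ϖ H σ (intIncl ℤ_[p] (hFE.trans hEL)).toRingHom.range ?_
    (intIncl ℤ_[p] hEL y₁) (mem_adjoin_of_fixed hKF hFE hEL H hH y₁ hy₁)
  rintro r ⟨x, rfl⟩
  exact (hP σ).1 hσ x

/-- **(relIndex)** `[P : H] = [E₁ : F₁]` for the fixers of `𝒪_{F₁}`, `𝒪_{E₁}`. -/
theorem relIndex_eq_finrank {F₁ E₁ : IntermediateField ℚ_[p] (PadicAlgCl p)} (hKF : K₀ ≤ F₁)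
    (hFE : F₁ ≤ E₁) (hEL : E₁ ≤ L) :
    letI := algIntInt ℤ_[p] (hKF.trans (hFE.trans hEL))
    letI := algInc hFE
    ∀ (P H : Subgroup
      (integralClosure ℤ_[p] L ≃ₐ[integralClosure ℤ_[p] K₀] integralClosure ℤ_[p] L)),
    (∀ σ, σ ∈ P ↔ ∀ x : integralClosure ℤ_[p] F₁,
        σ (intIncl ℤ_[p] (hFE.trans hEL) x) = intIncl ℤ_[p] (hFE.trans hEL) x) →
    (∀ σ, σ ∈ H ↔ ∀ x : integralClosure ℤ_[p] E₁,
        σ (intIncl ℤ_[p] hEL x) = intIncl ℤ_[p] hEL x) →
    H.relIndex P = Module.finrank F₁ E₁ := by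
  letI := algIntInt ℤ_[p] (hKF.trans (hFE.trans hEL))
  letI := algInc hFE
  letI := algInc hEL
  letI := algInc (hFE.trans hEL)
  haveI : IsScalarTower F₁ E₁ L := IsScalarTower.of_algebraMap_eq fun _ => rfl
  intro P H hP hH
  have hHP : H ≤ P := le_of_mem_iff (hKF.trans (hFE.trans hEL)) hFE hEL P H hP hH
  have hcP := card_eq_finrank hKF (hFE.trans hEL) P hP
  have hcH := card_eq_finrank (hKF.trans hFE) hEL H hH
  have h1 := Subgroup.card_mul_index (H.subgroupOf P)
  rw [Nat.card_congr (Subgroup.subgroupOfEquivOfLe hHP).toEquiv] at h1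
  have h2 : Nat.card H * H.relIndex P = Nat.card P := h1
  rw [hcP, hcH, ← Module.finrank_mul_finrank F₁ E₁ L, mul_comm] at h2
  haveI : FiniteDimensional ℚ_[p] E₁ :=
    FiniteDimensional.of_injective (IntermediateField.inclusion hEL).toLinearMap
      (IntermediateField.inclusion hEL).injective
  haveI : FiniteDimensional E₁ L := by
    haveI := isScalarTower_algInc hEL
    exact Module.Finite.right ℚ_[p] E₁ L
  have hpos : 0 < Module.finrank E₁ L := Module.finrank_pos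
  exact Nat.eq_of_mul_eq_mul_right hpos h2

end Card

end Fermat.Agent.S56.Flat.KummerBound.Fixer
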