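/-
S56, block F (FLAT), leaf [FL-B]: tower fact (T3) for the Kummer form of Fontaine's bound.

Vocabulary of `Defs.lean` / S55 `Local/KillTransport`: subfields of `PadicAlgCl p` finite over
`ℚ_p`, rings of integers `integralClosure ℤ_[p] _`, relative algebra structures `algInc`,
`algIntInt` (local instances).  `K₀` is the maximal unramified subextension of `L`
(`Unram.exists_isUnramifiedIn_le L` produces exactly the hypotheses `hK₀`, `hdeg`).

* `map_maximalIdeal_eq_pow_finrank` : **(T3)** `K₀ ≤ M ≤ L` ⇒ `𝔪_M 𝒪_L = 𝔪_L ^ [L : M]`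
  (`L/M` is totally ramified);
* `span_natCast_eq_maximalIdeal` : `(p) = 𝔪_{K₀}`;
* `span_natCast_eq_pow_mul` : `(p) = 𝔪_M ^ e` ⇒ `(p) = 𝔪_L ^ (e [L : M])`;
* `span_natCast_eq_pow_finrank` : `(p) = 𝔪_L ^ [L : K₀]`.
-/
import Mathlib
import Fermat.Agent.S55.Local.KillTransport
import Fermat.Agent.S55.Local.UnramBC
import Fermat.Agent.S56.Flat.KummerBound.Defs

set_option autoImplicit false
set_option linter.style.haveILetI false
set_option linter.unusedSectionVars false

namespace Fermat.Agent.S56.Flat.KummerBound.TotRam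

open IsLocalRing IntermediateField Fermat.Agent.S55.Local Fermat.Agent.S55.Local.Unram
  Fermat.Agent.S55.Local.KillTransport Fermat.Agent.S55.LocalInt

attribute [local instance 2000] Algebra.toSMul Algebra.toModule

variable {p : ℕ} [Fact p.Prime]

/-- **(T3)** Above the maximal unramified subextension `K₀` of `L` everything is totally
ramified: `K₀ ≤ M ≤ L` ⇒ `𝔪_M 𝒪_L = 𝔪_L ^ [L : M]`. -/
theorem map_maximalIdeal_eq_pow_finrank {K₀ M L : IntermediateField ℚ_[p] (PadicAlgCl p)}
    [FiniteDimensional ℚ_[p] L] (hK₀ : IsUnramifiedIn ℤ_[p] K₀)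
    (hdeg : Module.finrank ℚ_[p] K₀ =
      Module.finrank (ResidueField ℤ_[p]) (ResidueField (integralClosure ℤ_[p] L)))
    (hKM : K₀ ≤ M) (hML : M ≤ L) :
    letI := algInc hML
    letI := algIntInt ℤ_[p] hML
    (maximalIdeal (integralClosure ℤ_[p] M)).map
        (algebraMap (integralClosure ℤ_[p] M) (integralClosure ℤ_[p] L)) =
      maximalIdeal (integralClosure ℤ_[p] L) ^ Module.finrank M L := by
  letI := algInc hML
  letI := algIntField ℤ_[p] hML
  letI := algIntInt ℤ_[p] hML
  haveI := isScalarTower_algInc hML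
  haveI := isScalarTower_int_field ℤ_[p] hML
  haveI := isScalarTower_int_int ℤ_[p] hML
  haveI := isScalarTower_base_int_int ℤ_[p] hML
  haveI := isIntegralClosure_int ℤ_[p] hML
  haveI : FiniteDimensional ℚ_[p] K₀ := hK₀.finiteDimensional
  haveI : FiniteDimensional ℚ_[p] M := by
    exact FiniteDimensional.of_injective (IntermediateField.inclusion hML).toLinearMap
      (IntermediateField.inclusion hML).injective
  haveI : FiniteDimensional M L := Module.Finite.right ℚ_[p] M L
  haveI : Algebra.IsSeparable M L := Algebra.IsAlgebraic.isSeparable_of_perfectField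
  have he := map_maximalIdeal_eq_pow_ramificationIdx (integralClosure ℤ_[p] M) M L
    (integralClosure ℤ_[p] L)
  have hef := Fermat.Agent.S55.GL.LocalDegrees.ramificationIdx_mul_inertiaDeg_eq_finrank
    (integralClosure ℤ_[p] M) M L (integralClosure ℤ_[p] L)
  -- local homs
  have hinjM : Function.Injective (algebraMap (integralClosure ℤ_[p] M) (integralClosure ℤ_[p] L)) :=
    intIncl_injective hML
  haveI hlocML : IsLocalHom (algebraMap (integralClosure ℤ_[p] M) (integralClosure ℤ_[p] L)) := by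
    haveI : Algebra.IsIntegral (integralClosure ℤ_[p] M) (integralClosure ℤ_[p] L) :=
      IsIntegralClosure.isIntegral_algebra (integralClosure ℤ_[p] M) L
    exact (algebraMap_isIntegral_iff.mpr ‹_›).isLocalHom hinjM
  haveI hlocM : IsLocalHom (algebraMap ℤ_[p] (integralClosure ℤ_[p] M)) := inferInstance
  haveI hlocL : IsLocalHom (algebraMap ℤ_[p] (integralClosure ℤ_[p] L)) := inferInstance
  haveI hlocK : IsLocalHom (algebraMap ℤ_[p] (integralClosure ℤ_[p] K₀)) := inferInstance
  haveI := Fermat.Agent.S55.GL.LocalDegrees.liesOver_maximalIdeal (integralClosure ℤ_[p] M) M L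
    (integralClosure ℤ_[p] L)
  have htower := Ideal.inertiaDeg_tower (R := ℤ_[p]) (maximalIdeal (integralClosure ℤ_[p] M))
    (maximalIdeal (integralClosure ℤ_[p] L))
  have hfL := finrank_residueField_eq_inertiaDeg (O := ℤ_[p]) (B := integralClosure ℤ_[p] L)
  have hfM := finrank_residueField_eq_inertiaDeg (O := ℤ_[p]) (B := integralClosure ℤ_[p] M)
  have hdvd := hK₀.finrank_residueField_dvd hKM
  rw [← hK₀.finrank_eq, hdeg, hfL, hfM] at hdvd
  have hpos : 0 < (maximalIdeal (integralClosure ℤ_[p] L)).inertiaDeg ℤ_[p] :=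
    Ideal.inertiaDeg_pos _ _
  have hf1 : (maximalIdeal (integralClosure ℤ_[p] L)).inertiaDeg (integralClosure ℤ_[p] M) = 1 := by
    obtain ⟨d, hd⟩ := hdvd
    rw [hd, mul_assoc] at htower
    have h1 : d * (maximalIdeal (integralClosure ℤ_[p] L)).inertiaDeg (integralClosure ℤ_[p] M) = 1 :=
      Nat.eq_of_mul_eq_mul_left hpos (by rw [← htower, mul_one])
    exact Nat.eq_one_of_mul_eq_one_left h1
  rw [hf1, mul_one] at hef
  rw [he, hef]

/-- In an unramified extension `(p) = 𝔪`. -/
theorem span_natCast_eq_maximalIdeal {K₀ : IntermediateField ℚ_[p] (PadicAlgCl p)}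
    (hK₀ : IsUnramifiedIn ℤ_[p] K₀) :
    Ideal.span {((p : ℕ) : integralClosure ℤ_[p] K₀)} =
      maximalIdeal (integralClosure ℤ_[p] K₀) := by
  haveI : FiniteDimensional ℚ_[p] K₀ := hK₀.finiteDimensional
  rw [← Fermat.Agent.S55.LocalInt.map_maximalIdeal_eq_span]
  exact hK₀.isUnram.map_eq

/-- Transport of `(p) = 𝔪_M ^ e` along `M ≤ L` above the maximal unramified subextension:
`(p) = 𝔪_L ^ (e [L : M])`. -/
theorem span_natCast_eq_pow_mul {K₀ M L : IntermediateField ℚ_[p] (PadicAlgCl p)}
    [FiniteDimensional ℚ_[p] L] (hK₀ : IsUnramifiedIn ℤ_[p] K₀)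
    (hdeg : Module.finrank ℚ_[p] K₀ =
      Module.finrank (ResidueField ℤ_[p]) (ResidueField (integralClosure ℤ_[p] L)))
    (hKM : K₀ ≤ M) (hML : M ≤ L) {e : ℕ}
    (he : Ideal.span {((p : ℕ) : integralClosure ℤ_[p] M)} =
      maximalIdeal (integralClosure ℤ_[p] M) ^ e) :
    letI := algInc hML
    Ideal.span {((p : ℕ) : integralClosure ℤ_[p] L)} =
      maximalIdeal (integralClosure ℤ_[p] L) ^ (e * Module.finrank M L) := by
  letI := algInc hML
  letI := algIntInt ℤ_[p] hML
  have h := map_maximalIdeal_eq_pow_finrank hK₀ hdeg hKM hML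
  have h1 : Ideal.span {((p : ℕ) : integralClosure ℤ_[p] L)} =
      (Ideal.span {((p : ℕ) : integralClosure ℤ_[p] M)}).map
        (algebraMap (integralClosure ℤ_[p] M) (integralClosure ℤ_[p] L)) := by
    rw [Ideal.map_span, Set.image_singleton, map_natCast]
  rw [h1, he, Ideal.map_pow, h, ← pow_mul, mul_comm]

/-- `(p) = 𝔪_L ^ [L : K₀]` for the maximal unramified subextension `K₀` of `L`. -/
theorem span_natCast_eq_pow_finrank {K₀ L : IntermediateField ℚ_[p] (PadicAlgCl p)}
    [FiniteDimensional ℚ_[p] L] (hK₀ : IsUnramifiedIn ℤ_[p] K₀)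
    (hdeg : Module.finrank ℚ_[p] K₀ =
      Module.finrank (ResidueField ℤ_[p]) (ResidueField (integralClosure ℤ_[p] L)))
    (hKL : K₀ ≤ L) :
    letI := algInc hKL
    Ideal.span {((p : ℕ) : integralClosure ℤ_[p] L)} =
      maximalIdeal (integralClosure ℤ_[p] L) ^ Module.finrank K₀ L := by
  letI := algInc hKL
  have h := span_natCast_eq_pow_mul hK₀ hdeg le_rfl hKL (e := 1)
    (by rw [pow_one]; exact span_natCast_eq_maximalIdeal hK₀)
  rwa [one_mul] at h

end Fermat.Agent.S56.Flat.KummerBound.TotRam
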