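/-
S56, block F (FLAT), leaf [FLB-B1]: the concrete Fontaine–Krasner count (B1) of the Kummer form
of Fontaine's ramification bound (`moonshots` row 51).

Vocabulary of `Defs.lean` / S55 `Local/KillTransport`: `K₀ ≤ L` subfields of `PadicAlgCl p`,
`L/ℚ_p` finite Galois, `K₀` the maximal unramified subextension of `L` (hypotheses `hK₀`, `hdeg`
= output of `Unram.exists_isUnramifiedIn_le L`), rings of integers `integralClosure ℤ_[p] _`,
relative algebra structures `algInc hKL`, `algIntInt ℤ_[p] hKL` (local instances),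
`G = Aut(𝒪_L/𝒪_{K₀})` acting on `𝒪_L` (`AlgEquiv.applyMulSemiringAction`).

* `adjoin_eq_top_of_le`, `exists_root_int`, `nonempty_ringHom_quotient` : plumbing;
* `mem_of_eval₂_eq_zero` : Fontaine's argument: a root `β₀ ∈ PadicAlgCl p` of an Eisenstein
  perturbation `Q' = Q - a X^j` (`Q = minpoly ϖ`, `a ∈ 𝔪^c`, `p n < (p-1)(n c + j)`) lies in `L`
  (`E = K₀(β₀)` is totally ramified of degree `n` over `K₀`, `Q(β) ∈ 𝔪_E^(nc+j)`, so there is a
  ring hom `𝒪_L = 𝒪_{K₀}[ϖ] → 𝒪_E/𝔪_E^(nc+j)`, hence `L ≤ E` by `FontaineProp`, hence `L = E`);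
* `fontaine_krasner_count` : **(B1)** `(p - 1) (D + i_max - 1) ≤ p [L : K₀]`, `D = ∑_{σ ≠ 1} i σ`,
  `i σ = v_L (σ ϖ - ϖ)` (`KrasnerRel.iNat`, `Count.D`, `Count.iMax`);
* `faithful_and_card` : `σ ϖ ≠ ϖ` for `σ ≠ 1`, `#G = [L : K₀]`;
* `fontaine_krasner_count_iFun` : (B1) in the exact shape of `hB1` of `Comb.le_of_bounds`.
-/
import Mathlib
import Fermat.Agent.S55.Local.KillTransport
import Fermat.Agent.S55.Local.UnramBC
import Fermat.Agent.S56.Flat.KummerBound.Defs
import Fermat.Agent.S56.Flat.KummerBound.Eisenstein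
import Fermat.Agent.S56.Flat.KummerBound.KrasnerRel
import Fermat.Agent.S56.Flat.KummerBound.TotRam
import Fermat.Agent.S56.Flat.KummerBound.Comb

set_option autoImplicit false
set_option linter.style.haveILetI false
set_option linter.unusedSectionVars false

namespace Fermat.Agent.S56.Flat.KummerBound.FontaineCount

open IsLocalRing IntermediateField Polynomial Fermat.Agent.S55.Local Fermat.Agent.S55.Local.Unram
  Fermat.Agent.S55.Local.KillTransport Fermat.Agent.S55.LocalInt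

attribute [local instance 2000] Algebra.toSMul Algebra.toModule

variable {p : ℕ} [Fact p.Prime]

/-- If `E ⊆ K₀(β)` then `β` generates `E` over `K₀` (in the `algInc` structure). -/
theorem adjoin_eq_top_of_le {K₀ E : IntermediateField ℚ_[p] (PadicAlgCl p)} (hKE : K₀ ≤ E)
    (β : E) (hE : ∀ x ∈ E, x ∈ IntermediateField.adjoin ↥K₀ {(β : PadicAlgCl p)}) :
    letI := algInc hKE
    IntermediateField.adjoin ↥K₀ {β} = ⊤ := by
  letI := algInc hKE
  let valK : ↥E →ₐ[↥K₀] PadicAlgCl p :=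
    { E.val.toRingHom with commutes' := fun _ => rfl }
  have hmap : (IntermediateField.adjoin ↥K₀ {β}).map valK =
      IntermediateField.adjoin ↥K₀ {(β : PadicAlgCl p)} := by
    rw [IntermediateField.adjoin_map, Set.image_singleton]
    rfl
  rw [eq_top_iff]
  rintro x -
  have hx := hE x.1 x.2
  rw [← hmap] at hx
  obtain ⟨a, ha, hax⟩ := hx
  have : a = x := Subtype.ext hax
  rwa [← this]

/-- A root in `E` of a monic polynomial over `𝒪_{K₀}` is an integer of `E` and a root there. -/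
theorem exists_root_int {K₀ E : IntermediateField ℚ_[p] (PadicAlgCl p)} (hKE : K₀ ≤ E)
    (Q : (integralClosure ℤ_[p] K₀)[X]) (hQm : Q.Monic) (β₀ : PadicAlgCl p) (hβ₀E : β₀ ∈ E)
    (hβ₀ : Q.eval₂ ((algebraMap K₀ (PadicAlgCl p)).comp
      (algebraMap (integralClosure ℤ_[p] K₀) K₀)) β₀ = 0) :
    letI := algIntInt ℤ_[p] hKE
    ∃ β : integralClosure ℤ_[p] E, ((β : E) : PadicAlgCl p) = β₀ ∧ aeval β Q = 0 := by
  letI := algInc hKE
  letI := algIntField ℤ_[p] hKE
  letI := algIntInt ℤ_[p] hKE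
  haveI := isScalarTower_algInc hKE
  haveI := isScalarTower_int_field ℤ_[p] hKE
  haveI := isScalarTower_int_int ℤ_[p] hKE
  haveI := isScalarTower_base_int_int ℤ_[p] hKE
  haveI := isIntegralClosure_int ℤ_[p] hKE
  set βE : E := ⟨β₀, hβ₀E⟩ with hβE
  have h1 : aeval βE Q = 0 := by
    apply Subtype.ext
    have h2 := Polynomial.hom_eval₂ Q (algebraMap (integralClosure ℤ_[p] K₀) E) E.val.toRingHom βE
    rw [aeval_def]
    refine Eq.trans h2 ?_
    exact hβ₀
  have hint : IsIntegral (integralClosure ℤ_[p] K₀) βE := ⟨Q, hQm, h1⟩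
  obtain ⟨β, hβ⟩ := (IsIntegralClosure.isIntegral_iff (A := integralClosure ℤ_[p] E)).1 hint
  refine ⟨β, ?_, ?_⟩
  · have : (β : E) = βE := hβ
    rw [this]
  · have hinj : Function.Injective (algebraMap (integralClosure ℤ_[p] E) E) :=
      Subtype.val_injective
    apply hinj
    rw [← aeval_algebraMap_apply, hβ, h1, map_zero]

section Generic

variable (O : Type*) [CommRing O] [IsDomain O] [IsDiscreteValuationRing O]
  [IsAdicComplete (maximalIdeal O) O]
  (F : Type*) [Field F] [Algebra O F] [IsFractionRing O F]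
  (E : Type*) [Field E] [Algebra F E] [Algebra O E] [IsScalarTower O F E]
  [FiniteDimensional F E] [Algebra.IsSeparable F E]
  (B : Type*) [CommRing B] [IsDomain B] [IsDiscreteValuationRing B]
  [Algebra O B] [Algebra B E] [IsScalarTower O B E] [IsIntegralClosure B O E]

include F E in
/-- A value of the minimal polynomial of a uniformiser lying in an ideal `I` of an `O`-algebra `C`
gives a ring homomorphism `B → C ⧸ I` (`B/O` totally ramified). -/
theorem nonempty_ringHom_quotient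
    (htr : (maximalIdeal O).map (algebraMap O B) = maximalIdeal B ^ Module.finrank F E)
    (y : B) (hy : Irreducible y) {C : Type*} [CommRing C] [Algebra O C] (I : Ideal C) (β : C)
    (h : aeval β (minpoly O y) ∈ I) : Nonempty (B →+* C ⧸ I) := by
  have hc0 : aeval (Ideal.Quotient.mk I β) (minpoly O y) = 0 := by
    have h1 := aeval_algHom_apply (Ideal.Quotient.mkₐ O I) β (minpoly O y)
    rw [Ideal.Quotient.mkₐ_eq_mk] at h1
    rw [h1, Ideal.Quotient.eq_zero_iff_mem]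
    exact h
  obtain ⟨f, -⟩ := Eisenstein.exists_algHom_of_aeval_eq_zero O F E B htr y hy _ hc0
  exact ⟨f.toRingHom⟩

end Generic

/-- **Fontaine's argument.**  A root `β₀` (anywhere in `PadicAlgCl p`) of an Eisenstein
perturbation `Q'` of the minimal polynomial of a uniformiser `ϖ` of `L` over `K₀`, with
`Q' + a X ^ j = minpoly ϖ`, `a ∈ 𝔪 ^ c` and `p n < (p - 1) (n c + j)`, lies in `L`. -/
theorem mem_of_eval₂_eq_zero {K₀ L : IntermediateField ℚ_[p] (PadicAlgCl p)}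
    [FiniteDimensional ℚ_[p] L] (hK₀ : IsUnramifiedIn ℤ_[p] K₀)
    (hdeg : Module.finrank ℚ_[p] K₀ =
      Module.finrank (ResidueField ℤ_[p]) (ResidueField (integralClosure ℤ_[p] L)))
    (hKL : K₀ ≤ L) (hL : FontaineProp p L)
    (ϖ : integralClosure ℤ_[p] L) (hϖ : Irreducible ϖ) :
    letI := algInc hKL
    letI := algIntInt ℤ_[p] hKL
    ∀ (Q' : (integralClosure ℤ_[p] K₀)[X]), Q'.Monic →
      Q'.IsEisensteinAt (maximalIdeal (integralClosure ℤ_[p] K₀)) →
      Q'.natDegree = Module.finrank K₀ L →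
      ∀ (a : integralClosure ℤ_[p] K₀) (c j : ℕ),
        a ∈ maximalIdeal (integralClosure ℤ_[p] K₀) ^ c →
        Q' + C a * X ^ j = minpoly (integralClosure ℤ_[p] K₀) ϖ →
        p * Module.finrank K₀ L < (p - 1) * (Module.finrank K₀ L * c + j) →
        ∀ β₀ : PadicAlgCl p, Q'.eval₂ ((algebraMap K₀ (PadicAlgCl p)).comp
          (algebraMap (integralClosure ℤ_[p] K₀) K₀)) β₀ = 0 → β₀ ∈ L := by
  letI := algInc hKL
  letI := algIntField ℤ_[p] hKL
  letI := algIntInt ℤ_[p] hKL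
  haveI := isScalarTower_algInc hKL
  haveI := isScalarTower_int_field ℤ_[p] hKL
  haveI := isScalarTower_int_int ℤ_[p] hKL
  haveI := isScalarTower_base_int_int ℤ_[p] hKL
  haveI := isIntegralClosure_int ℤ_[p] hKL
  haveI : FiniteDimensional ℚ_[p] K₀ := hK₀.finiteDimensional
  haveI : FiniteDimensional K₀ L := Module.Finite.right ℚ_[p] K₀ L
  haveI : Algebra.IsSeparable K₀ L := Algebra.IsAlgebraic.isSeparable_of_perfectField
  intro Q' hQm hQe hQd a c j ha hQ hlt β₀ hβ₀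
  have htr := TotRam.map_maximalIdeal_eq_pow_finrank hK₀ hdeg le_rfl hKL
  -- the field `E = K₀(β₀)`
  set E' : IntermediateField ↥K₀ (PadicAlgCl p) := IntermediateField.adjoin ↥K₀ {β₀} with hE'
  set E : IntermediateField ℚ_[p] (PadicAlgCl p) := E'.restrictScalars ℚ_[p] with hE
  have hKE : K₀ ≤ E := fun x hx => E'.algebraMap_mem ⟨x, hx⟩
  have hβ₀E : β₀ ∈ E := IntermediateField.mem_adjoin_simple_self ↥K₀ β₀
  -- `β₀` is integral over `K₀`
  have hintK : IsIntegral ↥K₀ β₀ := by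
    refine ⟨Q'.map (algebraMap (integralClosure ℤ_[p] K₀) K₀), hQm.map _, ?_⟩
    rw [Polynomial.eval₂_map]
    exact hβ₀
  haveI hfinE' : FiniteDimensional ↥K₀ ↥E' := IntermediateField.adjoin.finiteDimensional hintK
  haveI hfinE : FiniteDimensional ℚ_[p] ↥E := by
    have : FiniteDimensional ℚ_[p] ↥E' := Module.Finite.trans ↥K₀ ↥E'
    exact this
  letI := algInc hKE
  letI := algIntField ℤ_[p] hKE
  letI := algIntInt ℤ_[p] hKE
  haveI := isScalarTower_algInc hKE
  haveI := isScalarTower_int_field ℤ_[p] hKE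
  haveI := isScalarTower_int_int ℤ_[p] hKE
  haveI := isScalarTower_base_int_int ℤ_[p] hKE
  haveI := isIntegralClosure_int ℤ_[p] hKE
  haveI : FiniteDimensional K₀ E := Module.Finite.right ℚ_[p] K₀ E
  haveI : Algebra.IsSeparable K₀ E := Algebra.IsAlgebraic.isSeparable_of_perfectField
  obtain ⟨β, hβ1, hβ⟩ := exists_root_int hKE Q' hQm β₀ hβ₀E hβ₀
  have hgen : IntermediateField.adjoin ↥K₀ {algebraMap (integralClosure ℤ_[p] E) E β} = ⊤ := by
    refine adjoin_eq_top_of_le hKE (β : E) ?_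
    rw [hβ1]
    exact fun x hx => hx
  obtain ⟨hfr, hirr, hmapE⟩ := Eisenstein.irreducible_of_isEisensteinAt_root
    (integralClosure ℤ_[p] K₀) K₀ E (integralClosure ℤ_[p] E) Q' hQm hQe β hβ hgen
  have hmem := Eisenstein.aeval_add_monomial_mem_pow
    (integralClosure ℤ_[p] K₀) K₀ E (integralClosure ℤ_[p] E) Q' hQm hQe β hβ hgen ha j
  rw [hQ, hQd] at hmem
  -- the ring homomorphism `𝒪_L → 𝒪_E / 𝔪_E ^ N`
  set N : ℕ := Module.finrank K₀ L * c + j with hN
  have hf : Nonempty (integralClosure ℤ_[p] L →+*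
      integralClosure ℤ_[p] E ⧸ maximalIdeal (integralClosure ℤ_[p] E) ^ N) :=
    nonempty_ringHom_quotient (integralClosure ℤ_[p] K₀) K₀ L (integralClosure ℤ_[p] L) htr ϖ hϖ
      (maximalIdeal (integralClosure ℤ_[p] E) ^ N) β hmem
  -- the ramification of `E`
  have he : Ideal.span {((p : ℕ) : integralClosure ℤ_[p] E)} =
      maximalIdeal (integralClosure ℤ_[p] E) ^ Module.finrank K₀ L := by
    have h1 : Ideal.span {((p : ℕ) : integralClosure ℤ_[p] E)} =
        (Ideal.span {((p : ℕ) : integralClosure ℤ_[p] K₀)}).map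
          (algebraMap (integralClosure ℤ_[p] K₀) (integralClosure ℤ_[p] E)) := by
      rw [Ideal.map_span, Set.image_singleton, map_natCast]
    rw [h1, TotRam.span_natCast_eq_maximalIdeal hK₀, hmapE, hQd]
  have hLE : L ≤ E := hL E (Module.finrank K₀ L) N he hlt hf
  -- degrees
  have hdL := Module.finrank_mul_finrank ℚ_[p] K₀ L
  have hdE := Module.finrank_mul_finrank ℚ_[p] K₀ E
  have heq : L = E := by
    refine IntermediateField.eq_of_le_of_finrank_eq hLE ?_
    rw [← hdL, ← hdE, hfr, hQd]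
  rw [heq]
  exact hβ₀E

open Fermat.Agent.S56.Flat.KummerBound.Count Fermat.Agent.S56.Flat.KummerBound.KrasnerRel in
/-- **(B1), the Fontaine–Krasner count.**  `L/ℚ_p` finite Galois with Fontaine's property,
`K₀` its maximal unramified subextension, `n = [L : K₀] ≥ 2`, `G = Aut(𝒪_L/𝒪_{K₀})`, `ϖ` a
uniformiser of `L`, `i σ = v_L (σ ϖ - ϖ)`.  Then `(p - 1) (∑_{σ ≠ 1} i σ + i_max - 1) ≤ p n`. -/
theorem fontaine_krasner_count (hp2 : p ≠ 2) {K₀ L : IntermediateField ℚ_[p] (PadicAlgCl p)}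
    [FiniteDimensional ℚ_[p] L] [IsGalois ℚ_[p] L] (hK₀ : IsUnramifiedIn ℤ_[p] K₀)
    (hdeg : Module.finrank ℚ_[p] K₀ =
      Module.finrank (ResidueField ℤ_[p]) (ResidueField (integralClosure ℤ_[p] L)))
    (hKL : K₀ ≤ L) (hL : FontaineProp p L) :
    letI := algInc hKL
    letI := algIntInt ℤ_[p] hKL
    ∀ [Fintype (integralClosure ℤ_[p] L ≃ₐ[integralClosure ℤ_[p] K₀] integralClosure ℤ_[p] L)]
      [DecidableEq
        (integralClosure ℤ_[p] L ≃ₐ[integralClosure ℤ_[p] K₀] integralClosure ℤ_[p] L)],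
      2 ≤ Module.finrank K₀ L → ∀ ϖ : integralClosure ℤ_[p] L, Irreducible ϖ →
      (p - 1) * (D (iNat (G := integralClosure ℤ_[p] L ≃ₐ[integralClosure ℤ_[p] K₀]
          integralClosure ℤ_[p] L) ϖ) +
        iMax (iNat (G := integralClosure ℤ_[p] L ≃ₐ[integralClosure ℤ_[p] K₀]
          integralClosure ℤ_[p] L) ϖ) - 1) ≤ p * Module.finrank K₀ L := by
  letI := algInc hKL
  letI := algIntField ℤ_[p] hKL
  letI := algIntInt ℤ_[p] hKL
  haveI := isScalarTower_algInc hKL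
  haveI := isScalarTower_int_field ℤ_[p] hKL
  haveI := isScalarTower_int_int ℤ_[p] hKL
  haveI := isScalarTower_base_int_int ℤ_[p] hKL
  haveI := isIntegralClosure_int ℤ_[p] hKL
  haveI : FiniteDimensional ℚ_[p] K₀ := hK₀.finiteDimensional
  haveI : FiniteDimensional K₀ L := Module.Finite.right ℚ_[p] K₀ L
  haveI : Algebra.IsSeparable K₀ L := Algebra.IsAlgebraic.isSeparable_of_perfectField
  haveI : IsGalois K₀ L := IsGalois.tower_top_of_isGalois ℚ_[p] K₀ L
  intro _ _ hn ϖ hϖ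
  by_contra hcon
  push Not at hcon
  set n : ℕ := Module.finrank K₀ L with hn_def
  set N : ℕ := D (iNat (G := integralClosure ℤ_[p] L ≃ₐ[integralClosure ℤ_[p] K₀]
      integralClosure ℤ_[p] L) ϖ) +
    iMax (iNat (G := integralClosure ℤ_[p] L ≃ₐ[integralClosure ℤ_[p] K₀]
      integralClosure ℤ_[p] L) ϖ) - 1 with hN
  have htr := TotRam.map_maximalIdeal_eq_pow_finrank hK₀ hdeg le_rfl hKL
  obtain ⟨hQe, hQd⟩ := Eisenstein.minpoly_isEisensteinAt (integralClosure ℤ_[p] K₀) K₀ L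
    (integralClosure ℤ_[p] L) htr ϖ hϖ
  have hint : IsIntegral (integralClosure ℤ_[p] K₀) ϖ :=
    IsIntegralClosure.isIntegral (integralClosure ℤ_[p] K₀) L ϖ
  have hQm : (minpoly (integralClosure ℤ_[p] K₀) ϖ).Monic := minpoly.monic hint
  -- the uniformiser `p` of `K₀`
  have hπ : Irreducible ((p : ℕ) : integralClosure ℤ_[p] K₀) := by
    rw [IsDiscreteValuationRing.irreducible_iff_uniformizer]
    exact (TotRam.span_natCast_eq_maximalIdeal hK₀).symm
  have hπm : ((p : ℕ) : integralClosure ℤ_[p] K₀) ∈ maximalIdeal (integralClosure ℤ_[p] K₀) :=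
    Perturb.irreducible_mem_maximalIdeal hπ
  have h2 : (2 : integralClosure ℤ_[p] K₀) ∉ maximalIdeal (integralClosure ℤ_[p] K₀) := by
    intro h2
    obtain ⟨k, hk⟩ : Odd p := (Fact.out : p.Prime).eq_two_or_odd'.resolve_left hp2
    have h0 : ((p : ℕ) : integralClosure ℤ_[p] K₀) = 2 * (k : integralClosure ℤ_[p] K₀) + 1 := by
      have := congrArg (Nat.cast : ℕ → integralClosure ℤ_[p] K₀) hk
      rw [this]
      push_cast
      ring
    have h1 : (1 : integralClosure ℤ_[p] K₀) =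
        ((p : ℕ) : integralClosure ℤ_[p] K₀) - 2 * (k : integralClosure ℤ_[p] K₀) := by
      rw [h0]; ring
    have : (1 : integralClosure ℤ_[p] K₀) ∈ maximalIdeal (integralClosure ℤ_[p] K₀) := by
      rw [h1]
      exact Ideal.sub_mem _ hπm (Ideal.mul_mem_right _ _ h2)
    exact (Ideal.ne_top_iff_one _).1 (Ideal.IsPrime.ne_top inferInstance) this
  -- arithmetic: `N = n c + j`, `c ≥ 1`, `j < n`
  have hNn : n < N := by
    by_contra h
    push Not at h
    have h1 : (p - 1) * N ≤ (p - 1) * n := Nat.mul_le_mul_left _ h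
    have h2' : (p - 1) * n ≤ p * n := Nat.mul_le_mul_right _ (Nat.sub_le _ _)
    omega
  set c : ℕ := N / n with hc_def
  set j : ℕ := N % n with hj_def
  have hNcj : n * c + j = N := Nat.div_add_mod N n
  have hjn : j < n := Nat.mod_lt _ (by omega)
  have hc1 : 1 ≤ c := Nat.div_pos hNn.le (by omega)
  -- the perturbed Eisenstein polynomial
  obtain ⟨η, hη, hQ'm, hQ'e, hQ'd⟩ : ∃ η : integralClosure ℤ_[p] K₀, IsUnit η ∧
      (minpoly (integralClosure ℤ_[p] K₀) ϖ -
        C (η * ((p : ℕ) : integralClosure ℤ_[p] K₀) ^ c) * X ^ j).Monic ∧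
      (minpoly (integralClosure ℤ_[p] K₀) ϖ -
        C (η * ((p : ℕ) : integralClosure ℤ_[p] K₀) ^ c) * X ^ j).IsEisensteinAt
          (maximalIdeal (integralClosure ℤ_[p] K₀)) ∧
      (minpoly (integralClosure ℤ_[p] K₀) ϖ -
        C (η * ((p : ℕ) : integralClosure ℤ_[p] K₀) ^ c) * X ^ j).natDegree = n := by
    by_cases hjc : j = 0 ∧ c = 1
    · obtain ⟨η, hη, h1, h2', h3⟩ := Perturb.exists_isEisensteinAt_sub_const _ hQm hQe
        (by rw [hQd]; omega) _ hπ h2
      refine ⟨η, ?_, ?_⟩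
      · rcases hη with rfl | rfl
        · exact isUnit_one
        · exact isUnit_one.neg
      · rw [hjc.1, hjc.2, pow_one, pow_zero, mul_one]
        exact ⟨h1, h2', h3.trans hQd⟩
    · obtain ⟨h1, h2', h3⟩ := Perturb.isEisensteinAt_sub_monomial _ hQm hQe _ hπ c j hc1
        (by rw [hQd]; exact hjn) hjc
      refine ⟨1, isUnit_one, ?_⟩
      rw [one_mul]
      exact ⟨h1, h2', h3.trans hQd⟩
  set Q' : (integralClosure ℤ_[p] K₀)[X] := minpoly (integralClosure ℤ_[p] K₀) ϖ -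
        C (η * ((p : ℕ) : integralClosure ℤ_[p] K₀) ^ c) * X ^ j with hQ'
  -- a root in `PadicAlgCl p`
  have hdeg0 : Q'.degree ≠ 0 := by
    rw [Polynomial.degree_eq_natDegree hQ'm.ne_zero, hQ'd]
    exact_mod_cast (by omega : n ≠ 0)
  obtain ⟨β₀, hβ₀⟩ := IsAlgClosed.exists_eval₂_eq_zero_of_injective
    ((algebraMap K₀ (PadicAlgCl p)).comp (algebraMap (integralClosure ℤ_[p] K₀) K₀))
    ((algebraMap K₀ (PadicAlgCl p)).injective.comp Subtype.val_injective) Q' hdeg0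
  -- Fontaine's property puts it in `L`
  have hβ₀L : β₀ ∈ L := by
    refine mem_of_eval₂_eq_zero hK₀ hdeg hKL hL ϖ hϖ Q' hQ'm hQ'e hQ'd
      (η * ((p : ℕ) : integralClosure ℤ_[p] K₀) ^ c) c j ?_ ?_ ?_ β₀ hβ₀
    · exact Ideal.mul_mem_left _ _ (Ideal.pow_mem_pow hπm c)
    · rw [hQ', sub_add_cancel]
    · rw [hNcj]
      exact hcon
  obtain ⟨β, -, hβ⟩ := exists_root_int hKL Q' hQ'm β₀ hβ₀L hβ₀
  exact krasner_rel (integralClosure ℤ_[p] K₀) K₀ L hn rfl htr ϖ hϖ hQd _ hπ η hη c j hQ'm hQ'e hQ'd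
    β hβ hNcj

/-- `Aut(𝒪_L/𝒪_{K₀})` acts faithfully on a uniformiser, and has `[L : K₀]` elements. -/
theorem faithful_and_card {K₀ L : IntermediateField ℚ_[p] (PadicAlgCl p)}
    [FiniteDimensional ℚ_[p] L] [IsGalois ℚ_[p] L] (hK₀ : IsUnramifiedIn ℤ_[p] K₀)
    (hdeg : Module.finrank ℚ_[p] K₀ =
      Module.finrank (ResidueField ℤ_[p]) (ResidueField (integralClosure ℤ_[p] L)))
    (hKL : K₀ ≤ L) :
    letI := algInc hKL
    letI := algIntInt ℤ_[p] hKL
    (∀ ϖ : integralClosure ℤ_[p] L, Irreducible ϖ →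
      ∀ σ : integralClosure ℤ_[p] L ≃ₐ[integralClosure ℤ_[p] K₀] integralClosure ℤ_[p] L,
        σ ≠ 1 → σ • ϖ ≠ ϖ) ∧
    Nat.card (integralClosure ℤ_[p] L ≃ₐ[integralClosure ℤ_[p] K₀] integralClosure ℤ_[p] L) =
      Module.finrank K₀ L := by
  letI := algInc hKL
  letI := algIntField ℤ_[p] hKL
  letI := algIntInt ℤ_[p] hKL
  haveI := isScalarTower_algInc hKL
  haveI := isScalarTower_int_field ℤ_[p] hKL
  haveI := isScalarTower_int_int ℤ_[p] hKL
  haveI := isScalarTower_base_int_int ℤ_[p] hKL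
  haveI := isIntegralClosure_int ℤ_[p] hKL
  haveI : FiniteDimensional ℚ_[p] K₀ := hK₀.finiteDimensional
  haveI : FiniteDimensional K₀ L := Module.Finite.right ℚ_[p] K₀ L
  haveI : Algebra.IsSeparable K₀ L := Algebra.IsAlgebraic.isSeparable_of_perfectField
  haveI : IsGalois K₀ L := IsGalois.tower_top_of_isGalois ℚ_[p] K₀ L
  refine ⟨fun ϖ hϖ σ hσ h => ?_, KrasnerRel.card_algEquiv_int (integralClosure ℤ_[p] K₀) K₀ L⟩
  have htr := TotRam.map_maximalIdeal_eq_pow_finrank hK₀ hdeg le_rfl hKL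
  obtain ⟨-, hQd⟩ := Eisenstein.minpoly_isEisensteinAt (integralClosure ℤ_[p] K₀) K₀ L
    (integralClosure ℤ_[p] L) htr ϖ hϖ
  have hinj := KrasnerRel.algEquiv_apply_injective_of_natDegree_int
    (integralClosure ℤ_[p] K₀) K₀ L ϖ hQd
  exact hσ (hinj (by simpa [AlgEquiv.smul_def] using h))

/-- **(B1)** in the shape of the hypothesis `hB1` of `Comb.le_of_bounds`. -/
theorem fontaine_krasner_count_iFun (hp2 : p ≠ 2) {K₀ L : IntermediateField ℚ_[p] (PadicAlgCl p)}
    [FiniteDimensional ℚ_[p] L] [IsGalois ℚ_[p] L] (hK₀ : IsUnramifiedIn ℤ_[p] K₀)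
    (hdeg : Module.finrank ℚ_[p] K₀ =
      Module.finrank (ResidueField ℤ_[p]) (ResidueField (integralClosure ℤ_[p] L)))
    (hKL : K₀ ≤ L) (hL : FontaineProp p L) :
    letI := algInc hKL
    letI := algIntInt ℤ_[p] hKL
    ∀ [Fintype (integralClosure ℤ_[p] L ≃ₐ[integralClosure ℤ_[p] K₀] integralClosure ℤ_[p] L)]
      [DecidableEq
        (integralClosure ℤ_[p] L ≃ₐ[integralClosure ℤ_[p] K₀] integralClosure ℤ_[p] L)],
      2 ≤ Module.finrank K₀ L → ∀ ϖ : integralClosure ℤ_[p] L, Irreducible ϖ →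
      ∀ ρ₀ : integralClosure ℤ_[p] L ≃ₐ[integralClosure ℤ_[p] K₀] integralClosure ℤ_[p] L,
        ρ₀ ≠ 1 → (∀ ρ : integralClosure ℤ_[p] L ≃ₐ[integralClosure ℤ_[p] K₀]
          integralClosure ℤ_[p] L, ρ ≠ 1 → Comb.iFun ϖ ρ ≤ Comb.iFun ϖ ρ₀) →
        ((p - 1 : ℕ) : ℕ∞) * ((∑ ρ ∈ Finset.univ.erase
            (1 : integralClosure ℤ_[p] L ≃ₐ[integralClosure ℤ_[p] K₀] integralClosure ℤ_[p] L),
            Comb.iFun ϖ ρ) + Comb.iFun ϖ ρ₀) ≤
          ((p * Fintype.card (integralClosure ℤ_[p] L ≃ₐ[integralClosure ℤ_[p] K₀]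
            integralClosure ℤ_[p] L) + (p - 1) : ℕ) : ℕ∞) := by
  letI := algInc hKL
  letI := algIntInt ℤ_[p] hKL
  intro _ _ hn ϖ hϖ ρ₀ hρ₀ hmax
  have hmain := fontaine_krasner_count hp2 hK₀ hdeg hKL hL hn ϖ hϖ
  obtain ⟨hfaith, hcard⟩ := faithful_and_card hK₀ hdeg hKL
  have hfaith' := hfaith ϖ hϖ
  rw [Nat.card_eq_fintype_card] at hcard
  rw [Comb.sum_erase_iFun ϖ hfaith', ← Comb.coe_iNat (hfaith' ρ₀ hρ₀), hcard]
  -- `D` and `iMax` in terms of `Comb.iNat`
  have hone : KrasnerRel.iNat ϖ (1 : integralClosure ℤ_[p] L ≃ₐ[integralClosure ℤ_[p] K₀]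
      integralClosure ℤ_[p] L) = 0 := by
    simp [KrasnerRel.iNat]
  have hD : Count.D (KrasnerRel.iNat (G := integralClosure ℤ_[p] L ≃ₐ[integralClosure ℤ_[p] K₀]
      integralClosure ℤ_[p] L) ϖ) = ∑ ρ ∈ Finset.univ.erase
        (1 : integralClosure ℤ_[p] L ≃ₐ[integralClosure ℤ_[p] K₀] integralClosure ℤ_[p] L),
        Comb.iNat ϖ ρ := by
    rw [Count.D, ← Finset.add_sum_erase _ _ (Finset.mem_univ (1 : integralClosure ℤ_[p] L
      ≃ₐ[integralClosure ℤ_[p] K₀] integralClosure ℤ_[p] L)), hone, zero_add]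
    rfl
  have hM : Count.iMax (KrasnerRel.iNat (G := integralClosure ℤ_[p] L ≃ₐ[integralClosure ℤ_[p] K₀]
      integralClosure ℤ_[p] L) ϖ) = Comb.iNat ϖ ρ₀ := by
    refine le_antisymm (Finset.sup_le fun ρ _ => ?_) (Count.le_iMax _ ρ₀)
    by_cases hρ : ρ = 1
    · rw [hρ, hone]
      exact Nat.zero_le _
    · have h1 := hmax ρ hρ
      rw [← Comb.coe_iNat (hfaith' ρ hρ), ← Comb.coe_iNat (hfaith' ρ₀ hρ₀)] at h1
      exact_mod_cast h1
  rw [hD, hM] at hmain
  have hfin : (p - 1) * (∑ ρ ∈ Finset.univ.erase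
        (1 : integralClosure ℤ_[p] L ≃ₐ[integralClosure ℤ_[p] K₀] integralClosure ℤ_[p] L),
        Comb.iNat ϖ ρ + Comb.iNat ϖ ρ₀) ≤ p * Module.finrank K₀ L + (p - 1) := by
    set S : ℕ := ∑ ρ ∈ Finset.univ.erase
        (1 : integralClosure ℤ_[p] L ≃ₐ[integralClosure ℤ_[p] K₀] integralClosure ℤ_[p] L),
        Comb.iNat ϖ ρ + Comb.iNat ϖ ρ₀ with hS
    rcases Nat.eq_zero_or_pos S with h0 | h0
    · rw [h0, mul_zero]
      exact Nat.zero_le _
    · obtain ⟨S', hS'⟩ : ∃ S', S = S' + 1 := ⟨S - 1, by omega⟩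
      rw [hS', Nat.add_sub_cancel] at hmain
      rw [hS', mul_add, mul_one]
      omega
  exact_mod_cast hfin

end Fermat.Agent.S56.Flat.KummerBound.FontaineCount
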