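/-
S56 / FLAT / [FL-B] step (B0): normal form of `F^×` modulo `p`-th powers
(`moonshots` row 51, helper20's spec #2480 `exists_normalForm`).

`O` a discrete valuation ring with finite residue field, `(p) = 𝔪^e`, `e ≥ 1`,
`F = Frac O`.  Every `w ∈ F^×` which is NOT in `U^{(e)} · F^{×p}` is congruent modulo
`F^{×p}` to an element `w' ∈ O` which is either of valuation prime to `p` (type (0)) or a
principal unit of exact level `i`, `0 < i < e`, `p ∤ i` (type (i)).
-/
import Mathlib

set_option autoImplicit false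

namespace Fermat.Agent.S56.Flat.KummerBound.NormalForm

open IsLocalRing
open IsDiscreteValuationRing (addVal)

section DVR

variable {O : Type*} [CommRing O] [IsDomain O] [IsDiscreteValuationRing O]

theorem mem_pow_iff {π : O} (hπ : Irreducible π) {x : O} {n : ℕ} :
    x ∈ maximalIdeal O ^ n ↔ π ^ n ∣ x := by
  rw [hπ.maximalIdeal_eq, Ideal.span_singleton_pow, Ideal.mem_span_singleton]

theorem mem_pow_iff_le_addVal {x : O} {n : ℕ} :
    x ∈ maximalIdeal O ^ n ↔ (n : ℕ∞) ≤ addVal O x := by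
  obtain ⟨π, hπ⟩ := IsDiscreteValuationRing.exists_irreducible O
  rw [mem_pow_iff hπ, ← IsDiscreteValuationRing.addVal_le_iff_dvd, hπ.addVal_pow]

/-- Exact level. -/
theorem addVal_eq_of_mem_of_not_mem {x : O} {n : ℕ} (h1 : x ∈ maximalIdeal O ^ n)
    (h2 : x ∉ maximalIdeal O ^ (n + 1)) : addVal O x = n := by
  rw [mem_pow_iff_le_addVal] at h1 h2
  refine le_antisymm ?_ h1
  have := not_le.mp h2
  rw [Nat.cast_add, Nat.cast_one] at this
  exact Order.le_of_lt_add_one this

variable [Finite (ResidueField O)] {p : ℕ} (hp : p.Prime)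

include hp in
/-- The Frobenius of the (finite) residue field is surjective. -/
theorem exists_pow_sub_mem (hpm : (p : O) ∈ maximalIdeal O) (c : O) :
    ∃ b : O, b ^ p - c ∈ maximalIdeal O := by
  have : Fact p.Prime := ⟨hp⟩
  have : CharP (ResidueField O) p := by
    refine (CharP.charP_iff_prime_eq_zero hp).mpr ?_
    have := (residue_eq_zero_iff (p : O)).mpr hpm
    simpa using this
  obtain ⟨b', hb'⟩ := surjective_frobenius (ResidueField O) p (residue O c)
  obtain ⟨b, rfl⟩ := residue_surjective b'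
  refine ⟨b, ?_⟩
  rw [← residue_eq_zero_iff, map_sub, map_pow, sub_eq_zero]
  exact hb'

include hp in
/-- Level raising: a principal unit of level `p * m < e` is a `p`-th power modulo the next level. -/
theorem exists_unit_pow_sub_mem {e : ℕ} (hpe : (p : O) ∈ maximalIdeal O ^ e) {m : ℕ} (hm : 1 ≤ m)
    (hme : p * m < e) {u : O} (hu : u - 1 ∈ maximalIdeal O ^ (p * m)) :
    ∃ y : Oˣ, u - (y : O) ^ p ∈ maximalIdeal O ^ (p * m + 1) := by
  obtain ⟨π, hπ⟩ := IsDiscreteValuationRing.exists_irreducible O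
  obtain ⟨c, hc⟩ := (mem_pow_iff hπ).mp hu
  have hpm : (p : O) ∈ maximalIdeal O := by
    have := Ideal.pow_le_pow_right (I := maximalIdeal O) (show 1 ≤ e by omega) hpe
    rwa [pow_one] at this
  obtain ⟨b, hb⟩ := exists_pow_sub_mem hp hpm c
  have hπm : π ∈ maximalIdeal O := by
    rw [hπ.maximalIdeal_eq]; exact Ideal.mem_span_singleton_self π
  have hbπ : b * π ^ m ∈ maximalIdeal O ^ m :=
    Ideal.mul_mem_left _ _ (Ideal.pow_mem_pow hπm m)
  have hbπ1 : b * π ^ m ∈ maximalIdeal O := by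
    have := Ideal.pow_le_pow_right (I := maximalIdeal O) hm hbπ
    rwa [pow_one] at this
  have hunit : IsUnit (1 + b * π ^ m) := by
    by_contra h
    have h1 : 1 + b * π ^ m ∈ maximalIdeal O := (mem_maximalIdeal _).2 h
    have : (1 : O) ∈ maximalIdeal O := by
      have := (maximalIdeal O).sub_mem h1 hbπ1
      simp at this
    exact (maximalIdeal.isMaximal O).ne_top ((Ideal.eq_top_iff_one _).2 this)
  refine ⟨hunit.unit, ?_⟩
  obtain ⟨r, hr⟩ := exists_add_pow_prime_eq hp (1 : O) (b * π ^ m)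
  have hval : ((hunit.unit : Oˣ) : O) = 1 + b * π ^ m := rfl
  have hu' : u = 1 + π ^ (p * m) * c := by rw [← hc]; ring
  have key : u - (1 + b * π ^ m) ^ p =
      -((b ^ p - c) * π ^ (p * m)) - (p : O) * ((b * π ^ m) * r) := by
    rw [hr, hu', mul_pow, ← pow_mul, mul_comm m p]; ring
  rw [hval, key]
  refine Ideal.sub_mem _ ((Ideal.neg_mem_iff _).2 ?_) ?_
  · rw [pow_succ']
    exact Ideal.mul_mem_mul hb (Ideal.pow_mem_pow hπm _)
  · have h1 : (p : O) * ((b * π ^ m) * r) ∈ maximalIdeal O ^ e * maximalIdeal O ^ m :=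
      Ideal.mul_mem_mul hpe (Ideal.mul_mem_right _ _ hbπ)
    rw [← pow_add] at h1
    refine Ideal.pow_le_pow_right ?_ h1
    omega

end DVR

section Field

variable (O : Type*) [CommRing O] [IsDomain O] [IsDiscreteValuationRing O]
  [Finite (ResidueField O)]
  (F : Type*) [Field F] [Algebra O F] [IsFractionRing O F]
variable {p : ℕ} (hp : p.Prime) {e : ℕ}

/-- The two non-trivial types of the normal form. -/
def IsNormalForm (p e : ℕ) (w' : O) : Prop :=
  (∃ n : ℕ, addVal O w' = n ∧ ¬ p ∣ n) ∨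
    ∃ i : ℕ, 0 < i ∧ i < e ∧ ¬ p ∣ i ∧ addVal O (w' - 1) = i

include hp in
/-- Induction on the level: a principal unit of level `i ≥ 1` representing `w` modulo `p`-th
powers can be pushed to a normal form of type (i), unless `w ∈ U^{(e)} F^{×p}`. -/
theorem exists_normalForm_of_level (hpe : (p : O) ∈ maximalIdeal O ^ e) (w : F)
    (hnot : ¬ ∃ (u : O) (z : F), u - 1 ∈ maximalIdeal O ^ e ∧ z ≠ 0 ∧
      w = algebraMap O F u * z ^ p) :
    ∀ (k i : ℕ), i + k = e → 1 ≤ i → ∀ (u : O) (z : F), z ≠ 0 →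
      w * z ^ p = algebraMap O F u → u - 1 ∈ maximalIdeal O ^ i →
      ∃ (z : F) (w' : O), z ≠ 0 ∧ w * z ^ p = algebraMap O F w' ∧ IsNormalForm O p e w' := by
  intro k
  induction k with
  | zero =>
    intro i hik _ u z hz hwz hu
    exfalso
    have : i = e := by omega
    subst this
    refine hnot ⟨u, z⁻¹, hu, inv_ne_zero hz, ?_⟩
    rw [← hwz, inv_pow, mul_assoc, mul_inv_cancel₀ (pow_ne_zero p hz), mul_one]
  | succ k ih =>
    intro i hik hi u z hz hwz hu
    by_cases hu1 : u - 1 ∈ maximalIdeal O ^ (i + 1)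
    · exact ih (i + 1) (by omega) (by omega) u z hz hwz hu1
    have hval : addVal O (u - 1) = i := addVal_eq_of_mem_of_not_mem hu hu1
    by_cases hpi : p ∣ i
    · obtain ⟨m, rfl⟩ := hpi
      have hm : 1 ≤ m := by
        rcases Nat.eq_zero_or_pos m with h | h
        · subst h; omega
        · exact h
      obtain ⟨y, hy⟩ := exists_unit_pow_sub_mem hp hpe hm (by omega) hu
      refine ih (p * m + 1) (by omega) (by omega) (u * ((y⁻¹ : Oˣ) : O) ^ p)
        (z * algebraMap O F ((y⁻¹ : Oˣ) : O)) ?_ ?_ ?_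
      · refine mul_ne_zero hz ?_
        intro h
        have h0 : ((y⁻¹ : Oˣ) : O) = 0 :=
          IsFractionRing.injective O F (by rw [h, map_zero])
        exact (y⁻¹).ne_zero h0
      · rw [mul_pow, ← mul_assoc, hwz, map_mul, map_pow]
      · have : u * ((y⁻¹ : Oˣ) : O) ^ p - 1 = (u - (y : O) ^ p) * ((y⁻¹ : Oˣ) : O) ^ p := by
          rw [sub_mul, ← mul_pow, Units.mul_inv, one_pow]
        rw [this]
        exact Ideal.mul_mem_right _ _ hy
    · exact ⟨z, u, hz, hwz, Or.inr ⟨i, by omega, by omega, hpi, hval⟩⟩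

include hp in
/-- **(B0)**: normal form modulo `p`-th powers of an element `w ∈ F^×` which is not in
`U^{(e)} · F^{×p}`. -/
theorem exists_isNormalForm (he : 1 ≤ e) (hpe : (p : O) ∈ maximalIdeal O ^ e) (w : F)
    (hw : w ≠ 0)
    (hnot : ¬ ∃ (u : O) (z : F), u - 1 ∈ maximalIdeal O ^ e ∧ z ≠ 0 ∧
      w = algebraMap O F u * z ^ p) :
    ∃ (z : F) (w' : O), z ≠ 0 ∧ w * z ^ p = algebraMap O F w' ∧ IsNormalForm O p e w' := by
  obtain ⟨π, hπ⟩ := IsDiscreteValuationRing.exists_irreducible O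
  have hinj := IsFractionRing.injective O F
  have hpm : (p : O) ∈ maximalIdeal O := by
    have := Ideal.pow_le_pow_right (I := maximalIdeal O) he hpe
    rwa [pow_one] at this
  -- write `w = a / b`
  obtain ⟨a, b, hb, hab⟩ := IsFractionRing.div_surjective (A := O) w
  have hb0 : b ≠ 0 := nonZeroDivisors.ne_zero hb
  have ha0 : a ≠ 0 := by
    rintro rfl
    rw [map_zero, zero_div] at hab
    exact hw hab.symm
  obtain ⟨na, ua, hua⟩ := IsDiscreteValuationRing.eq_unit_mul_pow_irreducible ha0 hπ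
  obtain ⟨nb, ub, hub⟩ := IsDiscreteValuationRing.eq_unit_mul_pow_irreducible hb0 hπ
  have hπF : algebraMap O F π ≠ 0 := by
    intro h; exact hπ.ne_zero (hinj (by rw [h, map_zero]))
  have hubF : algebraMap O F (ub : O) ≠ 0 := by
    intro h; exact ub.ne_zero (hinj (by rw [h, map_zero]))
  -- `w * (π ^ nb) ^ p = u₀ * π ^ N`
  set N := na + (p - 1) * nb with hN
  set u₀ : Oˣ := ua * ub⁻¹ with hu₀
  have hp1 : p - 1 + 1 = p := Nat.sub_add_cancel hp.one_le
  have h0 : w * (algebraMap O F π ^ nb) ^ p = algebraMap O F ((u₀ : O) * π ^ N) := by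
    rw [← hab, hua, hub, hu₀, hN]
    simp only [map_mul, map_pow, Units.val_mul]
    have hinv : algebraMap O F ((ub⁻¹ : Oˣ) : O) = (algebraMap O F (ub : O))⁻¹ := by
      apply eq_inv_of_mul_eq_one_left
      rw [← map_mul, Units.inv_mul, map_one]
    rw [hinv, pow_add, ← pow_mul]
    have : nb * p = (p - 1) * nb + nb := by
      conv_lhs => rw [← hp1]
      ring
    rw [this, pow_add]
    field_simp
  by_cases hpN : p ∣ N
  · -- valuation divisible by `p`: reduce to a unit, then to a principal unit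
    obtain ⟨M, hM⟩ := hpN
    obtain ⟨c, hc⟩ := exists_pow_sub_mem hp hpm ((u₀⁻¹ : Oˣ) : O)
    have hcu : IsUnit c := by
      by_contra h
      have h1 : c ∈ maximalIdeal O := (mem_maximalIdeal _).2 h
      have h2 : c ^ p ∈ maximalIdeal O := Ideal.pow_mem_of_mem _ h1 p hp.pos
      have h3 : ((u₀⁻¹ : Oˣ) : O) ∈ maximalIdeal O := by
        have := (maximalIdeal O).sub_mem h2 hc
        rwa [sub_sub_cancel] at this
      exact (mem_maximalIdeal _).1 h3 (u₀⁻¹).isUnit
    have hcF : algebraMap O F c ≠ 0 := by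
      intro h; exact hcu.ne_zero (hinj (by rw [h, map_zero]))
    refine exists_normalForm_of_level O F hp hpe w hnot (e - 1) 1 (by omega) le_rfl
      ((u₀ : O) * c ^ p) (algebraMap O F π ^ nb / algebraMap O F π ^ M * algebraMap O F c)
      ?_ ?_ ?_
    · exact mul_ne_zero (div_ne_zero (pow_ne_zero _ hπF) (pow_ne_zero _ hπF)) hcF
    · rw [mul_pow, div_pow, ← mul_assoc, ← mul_div_assoc, h0, hM, map_mul, map_mul, map_pow,
        map_pow, ← pow_mul, mul_comm M p]
      field_simp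
    · rw [pow_one]
      have : (u₀ : O) * c ^ p - 1 = (u₀ : O) * (c ^ p - ((u₀⁻¹ : Oˣ) : O)) := by
        rw [mul_sub, Units.mul_inv]
      rw [this]
      exact Ideal.mul_mem_left _ _ hc
  · exact ⟨algebraMap O F π ^ nb, (u₀ : O) * π ^ N, pow_ne_zero _ hπF, h0,
      Or.inl ⟨N, IsDiscreteValuationRing.addVal_def _ u₀ hπ N rfl, hpN⟩⟩

/-- Divisibility of natural numbers inside `ℕ∞`. -/
theorem natCast_dvd_natCast_enat {a n : ℕ} (ha : a ≠ 0) (h : (a : ℕ∞) ∣ (n : ℕ∞)) : a ∣ n := by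
  obtain ⟨c, hc⟩ := h
  induction c using ENat.recTopCoe with
  | top =>
    exfalso
    rw [ENat.mul_top (by exact_mod_cast ha)] at hc
    exact ENat.natCast_ne_top n hc
  | coe m =>
    refine ⟨m, ?_⟩
    exact_mod_cast hc

include hp in
/-- **(B0)** in the exact shape of the [FL-B] specification (helper20, board #2480). -/
theorem exists_normalForm (hpe : Ideal.span {(p : O)} = maximalIdeal O ^ e) (he : 1 ≤ e) (w : F)
    (hw : w ≠ 0)
    (hnot : ¬ ∃ (u : O) (z : F), u - 1 ∈ maximalIdeal O ^ e ∧ z ≠ 0 ∧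
      w = algebraMap O F u * z ^ p) :
    ∃ (z : F) (w' : O), z ≠ 0 ∧ w * z ^ p = algebraMap O F w' ∧
      ((¬ (p : ℕ∞) ∣ addVal O w' ∧ w' ≠ 0) ∨
       ∃ i : ℕ, 0 < i ∧ i < e ∧ ¬ p ∣ i ∧ addVal O (w' - 1) = i) := by
  have hpe' : (p : O) ∈ maximalIdeal O ^ e := hpe ▸ Ideal.mem_span_singleton_self _
  obtain ⟨z, w', hz, hwz, h | h⟩ := exists_isNormalForm O F hp he hpe' w hw hnot
  · obtain ⟨n, hn, hpn⟩ := h
    refine ⟨z, w', hz, hwz, Or.inl ⟨?_, ?_⟩⟩
    · rw [hn]
      exact fun hd => hpn (natCast_dvd_natCast_enat hp.ne_zero hd)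
    · rintro rfl
      rw [IsDiscreteValuationRing.addVal_zero] at hn
      exact ENat.natCast_ne_top n hn.symm
  · exact ⟨z, w', hz, hwz, Or.inr h⟩

end Field

end Fermat.Agent.S56.Flat.KummerBound.NormalForm
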