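/-
S56, block F (FLAT), leaf [FLB-Main] (support): the tower facts and the concrete assembly of the
Kummer form of Fontaine's ramification bound (`moonshots` row 51).

Vocabulary of `Defs.lean` / S55 `Local/KillTransport`: subfields of `PadicAlgCl p`, rings of integers
`integralClosure ℤ_[p] _`, relative structures `algInc`, `algIntField`, `algIntInt` (local instances),
`G = Aut(𝒪_L/𝒪_{K₀})` and the fixer subgroups of `Fixer.lean`.

* `le_of_tower` : abstract assembly on top of `Comb.le_of_bounds` + `Comb.addVal_le_sum_iFun_coset`;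
* `adjoinElt F₁ x'` (`= F₁(x')` as an intermediate field of `Ω/K`), `adjoin_adjoinElt_eq_top`,
  `forall_eq_of_adjoinElt`;
* `mem_fixer_of_apply_eq` : an automorphism in the fixer of `𝒪_{F₁}` fixing `x` lies in the fixer
  of `𝒪_{E₁}`, `E₁ = F₁(x)`;
* `le_of_kummer` : concrete assembly: Fontaine count (B1) + Kummer break (B3a, ambient form) +
  Eisenstein generation + tower degrees ⇒ `e ≤ i`;
* `false_of_isNormalForm` : an element of `𝒪_{F₁}` (`F₁ ⊇ K₀`) in normal form has no `p`-th root in `L`;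
* `map_maximalIdeal_sup` : **(T4)** `𝔪_F 𝒪_{F K₀} = 𝔪_{F K₀}` for `K₀/ℚ_p` unramified.
-/
import Mathlib
import Fermat.Agent.S55.Local.KillTransport
import Fermat.Agent.S55.Local.UnramBC
import Fermat.Agent.S55.GL.PlacesRelUnram
import Fermat.Agent.S56.Flat.KummerBound.Defs
import Fermat.Agent.S56.Flat.KummerBound.Comb
import Fermat.Agent.S56.Flat.KummerBound.NormalForm
import Fermat.Agent.S56.Flat.KummerBound.Eisenstein
import Fermat.Agent.S56.Flat.KummerBound.KummerBreakAmbient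
import Fermat.Agent.S56.Flat.KummerBound.TotRam
import Fermat.Agent.S56.Flat.KummerBound.FontaineCount
import Fermat.Agent.S56.Flat.KummerBound.Fixer

set_option autoImplicit false
set_option linter.style.haveILetI false
set_option linter.unusedSectionVars false

namespace Fermat.Agent.S56.Flat.KummerBound.Tower

section AbsPart

open IsLocalRing
open IsDiscreteValuationRing (addVal)
open Fermat.Agent.S56.Flat.KummerBound.Comb

section Abs

variable {B : Type*} [CommRing B] [IsDomain B] [IsDiscreteValuationRing B]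
variable {G : Type*} [Group G] [MulSemiringAction G B]

/-- The image in `B` of a polynomial expression in `y` over `O₁` is a polynomial expression in the
image of `y` over the image of `O₁`. -/
theorem algebraMap_mem_adjoin_range {O₁ B₁ : Type*} [CommRing O₁] [CommRing B₁] [Algebra O₁ B₁]
    [Algebra O₁ B] [Algebra B₁ B] [IsScalarTower O₁ B₁ B] (y : B₁) {c : B₁}
    (hc : c ∈ Algebra.adjoin O₁ {y}) :
    algebraMap B₁ B c ∈ Algebra.adjoin (algebraMap O₁ B).range {algebraMap B₁ B y} := by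
  induction hc using Algebra.adjoin_induction with
  | mem x hx =>
    rw [Set.mem_singleton_iff] at hx
    rw [hx]
    exact Algebra.subset_adjoin (Set.mem_singleton _)
  | algebraMap r =>
    rw [← IsScalarTower.algebraMap_apply O₁ B₁ B r]
    exact Subalgebra.algebraMap_mem _ (⟨algebraMap O₁ B r, ⟨r, rfl⟩⟩ : (algebraMap O₁ B).range)
  | add a b _ _ iha ihb =>
    rw [map_add]
    exact Subalgebra.add_mem _ iha ihb
  | mul a b _ _ iha ihb =>
    rw [map_mul]
    exact Subalgebra.mul_mem _ iha ihb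

variable [Fintype G] [DecidableEq G]

/-- **Abstract assembly of [FL-B].**  On top of `Comb.le_of_bounds`: the coset bound `hA` is
produced from a tower `O₁ → B₁ → B` (`O₁ = 𝒪_{F₁}`, `B₁ = 𝒪_{E₁} = O₁[y]`, `B = 𝒪_L`), `P` fixing
`O₁`, the `H`-fixed elements of `B` coming from `B₁`, and the Kummer break (B3a) in ambient form. -/
theorem le_of_tower {p : ℕ} (hp : 2 ≤ p) (ϖ : B) (hϖ : ϖ ∈ maximalIdeal B)
    (hfaith : ∀ σ : G, σ ≠ 1 → σ • ϖ ≠ ϖ)
    (P H : Subgroup G) [DecidablePred (· ∈ H)] [DecidablePred (· ∈ P)] (hHP : H ≤ P)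
    (hidx : H.relIndex P = p) (e ε i : ℕ)
    (hnP : Fintype.card G = e * Fintype.card P) (he : e = (p - 1) * ε)
    (hB1 : ∀ ρ₀ : G, ρ₀ ≠ 1 → (∀ ρ : G, ρ ≠ 1 → iFun ϖ ρ ≤ iFun ϖ ρ₀) →
      ((p - 1 : ℕ) : ℕ∞) * ((∑ ρ ∈ Finset.univ.erase (1 : G), iFun ϖ ρ) + iFun ϖ ρ₀) ≤
        ((p * Fintype.card G + (p - 1) : ℕ) : ℕ∞))
    {O₁ B₁ : Type*} [CommRing O₁] [CommRing B₁] [Algebra O₁ B₁]
    [Algebra O₁ B] [Algebra B₁ B] [IsScalarTower O₁ B₁ B]
    (hP : ∀ σ ∈ P, ∀ a : O₁, σ • algebraMap O₁ B a = algebraMap O₁ B a)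
    (hH : ∀ b : B, (∀ τ ∈ H, τ • b = b) → b ∈ Set.range (algebraMap B₁ B))
    (y : B₁) (hadj : Algebra.adjoin O₁ {y} = ⊤)
    (hKum : ∀ σ ∈ P, σ ∉ H →
      addVal B (σ • algebraMap B₁ B y - algebraMap B₁ B y) + ((Fintype.card H * i : ℕ) : ℕ∞) =
        ((Fintype.card H * (p * ε + 1) : ℕ) : ℕ∞)) :
    e ≤ i := by
  classical
  refine le_of_bounds hp ϖ hϖ hfaith P H hHP hidx e ε i hnP he hB1 ?_
  intro σ hσP hσH
  have h1 := addVal_le_sum_iFun_coset ϖ H σ (algebraMap O₁ B).range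
    (by
      rintro _ ⟨a, rfl⟩
      exact hP σ hσP a)
    (algebraMap B₁ B y)
    (by
      intro b hb
      obtain ⟨c, rfl⟩ := hH b hb
      exact algebraMap_mem_adjoin_range y (hadj ▸ Algebra.mem_top))
  refine le_trans ?_ h1
  have h2 := hKum σ hσP hσH
  -- `v + H i = H (p ε + 1)` gives `H (p ε + 1 - i) ≤ v`
  have hv : addVal B (σ • algebraMap B₁ B y - algebraMap B₁ B y) ≠ ⊤ := by
    intro htop
    rw [htop, top_add] at h2
    exact ENat.top_ne_natCast _ h2
  obtain ⟨v, hv'⟩ := ENat.ne_top_iff_exists.1 hv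
  rw [← hv'] at h2 ⊢
  have h3 : v + Fintype.card H * i = Fintype.card H * (p * ε + 1) := by exact_mod_cast h2
  have h4 : Fintype.card H * (p * ε + 1 - i) ≤ v := by
    rw [Nat.mul_sub]
    omega
  exact_mod_cast h4

end Abs

end AbsPart

section AdjPart

open IntermediateField Fermat.Agent.S55.Local.KillTransport

section Adjoin

variable {K Ω : Type} [Field K] [Field Ω] [Algebra K Ω]

/-- `F₁(x')` as an intermediate field of `Ω/K`. -/
def adjoinElt (F₁ : IntermediateField K Ω) (x' : Ω) : IntermediateField K Ω :=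
  IntermediateField.adjoin K ((F₁ : Set Ω) ∪ {x'})

theorem le_adjoinElt (F₁ : IntermediateField K Ω) (x' : Ω) : F₁ ≤ adjoinElt F₁ x' :=
  fun _ ht => IntermediateField.subset_adjoin K _ (Or.inl ht)

theorem mem_adjoinElt (F₁ : IntermediateField K Ω) (x' : Ω) : x' ∈ adjoinElt F₁ x' :=
  IntermediateField.subset_adjoin K _ (Or.inr rfl)

theorem adjoinElt_le {F₁ L : IntermediateField K Ω} {x' : Ω} (hF₁L : F₁ ≤ L) (hx' : x' ∈ L) :
    adjoinElt F₁ x' ≤ L := by
  rw [adjoinElt, IntermediateField.adjoin_le_iff]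
  rintro t (ht | ht)
  · exact hF₁L ht
  · rw [Set.mem_singleton_iff] at ht
    rw [ht]
    exact hx'

/-- `F₁(x')` is generated by `x'` over `F₁`. -/
theorem adjoin_adjoinElt_eq_top (F₁ : IntermediateField K Ω) (x' : Ω) :
    letI := algInc (le_adjoinElt F₁ x')
    IntermediateField.adjoin F₁ {(⟨x', mem_adjoinElt F₁ x'⟩ : adjoinElt F₁ x')} = ⊤ := by
  letI := algInc (le_adjoinElt F₁ x')
  haveI := isScalarTower_algInc (le_adjoinElt F₁ x')
  rw [eq_top_iff]
  rintro ⟨t, ht⟩ -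
  set S : IntermediateField F₁ (adjoinElt F₁ x') :=
    IntermediateField.adjoin F₁ {(⟨x', mem_adjoinElt F₁ x'⟩ : adjoinElt F₁ x')} with hS
  have key : ∀ t (ht : t ∈ adjoinElt F₁ x'), (⟨t, ht⟩ : adjoinElt F₁ x') ∈ S := by
    intro t ht
    have ht' := ht
    rw [adjoinElt] at ht'
    induction ht' using IntermediateField.adjoin_induction with
    | mem c hc =>
      rcases hc with hc | hc
      · exact S.algebraMap_mem (⟨c, hc⟩ : F₁)
      · rw [Set.mem_singleton_iff] at hc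
        subst hc
        exact IntermediateField.subset_adjoin _ _ rfl
    | algebraMap c =>
      have : (⟨algebraMap K Ω c, ht⟩ : adjoinElt F₁ x') =
          algebraMap F₁ (adjoinElt F₁ x') (algebraMap K F₁ c) := rfl
      rw [this]
      exact S.algebraMap_mem _
    | add a b ha hb iha ihb =>
      have ha' : a ∈ adjoinElt F₁ x' := ha
      have hb' : b ∈ adjoinElt F₁ x' := hb
      have : (⟨a + b, ht⟩ : adjoinElt F₁ x') = ⟨a, ha'⟩ + ⟨b, hb'⟩ := rfl
      rw [this]
      exact S.add_mem (iha ha') (ihb hb')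
    | inv a ha iha =>
      have ha' : a ∈ adjoinElt F₁ x' := ha
      have : (⟨a⁻¹, ht⟩ : adjoinElt F₁ x') = (⟨a, ha'⟩ : adjoinElt F₁ x')⁻¹ := rfl
      rw [this]
      exact S.inv_mem (iha ha')
    | mul a b ha hb iha ihb =>
      have ha' : a ∈ adjoinElt F₁ x' := ha
      have hb' : b ∈ adjoinElt F₁ x' := hb
      have : (⟨a * b, ht⟩ : adjoinElt F₁ x') = ⟨a, ha'⟩ * ⟨b, hb'⟩ := rfl
      rw [this]
      exact S.mul_mem (iha ha') (ihb hb')
  exact key t ht

/-- A ring endomorphism of `L` fixing `F₁` and `x'` fixes `F₁(x')`. -/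
theorem forall_eq_of_adjoinElt {F₁ L : IntermediateField K Ω} {x' : Ω} (hF₁L : F₁ ≤ L)
    (hx' : x' ∈ L) (g : L →+* L) (hg : ∀ a : F₁, g (IntermediateField.inclusion hF₁L a) =
      IntermediateField.inclusion hF₁L a) (hgx : g ⟨x', hx'⟩ = ⟨x', hx'⟩) :
    ∀ t (ht : t ∈ adjoinElt F₁ x'), g ⟨t, adjoinElt_le hF₁L hx' ht⟩ =
      ⟨t, adjoinElt_le hF₁L hx' ht⟩ := by
  intro t ht
  have ht' := ht
  rw [adjoinElt] at ht'
  induction ht' using IntermediateField.adjoin_induction with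
  | mem c hc =>
    rcases hc with hc | hc
    · exact hg ⟨c, hc⟩
    · rw [Set.mem_singleton_iff] at hc
      subst hc
      exact hgx
  | algebraMap c =>
    exact hg (algebraMap K F₁ c)
  | add a b ha hb iha ihb =>
    have ha' : a ∈ adjoinElt F₁ x' := ha
    have hb' : b ∈ adjoinElt F₁ x' := hb
    have : (⟨a + b, adjoinElt_le hF₁L hx' ht⟩ : L) =
        ⟨a, adjoinElt_le hF₁L hx' ha'⟩ + ⟨b, adjoinElt_le hF₁L hx' hb'⟩ := rfl
    rw [this, map_add, iha ha', ihb hb']
  | inv a ha iha =>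
    have ha' : a ∈ adjoinElt F₁ x' := ha
    have : (⟨a⁻¹, adjoinElt_le hF₁L hx' ht⟩ : L) =
        (⟨a, adjoinElt_le hF₁L hx' ha'⟩ : L)⁻¹ := rfl
    rw [this, map_inv₀, iha ha']
  | mul a b ha hb iha ihb =>
    have ha' : a ∈ adjoinElt F₁ x' := ha
    have hb' : b ∈ adjoinElt F₁ x' := hb
    have : (⟨a * b, adjoinElt_le hF₁L hx' ht⟩ : L) =
        ⟨a, adjoinElt_le hF₁L hx' ha'⟩ * ⟨b, adjoinElt_le hF₁L hx' hb'⟩ := rfl
    rw [this, map_mul, iha ha', ihb hb']

end Adjoin

end AdjPart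

section FixPart

open IsLocalRing IntermediateField Fermat.Agent.S55.Local Fermat.Agent.S55.Local.Unram
  Fermat.Agent.S55.Local.KillTransport Fermat.Agent.S55.LocalInt

attribute [local instance 2000] Algebra.toSMul Algebra.toModule

variable {p : ℕ} [Fact p.Prime]

/-- A subfield `F₁(S)` -- here: any `E₁ ≤ L` all of whose elements are fixed by every ring
endomorphism of `L` fixing `F₁` and `x'`. -/
theorem mem_fixer_of_apply_eq {K₀ F₁ E₁ L : IntermediateField ℚ_[p] (PadicAlgCl p)}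
    [FiniteDimensional ℚ_[p] L] [IsGalois ℚ_[p] L]
    (hKF : K₀ ≤ F₁) (hFL : F₁ ≤ L) (hEL : E₁ ≤ L) (x₁ : integralClosure ℤ_[p] L)
    (hE₁ : ∀ g : L →+* L, (∀ a : F₁, g (IntermediateField.inclusion hFL a) =
      IntermediateField.inclusion hFL a) → g (x₁ : L) = (x₁ : L) →
      ∀ t : E₁, g (IntermediateField.inclusion hEL t) = IntermediateField.inclusion hEL t) :
    letI := algIntInt ℤ_[p] (hKF.trans hFL)
    ∀ σ : integralClosure ℤ_[p] L ≃ₐ[integralClosure ℤ_[p] K₀] integralClosure ℤ_[p] L,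
      σ ∈ Fixer.fixer (hKF.trans hFL) hFL → σ x₁ = x₁ →
      σ ∈ Fixer.fixer (hKF.trans hFL) hEL := by
  letI := algIntInt ℤ_[p] (hKF.trans hFL)
  letI := algInc hFL
  letI := algIntField ℤ_[p] hFL
  letI := algIntInt ℤ_[p] hFL
  haveI := isScalarTower_algInc hFL
  haveI := isScalarTower_int_field ℤ_[p] hFL
  haveI := isScalarTower_int_int ℤ_[p] hFL
  haveI := isScalarTower_base_int_int ℤ_[p] hFL
  haveI := isIntegralClosure_int ℤ_[p] hFL
  haveI : FiniteDimensional ℚ_[p] F₁ :=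
    FiniteDimensional.of_injective (IntermediateField.inclusion hFL).toLinearMap
      (IntermediateField.inclusion hFL).injective
  haveI : FiniteDimensional F₁ L := Module.Finite.right ℚ_[p] F₁ L
  haveI : IsGalois F₁ L := IsGalois.tower_top_of_isGalois ℚ_[p] F₁ L
  intro σ hσ hσx
  set σ' : integralClosure ℤ_[p] L ≃ₐ[integralClosure ℤ_[p] F₁] integralClosure ℤ_[p] L :=
    Fixer.equivOfMem hKF hFL (Fixer.fixer (hKF.trans hFL) hFL)
      (Fixer.mem_fixer_iff (hKF.trans hFL) hFL) ⟨σ, hσ⟩ with hσ'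
  have hσ'σ : ∀ b, σ' b = σ b := fun _ => rfl
  set g : L ≃ₐ[F₁] L :=
    (galRestrict (integralClosure ℤ_[p] F₁) F₁ L (integralClosure ℤ_[p] L)).symm σ' with hg
  have hgσ : ∀ b : integralClosure ℤ_[p] L, g (b : L) = ((σ b : integralClosure ℤ_[p] L) : L) := by
    intro b
    exact galRestrict_symm_algebraMap_apply (integralClosure ℤ_[p] F₁) F₁ σ' b
  have hfix := hE₁ (g : L →+* L) (fun a => g.commutes a) (by
    show g (x₁ : L) = (x₁ : L)
    rw [hgσ, hσx])
  rw [Fixer.mem_fixer_iff]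
  intro c
  apply Subtype.ext
  have h1 : ((intIncl ℤ_[p] hEL c : integralClosure ℤ_[p] L) : L) =
      IntermediateField.inclusion hEL (c : E₁) := by
    apply Subtype.ext
    rw [coe_intIncl]
    rfl
  rw [← hgσ, h1]
  exact hfix (c : E₁)

end FixPart

section KummerPart

open IsLocalRing IntermediateField Fermat.Agent.S55.Local Fermat.Agent.S55.Local.Unram
  Fermat.Agent.S55.Local.KillTransport Fermat.Agent.S55.LocalInt
open IsDiscreteValuationRing (addVal)

attribute [local instance 2000] Algebra.toSMul Algebra.toModule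

variable {p : ℕ} [Fact p.Prime]

set_option maxHeartbeats 1600000 in
set_option synthInstance.maxHeartbeats 400000 in
/-- **[FL-B], concrete assembly.**  `K₀ ≤ F₁ ≤ E₁ ≤ L`, `L/ℚ_p` Galois with Fontaine's property,
`K₀` its maximal unramified subfield, `(p) = 𝔪_{F₁}^e`, `e = (p-1) ε`, `E₁/F₁` totally ramified of
degree `p` with `𝒪_{E₁} = 𝒪_{F₁}[y]`, and the ambient Kummer break for the automorphisms of
`𝒪_L/𝒪_{F₁}` moving `xL` (which together with `F₁` generates `E₁`): then `e ≤ i`. -/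
theorem le_of_kummer (hp2 : p ≠ 2) {K₀ F₁ E₁ L : IntermediateField ℚ_[p] (PadicAlgCl p)}
    [FiniteDimensional ℚ_[p] L] [IsGalois ℚ_[p] L] (hK₀ : IsUnramifiedIn ℤ_[p] K₀)
    (hdeg : Module.finrank ℚ_[p] K₀ =
      Module.finrank (ResidueField ℤ_[p]) (ResidueField (integralClosure ℤ_[p] L)))
    (hKF : K₀ ≤ F₁) (hFE : F₁ ≤ E₁) (hEL : E₁ ≤ L) (hL : FontaineProp p L) {e : ℕ}
    (hpe : Ideal.span {((p : ℕ) : integralClosure ℤ_[p] F₁)} =
      maximalIdeal (integralClosure ℤ_[p] F₁) ^ e)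
    (ε : ℕ) (he : e = (p - 1) * ε) (xL : integralClosure ℤ_[p] L)
    (hE₁ : ∀ g : L →+* L, (∀ a : F₁, g (IntermediateField.inclusion (hFE.trans hEL) a) =
      IntermediateField.inclusion (hFE.trans hEL) a) → g (xL : L) = (xL : L) →
      ∀ t : E₁, g (IntermediateField.inclusion hEL t) = IntermediateField.inclusion hEL t) :
    letI := algInc hFE
    letI := algInc hEL
    letI := algIntInt ℤ_[p] hFE
    letI := algIntInt ℤ_[p] (hFE.trans hEL)
    Module.finrank F₁ E₁ = p →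
    (maximalIdeal (integralClosure ℤ_[p] F₁)).map
        (algebraMap (integralClosure ℤ_[p] F₁) (integralClosure ℤ_[p] E₁)) =
      maximalIdeal (integralClosure ℤ_[p] E₁) ^ p →
    ∀ y : integralClosure ℤ_[p] E₁, Irreducible y → ∀ i : ℕ,
    (∀ σ : integralClosure ℤ_[p] L ≃ₐ[integralClosure ℤ_[p] F₁] integralClosure ℤ_[p] L,
      σ xL ≠ xL →
      addVal (integralClosure ℤ_[p] L) (σ (intIncl ℤ_[p] hEL y) - intIncl ℤ_[p] hEL y) +
          ((Module.finrank E₁ L * i : ℕ) : ℕ∞) =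
        ((Module.finrank E₁ L * (p * ε + 1) : ℕ) : ℕ∞)) →
    e ≤ i := by
  classical
  have hFL : F₁ ≤ L := hFE.trans hEL
  have hKE : K₀ ≤ E₁ := hKF.trans hFE
  have hKL : K₀ ≤ L := hKF.trans hFL
  letI := algInc hFE
  letI := algInc hEL
  letI := algInc hFL
  letI := algInc hKL
  letI := algIntField ℤ_[p] hFE
  letI := algIntInt ℤ_[p] hFE
  letI := algIntInt ℤ_[p] hFL
  letI := algIntInt ℤ_[p] hEL
  letI := algIntInt ℤ_[p] hKL
  haveI := isScalarTower_algInc hFE
  haveI := isScalarTower_algInc hKL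
  haveI := isScalarTower_int_field ℤ_[p] hFE
  haveI := isScalarTower_int_int ℤ_[p] hFE
  haveI := isScalarTower_base_int_int ℤ_[p] hFE
  haveI := isIntegralClosure_int ℤ_[p] hFE
  haveI : IsScalarTower F₁ E₁ L := IsScalarTower.of_algebraMap_eq fun _ => rfl
  haveI : IsScalarTower (integralClosure ℤ_[p] F₁) (integralClosure ℤ_[p] E₁)
      (integralClosure ℤ_[p] L) :=
    IsScalarTower.of_algebraMap_eq fun a => (Fixer.intIncl_intIncl hFE hEL a).symm
  haveI : FiniteDimensional ℚ_[p] K₀ := hK₀.finiteDimensional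
  haveI : FiniteDimensional K₀ L := Module.Finite.right ℚ_[p] K₀ L
  haveI : FiniteDimensional ℚ_[p] F₁ :=
    FiniteDimensional.of_injective (IntermediateField.inclusion hFL).toLinearMap
      (IntermediateField.inclusion hFL).injective
  haveI : FiniteDimensional ℚ_[p] E₁ :=
    FiniteDimensional.of_injective (IntermediateField.inclusion hEL).toLinearMap
      (IntermediateField.inclusion hEL).injective
  haveI : FiniteDimensional F₁ E₁ := Module.Finite.right ℚ_[p] F₁ E₁
  haveI : FiniteDimensional E₁ L := by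
    haveI := isScalarTower_algInc hEL
    exact Module.Finite.right ℚ_[p] E₁ L
  haveI : Algebra.IsSeparable F₁ E₁ := Algebra.IsAlgebraic.isSeparable_of_perfectField
  intro hfin htr y hy i hKum
  -- the group
  obtain ⟨hfaith, hcard⟩ := FontaineCount.faithful_and_card hK₀ hdeg hKL
  haveI : Finite (integralClosure ℤ_[p] L ≃ₐ[integralClosure ℤ_[p] K₀]
      integralClosure ℤ_[p] L) := by
    apply Nat.finite_of_card_ne_zero
    rw [hcard]
    exact (Module.finrank_pos (R := K₀) (M := L)).ne'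
  letI : Fintype (integralClosure ℤ_[p] L ≃ₐ[integralClosure ℤ_[p] K₀]
      integralClosure ℤ_[p] L) := Fintype.ofFinite _
  set P := Fixer.fixer hKL hFL with hPdef
  set H := Fixer.fixer hKL hEL with hHdef
  have hP := Fixer.mem_fixer_iff hKL hFL
  have hH := Fixer.mem_fixer_iff hKL hEL
  have hHP : H ≤ P := Fixer.le_of_mem_iff hKL hFE hEL P H hP hH
  have hidx : H.relIndex P = Module.finrank F₁ E₁ :=
    Fixer.relIndex_eq_finrank hKF hFE hEL P H hP hH
  have hcP : Nat.card P = Module.finrank F₁ L := Fixer.card_eq_finrank hKF hFL P hP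
  have hcH : Nat.card H = Module.finrank E₁ L := Fixer.card_eq_finrank hKE hEL H hH
  -- degrees
  have hn1 := TotRam.span_natCast_eq_pow_mul hK₀ hdeg hKF hFL hpe
  have hn2 := TotRam.span_natCast_eq_pow_finrank hK₀ hdeg hKL
  have hn : Module.finrank K₀ L = e * Module.finrank F₁ L :=
    pow_maximalIdeal_injective _ (hn2.symm.trans hn1)
  have hFEL : Module.finrank F₁ E₁ * Module.finrank E₁ L = Module.finrank F₁ L :=
    Module.finrank_mul_finrank F₁ E₁ L
  have hmpos : 0 < Module.finrank E₁ L := Module.finrank_pos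
  have hKLpos : 0 < Module.finrank K₀ L := Module.finrank_pos
  have hp2' : 2 ≤ p := (Fact.out : p.Prime).two_le
  have h2 : 2 ≤ Module.finrank K₀ L := by
    rw [hn, ← hFEL, hfin]
    have he0 : 0 < e := by
      rcases Nat.eq_zero_or_pos e with h0 | h0
      · rw [hn, h0, zero_mul] at hKLpos
        exact absurd hKLpos (lt_irrefl _)
      · exact h0
    calc 2 ≤ p := hp2'
      _ = 1 * (p * 1) := by ring
      _ ≤ e * (p * Module.finrank E₁ L) :=
        Nat.mul_le_mul he0 (Nat.mul_le_mul le_rfl hmpos)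
  obtain ⟨ϖ, hϖ⟩ := IsDiscreteValuationRing.exists_irreducible (integralClosure ℤ_[p] L)
  have hϖmem : ϖ ∈ maximalIdeal (integralClosure ℤ_[p] L) := by
    rw [hϖ.maximalIdeal_eq]
    exact Ideal.mem_span_singleton_self ϖ
  have hB1 := FontaineCount.fontaine_krasner_count_iFun hp2 hK₀ hdeg hKL hL h2 ϖ hϖ
  have hadj : Algebra.adjoin (integralClosure ℤ_[p] F₁) {y} = ⊤ :=
    Eisenstein.adjoin_irreducible_eq_top (integralClosure ℤ_[p] F₁) F₁ E₁
      (integralClosure ℤ_[p] E₁) (by rw [hfin]; exact htr) y hy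
  refine le_of_tower hp2' ϖ hϖmem (hfaith ϖ hϖ) P H hHP (hidx.trans hfin) e ε i ?_ he hB1
    (O₁ := integralClosure ℤ_[p] F₁) (B₁ := integralClosure ℤ_[p] E₁)
    (fun σ hσ a => (hP σ).1 hσ a) ?_ y hadj ?_
  · rw [← Nat.card_eq_fintype_card, ← Nat.card_eq_fintype_card, hcard, hcP, hn]
  · intro b hb
    obtain ⟨c, hc⟩ := Fixer.exists_intIncl_eq_of_fixed hKE hEL H hH b hb
    exact ⟨c, hc⟩
  · intro σ hσP hσH
    set σ' : integralClosure ℤ_[p] L ≃ₐ[integralClosure ℤ_[p] F₁] integralClosure ℤ_[p] L :=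
      Fixer.equivOfMem hKF hFL P hP ⟨σ, hσP⟩ with hσ'
    have hne : σ' xL ≠ xL := fun h =>
      hσH (mem_fixer_of_apply_eq hKF hFL hEL xL hE₁ σ hσP h)
    have h3 := hKum σ' hne
    rw [← Nat.card_eq_fintype_card, hcH]
    exact h3

end KummerPart

section NormalFormPart

open IsLocalRing IntermediateField Fermat.Agent.S55.Local Fermat.Agent.S55.Local.Unram
  Fermat.Agent.S55.Local.KillTransport Fermat.Agent.S55.LocalInt
open IsDiscreteValuationRing (addVal)

attribute [local instance 2000] Algebra.toSMul Algebra.toModule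

variable {p : ℕ} [Fact p.Prime]

set_option maxHeartbeats 1600000 in
set_option synthInstance.maxHeartbeats 400000 in
/-- **[FL-B] over a field `F₁ ⊇ K₀`**: an element `w'` of `𝒪_{F₁}` in normal form (so NOT in
`U^{(e)} F₁^{×p}`) has no `p`-th root in `L`. -/
theorem false_of_isNormalForm (hp2 : p ≠ 2) {K₀ F₁ L : IntermediateField ℚ_[p] (PadicAlgCl p)}
    [FiniteDimensional ℚ_[p] L] [IsGalois ℚ_[p] L] [FiniteDimensional ℚ_[p] F₁]
    (hK₀ : IsUnramifiedIn ℤ_[p] K₀)
    (hdeg : Module.finrank ℚ_[p] K₀ =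
      Module.finrank (ResidueField ℤ_[p]) (ResidueField (integralClosure ℤ_[p] L)))
    (hKF : K₀ ≤ F₁) (hFL : F₁ ≤ L) (hL : FontaineProp p L) {e : ℕ}
    (hpe : Ideal.span {((p : ℕ) : integralClosure ℤ_[p] F₁)} =
      maximalIdeal (integralClosure ℤ_[p] F₁) ^ e) (he1 : 1 ≤ e)
    (ζ₁ : integralClosure ℤ_[p] F₁) (hζ₁ : IsPrimitiveRoot ζ₁ p)
    (w' : integralClosure ℤ_[p] F₁)
    (hnf : NormalForm.IsNormalForm (integralClosure ℤ_[p] F₁) p e w')
    (x' : PadicAlgCl p) (hx'L : x' ∈ L) (hx'w : x' ^ p = ((w' : F₁) : PadicAlgCl p)) : False := by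
  have hp : p.Prime := Fact.out
  have hFE : F₁ ≤ adjoinElt F₁ x' := le_adjoinElt F₁ x'
  have hEL : adjoinElt F₁ x' ≤ L := adjoinElt_le hFL hx'L
  have hx'norm : ‖x'‖ ≤ 1 := by
    have h1 : ‖x'‖ ^ p = ‖((w' : F₁) : PadicAlgCl p)‖ := by rw [← norm_pow, hx'w]
    have h2 := norm_le_one_of_mem F₁ w'
    rw [← h1] at h2
    exact (pow_le_one_iff_of_nonneg (norm_nonneg _) hp.ne_zero).1 h2
  set E₁ : IntermediateField ℚ_[p] (PadicAlgCl p) := adjoinElt F₁ x' with hE₁def
  set x₁ : integralClosure ℤ_[p] E₁ :=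
    ⟨⟨x', mem_adjoinElt F₁ x'⟩, (mem_integralClosure_iff_norm_le_one E₁ _).2 hx'norm⟩ with hx₁
  letI := algInc hFE
  letI := algInc hEL
  letI := algIntField ℤ_[p] hFE
  letI := algIntInt ℤ_[p] hFE
  letI := algIntInt ℤ_[p] (hFE.trans hEL)
  letI := algIntInt ℤ_[p] hEL
  haveI := isScalarTower_algInc hFE
  haveI := isScalarTower_int_field ℤ_[p] hFE
  haveI := isScalarTower_int_int ℤ_[p] hFE
  haveI := isScalarTower_base_int_int ℤ_[p] hFE
  haveI := isIntegralClosure_int ℤ_[p] hFE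
  haveI : IsScalarTower (integralClosure ℤ_[p] F₁) (integralClosure ℤ_[p] E₁)
      (integralClosure ℤ_[p] L) :=
    IsScalarTower.of_algebraMap_eq fun a => (Fixer.intIncl_intIncl hFE hEL a).symm
  haveI : FiniteDimensional ℚ_[p] E₁ :=
    FiniteDimensional.of_injective (IntermediateField.inclusion hEL).toLinearMap
      (IntermediateField.inclusion hEL).injective
  haveI : FiniteDimensional F₁ E₁ := Module.Finite.right ℚ_[p] F₁ E₁
  haveI : FiniteDimensional E₁ L := by
    haveI := isScalarTower_algInc hEL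
    exact Module.Finite.right ℚ_[p] E₁ L
  haveI : Algebra.IsSeparable F₁ E₁ := Algebra.IsAlgebraic.isSeparable_of_perfectField
  have hx₁p : x₁ ^ p = algebraMap (integralClosure ℤ_[p] F₁) (integralClosure ℤ_[p] E₁) w' := by
    apply Subtype.ext
    apply Subtype.ext
    show x' ^ p = ((intIncl ℤ_[p] hFE w' : E₁) : PadicAlgCl p)
    rw [coe_intIncl]
    exact hx'w
  have hgen : IntermediateField.adjoin F₁
      {algebraMap (integralClosure ℤ_[p] E₁) E₁ x₁} = ⊤ := adjoin_adjoinElt_eq_top F₁ x'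
  have hm0 : Module.finrank E₁ L ≠ 0 := (Module.finrank_pos (R := E₁) (M := L)).ne'
  have hm := TotRam.map_maximalIdeal_eq_pow_finrank hK₀ hdeg (hKF.trans hFE) hEL
  obtain ⟨ε, hε, hεe⟩ :=
    KummerBreakAmbient.addVal_sub_one_of_isPrimitiveRoot' hp hpe ζ₁ hζ₁
  have hE₁ : ∀ g : L →+* L, (∀ a : F₁, g (IntermediateField.inclusion (hFE.trans hEL) a) =
      IntermediateField.inclusion (hFE.trans hEL) a) →
      g ((intIncl ℤ_[p] hEL x₁ : integralClosure ℤ_[p] L) : L) =
        ((intIncl ℤ_[p] hEL x₁ : integralClosure ℤ_[p] L) : L) →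
      ∀ t : E₁, g (IntermediateField.inclusion hEL t) = IntermediateField.inclusion hEL t := by
    intro g hg hgx t
    have hxx : ((intIncl ℤ_[p] hEL x₁ : integralClosure ℤ_[p] L) : L) = ⟨x', hx'L⟩ := by
      apply Subtype.ext
      rw [coe_intIncl]
    rw [hxx] at hgx
    exact forall_eq_of_adjoinElt hFL hx'L g hg hgx t.1 t.2
  rcases hnf with ⟨n, hn, hpn⟩ | ⟨i, hi0, hie, hpi, hwi⟩
  · obtain ⟨hfin, htr, y, hy, -, hamb⟩ :=
      KummerBreakAmbient.exists_uniformizer_addVal_type0_ambient (integralClosure ℤ_[p] F₁) F₁ E₁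
        (integralClosure ℤ_[p] E₁) (integralClosure ℤ_[p] L) hp hpe hm0 hm ζ₁ hζ₁ w' n hpn hn
        x₁ hx₁p hgen
    have h := le_of_kummer hp2 hK₀ hdeg hKF hFE hEL hL hpe ε hεe.symm
      (intIncl ℤ_[p] hEL x₁) hE₁ hfin htr y hy 0 (fun σ hσ => by
        have h1 := hamb σ hσ
        rw [hε] at h1
        rw [mul_zero, Nat.cast_zero, add_zero]
        refine h1.trans ?_
        push_cast
        rfl)
    omega
  · have hlt : (p - 1) * i < p * e := by
      have h1 : (p - 1) * i ≤ p * i := Nat.mul_le_mul_right _ (Nat.sub_le _ _)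
      have h2 : p * i < p * e := Nat.mul_lt_mul_of_pos_left hie hp.pos
      exact lt_of_le_of_lt h1 h2
    obtain ⟨hfin, htr, y, hy, -, hamb⟩ :=
      KummerBreakAmbient.exists_uniformizer_addVal_typeI_ambient (integralClosure ℤ_[p] F₁) F₁ E₁
        (integralClosure ℤ_[p] E₁) (integralClosure ℤ_[p] L) hp hpe hm0 hm ζ₁ hζ₁ w' i hi0 hpi hlt
        hwi x₁ hx₁p hgen
    have h := le_of_kummer hp2 hK₀ hdeg hKF hFE hEL hL hpe ε hεe.symm
      (intIncl ℤ_[p] hEL x₁) hE₁ hfin htr y hy i (fun σ hσ => by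
        have h1 := hamb σ hσ
        rw [hε] at h1
        refine h1.trans ?_
        push_cast
        rfl)
    omega

end NormalFormPart

section SupPart

open IsLocalRing IntermediateField Fermat.Agent.S55.Local Fermat.Agent.S55.Local.Unram
  Fermat.Agent.S55.Local.KillTransport Fermat.Agent.S55.LocalInt
  Fermat.Agent.S55.GL.PlacesRelUnram

attribute [local instance 2000] Algebra.toSMul Algebra.toModule

variable {p : ℕ} [Fact p.Prime]

local notation "Ω" => PadicAlgCl p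
local notation "𝒪" E => integralClosure ℤ_[p] E

/-- the coercion of `intIncl` to the big field -/
theorem coe_intIncl' {E M : IntermediateField ℚ_[p] Ω} (hEM : E ≤ M) (b : 𝒪 E) :
    (((intIncl ℤ_[p] hEM b : 𝒪 M) : M) : Ω) = ((b : E) : Ω) := coe_intIncl hEM b

set_option synthInstance.maxHeartbeats 400000 in
/-- **(T4)** the compositum with an unramified extension of `ℚ_p` is unramified:
`𝔪_F 𝒪_{F ⊔ K₀} = 𝔪_{F ⊔ K₀}`. -/
theorem map_maximalIdeal_sup {F K₀ : IntermediateField ℚ_[p] Ω} [FiniteDimensional ℚ_[p] F]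
    (hK₀ : IsUnramifiedIn ℤ_[p] K₀) :
    (maximalIdeal (𝒪 F)).map (intIncl ℤ_[p] (le_sup_left : F ≤ F ⊔ K₀)).toRingHom =
      maximalIdeal (𝒪 (F ⊔ K₀ : IntermediateField ℚ_[p] Ω)) := by
  haveI : FiniteDimensional ℚ_[p] K₀ := hK₀.finiteDimensional
  haveI : FiniteDimensional ℚ_[p] (F ⊔ K₀ : IntermediateField ℚ_[p] Ω) :=
    IntermediateField.finiteDimensional_sup F K₀
  have h' := hK₀.extendScalars_sup (E₀ := F)
  obtain ⟨ϖ, hϖ⟩ := IsDiscreteValuationRing.exists_irreducible (𝒪 F)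
  have hϖlt : ‖((ϖ : F) : Ω)‖ < 1 := by
    rw [← mem_maximalIdeal_iff_norm_lt_one, hϖ.maximalIdeal_eq]
    exact Ideal.mem_span_singleton_self ϖ
  rw [hϖ.maximalIdeal_eq, Ideal.map_span, Set.image_singleton]
  apply le_antisymm
  · rw [Ideal.span_singleton_le_iff_mem, mem_maximalIdeal_iff_norm_lt_one]
    show ‖(((intIncl ℤ_[p] _ ϖ : 𝒪 (F ⊔ K₀ : IntermediateField ℚ_[p] Ω)) : (F ⊔ K₀ : IntermediateField ℚ_[p] Ω)) : Ω)‖ < 1
    rw [coe_intIncl']
    exact hϖlt
  · intro x hx
    rw [mem_maximalIdeal_iff_norm_lt_one] at hx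
    have hmax := h'.2
    rw [hϖ.maximalIdeal_eq, Ideal.map_span, Set.image_singleton] at hmax
    set Frel : IntermediateField F Ω :=
      IntermediateField.extendScalars (le_sup_left : F ≤ F ⊔ K₀) with hFrel
    set ϖ' : integralClosure (𝒪 F) Frel := algebraMap (𝒪 F) (integralClosure (𝒪 F) Frel) ϖ with hϖ'
    have hϖ'coe : (((ϖ' : integralClosure (𝒪 F) Frel) : Frel) : Ω) = ((ϖ : F) : Ω) := rfl
    -- `x` as a relative integer
    have hxmem : (((x : 𝒪 (F ⊔ K₀ : IntermediateField ℚ_[p] Ω)) :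
        (F ⊔ K₀ : IntermediateField ℚ_[p] Ω)) : Ω) ∈ Frel :=
      (IntermediateField.mem_extendScalars _).2 (x : (F ⊔ K₀ : IntermediateField ℚ_[p] Ω)).2
    set x' : integralClosure (𝒪 F) Frel :=
      ⟨⟨_, hxmem⟩, (mem_integralClosure_rel_iff F Frel _).2 hx.le⟩ with hx'
    have hx'coe : (((x' : integralClosure (𝒪 F) Frel) : Frel) : Ω) =
        (((x : 𝒪 (F ⊔ K₀ : IntermediateField ℚ_[p] Ω)) :
          (F ⊔ K₀ : IntermediateField ℚ_[p] Ω)) : Ω) := rfl
    have hmemx' : x' ∈ Ideal.span {ϖ'} := by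
      by_contra hnot
      obtain ⟨y, i, hi, hyi⟩ := hmax.exists_inv hnot
      obtain ⟨c, rfl⟩ := Ideal.mem_span_singleton'.1 hi
      have h1 : (((y : integralClosure (𝒪 F) Frel) : Frel) : Ω) *
          (((x' : integralClosure (𝒪 F) Frel) : Frel) : Ω) +
          (((c : integralClosure (𝒪 F) Frel) : Frel) : Ω) *
          (((ϖ' : integralClosure (𝒪 F) Frel) : Frel) : Ω) = 1 := by
        have := congrArg (fun z : integralClosure (𝒪 F) Frel => ((z : Frel) : Ω)) hyi
        simpa using this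
      have h2 := congrArg norm h1
      rw [norm_one] at h2
      have hy1 := norm_le_one_of_mem_rel F Frel y
      have hc1 := norm_le_one_of_mem_rel F Frel c
      have h3 : ‖(((y : integralClosure (𝒪 F) Frel) : Frel) : Ω) *
          (((x' : integralClosure (𝒪 F) Frel) : Frel) : Ω)‖ < 1 := by
        rw [norm_mul, hx'coe]
        calc _ ≤ 1 * ‖_‖ := mul_le_mul_of_nonneg_right hy1 (norm_nonneg _)
          _ < 1 := by rw [one_mul]; exact hx
      have h4 : ‖(((c : integralClosure (𝒪 F) Frel) : Frel) : Ω) *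
          (((ϖ' : integralClosure (𝒪 F) Frel) : Frel) : Ω)‖ < 1 := by
        rw [norm_mul, hϖ'coe]
        calc _ ≤ 1 * ‖_‖ := mul_le_mul_of_nonneg_right hc1 (norm_nonneg _)
          _ < 1 := by rw [one_mul]; exact hϖlt
      have h5 := lt_of_le_of_lt (IsUltrametricDist.norm_add_le_max _ _) (max_lt h3 h4)
      rw [h2] at h5
      exact lt_irrefl _ h5
    obtain ⟨c, hc⟩ := Ideal.mem_span_singleton'.1 hmemx'
    have hc1 := norm_le_one_of_mem_rel F Frel c
    have hcmem : (((c : integralClosure (𝒪 F) Frel) : Frel) : Ω) ∈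
        (F ⊔ K₀ : IntermediateField ℚ_[p] Ω) :=
      (IntermediateField.mem_extendScalars _).1 (c : Frel).2
    refine Ideal.mem_span_singleton'.2 ⟨⟨⟨_, hcmem⟩,
      (mem_integralClosure_iff_norm_le_one _ _).2 hc1⟩, ?_⟩
    apply Subtype.ext
    apply Subtype.ext
    have h6 := congrArg (fun z : integralClosure (𝒪 F) Frel => ((z : Frel) : Ω)) hc
    simp only [MulMemClass.coe_mul] at h6
    rw [hϖ'coe, hx'coe] at h6
    simp only [MulMemClass.coe_mul, AlgHom.toRingHom_eq_coe, RingHom.coe_coe]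
    rw [coe_intIncl']
    exact h6

end SupPart

end Fermat.Agent.S56.Flat.KummerBound.Tower
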