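/-
S56, block F (FLAT), leaf [FLB-Main]: **the Kummer form of Fontaine's ramification bound**
(`moonshots` row 51): a finite Galois extension `L/ℚ_p` (`p` odd) with Fontaine's property
`FontaineProp p L` is "peu ramifiée" (`IsPeuRamifie p L`).

Proof: `by_contra` + normal form (B0, `NormalForm.exists_isNormalForm`) over `F`; base change to
`F₁ = F K₀` (`K₀` = maximal unramified subfield of `L`, (T4) `Tower.map_maximalIdeal_sup`), then
`Tower.false_of_isNormalForm` (Kummer break (B3a) + Fontaine–Krasner count (B1) + combinatorics).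
-/
import Mathlib
import Fermat.Agent.S56.Flat.KummerBound.Tower

set_option autoImplicit false
set_option linter.style.haveILetI false
set_option linter.unusedSectionVars false

namespace Fermat.Agent.S56.Flat.KummerBound.Main

open IsLocalRing IntermediateField Fermat.Agent.S55.Local Fermat.Agent.S55.Local.Unram
  Fermat.Agent.S55.Local.KillTransport Fermat.Agent.S55.LocalInt
open IsDiscreteValuationRing (addVal)

attribute [local instance 2000] Algebra.toSMul Algebra.toModule

variable {p : ℕ} [Fact p.Prime]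

set_option maxHeartbeats 1600000 in
set_option synthInstance.maxHeartbeats 400000 in
/-- **[FL-B] Kummer form of Fontaine's ramification bound.**  A finite Galois extension `L/ℚ_p`
(`p` odd) with Fontaine's property `(P_m)`, `m > p/(p-1)`, is "peu ramifiée". -/
theorem isPeuRamifie_of_fontaineProp (hp2 : p ≠ 2) (L : IntermediateField ℚ_[p] (PadicAlgCl p))
    [FiniteDimensional ℚ_[p] L] [IsGalois ℚ_[p] L] : FontaineProp p L → IsPeuRamifie p L := by
  intro hL F _ hFL ζ hζ e hpe w hw hx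
  obtain ⟨x, hxL, hxw⟩ := hx
  have hp : p.Prime := Fact.out
  by_contra hnot
  obtain ⟨K₀, hKL, hK₀, hdeg⟩ := exists_isUnramifiedIn_le (O := ℤ_[p]) L
  haveI : FiniteDimensional ℚ_[p] K₀ := hK₀.finiteDimensional
  -- `1 ≤ e`
  have hpmem : ((p : ℕ) : integralClosure ℤ_[p] F) ∈ maximalIdeal (integralClosure ℤ_[p] F) :=
    natCast_mem_maximalIdeal F
  have he1 : 1 ≤ e := by
    rcases Nat.eq_zero_or_pos e with h0 | h0
    · exfalso
      rw [h0, pow_zero, Ideal.one_eq_top] at hpe
      have h1 : maximalIdeal (integralClosure ℤ_[p] F) = ⊤ :=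
        top_le_iff.1 (hpe ▸ (Ideal.span_singleton_le_iff_mem _).2 hpmem)
      exact (IsLocalRing.maximalIdeal.isMaximal _).ne_top h1
    · exact h0
  have hpe' : ((p : ℕ) : integralClosure ℤ_[p] F) ∈ maximalIdeal (integralClosure ℤ_[p] F) ^ e := by
    rw [← hpe]
    exact Ideal.mem_span_singleton_self _
  obtain ⟨z, w', hz, hwz, hnf⟩ :=
    NormalForm.exists_isNormalForm (integralClosure ℤ_[p] F) F hp he1 hpe' w hw hnot
  -- the field `F₁ = F K₀`
  have hFF₁ : F ≤ F ⊔ K₀ := le_sup_left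
  have hKF₁ : K₀ ≤ F ⊔ K₀ := le_sup_right
  have hF₁L : F ⊔ K₀ ≤ L := sup_le hFL hKL
  haveI : FiniteDimensional ℚ_[p] (F ⊔ K₀ : IntermediateField ℚ_[p] (PadicAlgCl p)) :=
    IntermediateField.finiteDimensional_sup F K₀
  letI := algIntInt ℤ_[p] hFF₁
  have hT4 : (maximalIdeal (integralClosure ℤ_[p] F)).map
      (algebraMap (integralClosure ℤ_[p] F)
        (integralClosure ℤ_[p] (F ⊔ K₀ : IntermediateField ℚ_[p] (PadicAlgCl p)))) =
      maximalIdeal (integralClosure ℤ_[p] (F ⊔ K₀ : IntermediateField ℚ_[p] (PadicAlgCl p))) :=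
    Tower.map_maximalIdeal_sup (F := F) hK₀
  have hT4' : (maximalIdeal (integralClosure ℤ_[p] F)).map
      (algebraMap (integralClosure ℤ_[p] F)
        (integralClosure ℤ_[p] (F ⊔ K₀ : IntermediateField ℚ_[p] (PadicAlgCl p)))) =
      maximalIdeal (integralClosure ℤ_[p] (F ⊔ K₀ : IntermediateField ℚ_[p] (PadicAlgCl p))) ^ 1 := by
    rw [pow_one]
    exact hT4
  have hpe₁ : Ideal.span {((p : ℕ) :
        integralClosure ℤ_[p] (F ⊔ K₀ : IntermediateField ℚ_[p] (PadicAlgCl p)))} =
      maximalIdeal (integralClosure ℤ_[p] (F ⊔ K₀ : IntermediateField ℚ_[p] (PadicAlgCl p))) ^ e := by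
    have h1 := congrArg (Ideal.map (algebraMap (integralClosure ℤ_[p] F)
        (integralClosure ℤ_[p] (F ⊔ K₀ : IntermediateField ℚ_[p] (PadicAlgCl p))))) hpe
    rwa [Ideal.map_span, Set.image_singleton, map_natCast, Ideal.map_pow, hT4] at h1
  -- the root of unity
  have hζnorm : ‖(ζ : PadicAlgCl p)‖ ≤ 1 := by
    have h1 : (ζ : PadicAlgCl p) ^ p = 1 := by
      have := congrArg (fun t : F => (t : PadicAlgCl p)) hζ.pow_eq_one
      simpa using this
    have h2 : ‖(ζ : PadicAlgCl p)‖ ^ p = 1 := by rw [← norm_pow, h1, norm_one]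
    exact ((pow_eq_one_iff_of_nonneg (norm_nonneg _) hp.ne_zero).1 h2).le
  set ζ₀ : integralClosure ℤ_[p] F := ⟨ζ, (mem_integralClosure_iff_norm_le_one F ζ).2 hζnorm⟩
    with hζ₀
  have hζ₀' : IsPrimitiveRoot ζ₀ p :=
    IsPrimitiveRoot.of_map_of_injective (f := algebraMap (integralClosure ℤ_[p] F) F)
      (by exact hζ) Subtype.val_injective
  have hζ₁ : IsPrimitiveRoot (intIncl ℤ_[p] hFF₁ ζ₀) p :=
    hζ₀'.map_of_injective (intIncl_injective hFF₁)
  -- the normal form
  have hnf₁ : NormalForm.IsNormalForm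
      (integralClosure ℤ_[p] (F ⊔ K₀ : IntermediateField ℚ_[p] (PadicAlgCl p))) p e
      (intIncl ℤ_[p] hFF₁ w') := by
    rcases hnf with ⟨n, hn, hpn⟩ | ⟨i, hi0, hie, hpi, hwi⟩
    · refine Or.inl ⟨n, ?_, hpn⟩
      have h1 := KummerBreak.addVal_algebraMap one_ne_zero hT4' w'
      rw [hn, Nat.cast_one, one_mul] at h1
      exact h1
    · refine Or.inr ⟨i, hi0, hie, hpi, ?_⟩
      have h1 := KummerBreak.addVal_algebraMap one_ne_zero hT4' (w' - 1)
      rw [hwi, Nat.cast_one, one_mul, map_sub, map_one] at h1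
      exact h1
  -- the `p`-th root
  have hx'L : x * (z : PadicAlgCl p) ∈ L := L.mul_mem hxL (hFL z.2)
  have hx'w : (x * (z : PadicAlgCl p)) ^ p =
      (((intIncl ℤ_[p] hFF₁ w' :
        integralClosure ℤ_[p] (F ⊔ K₀ : IntermediateField ℚ_[p] (PadicAlgCl p))) :
          (F ⊔ K₀ : IntermediateField ℚ_[p] (PadicAlgCl p))) : PadicAlgCl p) := by
    rw [coe_intIncl, mul_pow, hxw]
    have := congrArg (fun t : F => (t : PadicAlgCl p)) hwz
    simpa using this
  exact Tower.false_of_isNormalForm hp2 hK₀ hdeg hKF₁ hF₁L hL hpe₁ he1 _ hζ₁ _ hnf₁ _ hx'L hx'w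

end Fermat.Agent.S56.Flat.KummerBound.Main
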