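/-
S56 / FLAT, block [FL-B] (paper proof = `moonshots` row 51, helper20), **step (B3b)** — the easy half
of Serre, Corps locaux IV Prop. 3, in PURE commutative algebra (helper12).  Mathlib-only.

`B` a commutative ring (`𝒪_L`), `A` a commutative ring with `B` an `A`-algebra (`A = 𝒪_F`), a group
`G` acting on `B` by `A`-algebra automorphisms, `H ≤ G` a finite subgroup, `y ∈ B` such that every
`H`-invariant element of `B` lies in `A[y]` (`𝒪_{L'} = 𝒪_F[y]`, `L' = L^H`: step (S4)), `x ∈ B` (`x = Π`, a uniformiser of `L`).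

* `sub_mem_span_of_mem_adjoin` : `σ c − c ∈ (σ y − y)` for every `c ∈ A[y]` and every `A`-algebra
  endomorphism `σ` of `B`;
* `eval_map_sub_eval_mem_span` : `(σ f)(b) − f(b) ∈ (σ y − y)` for `f ∈ A[y][T]`;
* `coeff_prodXSub_smul` : the coefficients of `f = ∏_{τ ∈ H} (T − τ x)` are `H`-invariant;
* **`dvd_prod_sub_smul`** : `(σ y − y) ∣ ∏_{τ ∈ H} (x − (σ τ) x)`;
* **`le_sum_of_addVal`** : for any additive valuation `v : B → ℕ∞` (`v (a b) = v a + v b`):
  `v (σ y − y) ≤ ∑_{τ ∈ H} v (x − (σ τ) x)`, i.e. `|H| · v_{L'}(σ y − y) ≤ ∑_{τ ∈ H} i (σ τ)`.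
-/
import Mathlib

set_option autoImplicit false
set_option linter.unusedSectionVars false

namespace Fermat.Agent.S56.Flat.KummerBound.CosetBound

open Polynomial

variable {A B : Type*} [CommRing A] [CommRing B] [Algebra A B]

/-- `σ ≡ id` modulo `(σ y − y)` on `A[y]`. -/
theorem sub_mem_span_of_mem_adjoin (σ : B →ₐ[A] B) (y : B) {c : B}
    (hc : c ∈ Algebra.adjoin A {y}) : σ c - c ∈ Ideal.span {σ y - y} := by
  induction hc using Algebra.adjoin_induction with
  | mem x hx =>
    rw [Set.mem_singleton_iff] at hx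
    subst hx
    exact Ideal.subset_span (Set.mem_singleton _)
  | algebraMap r =>
    rw [σ.commutes, sub_self]
    exact Ideal.zero_mem _
  | add x z _ _ hx hz =>
    have : σ (x + z) - (x + z) = (σ x - x) + (σ z - z) := by rw [map_add]; ring
    rw [this]
    exact Ideal.add_mem _ hx hz
  | mul x z _ _ hx hz =>
    have : σ (x * z) - x * z = σ x * (σ z - z) + (σ x - x) * z := by rw [map_mul]; ring
    rw [this]
    exact Ideal.add_mem _ (Ideal.mul_mem_left _ _ hz) (Ideal.mul_mem_right _ _ hx)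

/-- `(σ f)(b) − f(b) ∈ (σ y − y)` for a polynomial `f` with coefficients in `A[y]`. -/
theorem eval_map_sub_eval_mem_span (σ : B →ₐ[A] B) (y : B) (f : B[X])
    (hf : ∀ k, f.coeff k ∈ Algebra.adjoin A {y}) (b : B) :
    (f.map (σ : B →+* B)).eval b - f.eval b ∈ Ideal.span {σ y - y} := by
  rw [Polynomial.eval_map, Polynomial.eval₂_eq_sum_range, Polynomial.eval_eq_sum_range,
    ← Finset.sum_sub_distrib]
  refine Ideal.sum_mem _ (fun k _ => ?_)
  have : (σ : B →+* B) (f.coeff k) * b ^ k - f.coeff k * b ^ k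
      = (σ (f.coeff k) - f.coeff k) * b ^ k := by
    rw [sub_mul]
    rfl
  rw [this]
  exact Ideal.mul_mem_right _ _ (sub_mem_span_of_mem_adjoin σ y (hf k))

section Action

variable {G : Type*} [Group G] [MulSemiringAction G B] [SMulCommClass G A B]

/-- the polynomial `∏_{τ ∈ H} (T − τ x)` -/
noncomputable def prodXSub (H : Subgroup G) [Fintype H] (x : B) : B[X] :=
  ∏ τ : H, (X - C ((τ : G) • x))

theorem map_prodXSub (H : Subgroup G) [Fintype H] (x : B) (σ : G) :
    (prodXSub H x).map (MulSemiringAction.toRingHom G B σ)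
      = ∏ τ : H, (X - C ((σ * (τ : G)) • x)) := by
  rw [prodXSub, Polynomial.map_prod]
  refine Finset.prod_congr rfl (fun τ _ => ?_)
  rw [Polynomial.map_sub, Polynomial.map_X, Polynomial.map_C, mul_smul]
  rfl

/-- the coefficients of `∏_{τ ∈ H} (T − τ x)` are `H`-invariant -/
theorem coeff_prodXSub_smul (H : Subgroup G) [Fintype H] (x : B) (τ' : H) (k : ℕ) :
    (τ' : G) • (prodXSub H x).coeff k = (prodXSub H x).coeff k := by
  have h1 : (prodXSub H x).map (MulSemiringAction.toRingHom G B (τ' : G)) = prodXSub H x := by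
    rw [map_prodXSub, prodXSub]
    exact Fintype.prod_equiv (Equiv.mulLeft τ') _ _ (fun τ => rfl)
  have h2 := congrArg (fun q : B[X] => q.coeff k) h1
  simp only [Polynomial.coeff_map] at h2
  exact h2

theorem eval_prodXSub_self (H : Subgroup G) [Fintype H] (x : B) : (prodXSub H x).eval x = 0 := by
  rw [prodXSub, Polynomial.eval_prod]
  refine Finset.prod_eq_zero (Finset.mem_univ (1 : H)) ?_
  simp

/-- **(B3b), divisibility form**: if the `H`-invariants of `B` lie in `A[y]`, then
`(σ y − y) ∣ ∏_{τ ∈ H} (x − (σ τ) x)`. -/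
theorem dvd_prod_sub_smul (H : Subgroup G) [Fintype H] (y x : B)
    (hfix : ∀ c : B, (∀ τ : H, (τ : G) • c = c) → c ∈ Algebra.adjoin A {y}) (σ : G) :
    (σ • y - y) ∣ ∏ τ : H, (x - (σ * (τ : G)) • x) := by
  have hf : ∀ k, (prodXSub H x).coeff k ∈ Algebra.adjoin A {y} :=
    fun k => hfix _ (fun τ => coeff_prodXSub_smul H x τ k)
  have h := eval_map_sub_eval_mem_span (MulSemiringAction.toAlgHom A B σ) y (prodXSub H x) hf x
  rw [eval_prodXSub_self, sub_zero] at h
  have h2 : ((prodXSub H x).map ((MulSemiringAction.toAlgHom A B σ : B →ₐ[A] B) : B →+* B)).eval x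
      = ∏ τ : H, (x - (σ * (τ : G)) • x) := by
    have : ((MulSemiringAction.toAlgHom A B σ : B →ₐ[A] B) : B →+* B)
        = MulSemiringAction.toRingHom G B σ := rfl
    rw [this, map_prodXSub, Polynomial.eval_prod]
    refine Finset.prod_congr rfl (fun τ _ => ?_)
    simp
  rw [h2] at h
  exact Ideal.mem_span_singleton.1 h

/-- **(B3b), valuation form**: for every additive valuation `v` on `B`,
`v (σ y − y) ≤ ∑_{τ ∈ H} v (x − (σ τ) x)`. -/
theorem le_sum_of_addVal (H : Subgroup G) [Fintype H] (y x : B)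
    (hfix : ∀ c : B, (∀ τ : H, (τ : G) • c = c) → c ∈ Algebra.adjoin A {y}) (σ : G)
    {Γ : Type*} [AddCommMonoid Γ] [PartialOrder Γ] [CanonicallyOrderedAdd Γ]
    (v : B → Γ) (hv1 : v 1 = 0) (hvmul : ∀ a b, v (a * b) = v a + v b) :
    v (σ • y - y) ≤ ∑ τ : H, v (x - (σ * (τ : G)) • x) := by
  obtain ⟨c, hc⟩ := dvd_prod_sub_smul (A := A) H y x hfix σ
  have hprod : ∀ (s : Finset H) (g : H → B), v (∏ τ ∈ s, g τ) = ∑ τ ∈ s, v (g τ) := by
    intro s g
    classical
    induction s using Finset.induction_on with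
    | empty => simp [hv1]
    | insert a s ha ih => rw [Finset.prod_insert ha, Finset.sum_insert ha, hvmul, ih]
  rw [← hprod, hc, hvmul]
  exact le_self_add

end Action

end Fermat.Agent.S56.Flat.KummerBound.CosetBound
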