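/-
[FL-B] leaf FLB-Kum (helper5): the Kummer break (B3a) of `moonshots` row 51.

`O` a complete DVR with `(p) = 𝔪 ^ e`, `ζ ∈ O` a primitive `p`-th root of unity, `F = Frac O`,
`E / F` finite separable with integral closure `B` (a DVR), `E = F(x)`, `x ^ p = w' ∈ O`.

* type (i)  (`v_O(w' - 1) = i`, `p ∤ i`, `(p - 1) i < p e`): `[E : F] = p`, `𝔪_O B = 𝔪_B ^ p`,
  and there is a uniformiser `y` of `B` with `v_B(σ y - y) + i = p · v_O(ζ - 1) + 1` for every
  `σ ∈ Aut_O(B)` moving `x`  (`exists_uniformizer_addVal_typeI`, helper20's spec verbatim);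
* type (0)  (`p ∤ v_O(w')`): the same with `v_B(σ y - y) = p · v_O(ζ - 1) + 1`
  (`exists_uniformizer_addVal_type0`).

The ring-level cores (`core_typeI`, `core_type0`, `exists_uniformizer_of_addVal`,
`addVal_apply_sub_typeI`, `addVal_apply_sub_type0`) only use two DVRs `O ⊆ B` with
`𝔪_O B = 𝔪_B ^ e'`.
-/
import Mathlib
import Fermat.Agent.S55.Local.CompleteDVR
import Fermat.Agent.S55.Local.ValExt
import Fermat.Agent.S55.GL.LocalDegreesLocal

set_option autoImplicit false
set_option linter.unusedSectionVars false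
set_option linter.unusedVariables false

open IsLocalRing Polynomial
open IsDiscreteValuationRing (addVal)

namespace Fermat.Agent.S56.Flat.KummerBound.KummerBreak

section AddVal

variable {B : Type*} [CommRing B] [IsDomain B] [IsDiscreteValuationRing B]

theorem exists_addVal_eq {x : B} (hx : x ≠ 0) : ∃ n : ℕ, addVal B x = n := by
  have h : addVal B x ≠ ⊤ := fun h => hx (IsDiscreteValuationRing.addVal_eq_top_iff.1 h)
  exact ⟨(addVal B x).toNat, (ENat.natCast_toNat h).symm⟩

theorem irreducible_of_addVal_eq_one {y : B} (h : addVal B y = 1) : Irreducible y := by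
  obtain ⟨ϖ, hϖ⟩ := IsDiscreteValuationRing.exists_irreducible B
  have h1 : Associated y ϖ :=
    (IsDiscreteValuationRing.addVal_eq_iff_associated y ϖ).1
      (by rw [h, IsDiscreteValuationRing.addVal_uniformizer hϖ])
  exact h1.symm.irreducible hϖ

theorem mem_maximalIdeal_iff_one_le_addVal {x : B} : x ∈ maximalIdeal B ↔ 1 ≤ addVal B x := by
  rw [mem_maximalIdeal, mem_nonunits_iff, ← IsDiscreteValuationRing.addVal_eq_zero_iff,
    Order.one_le_iff_ne_zero]

theorem addVal_eq_of_span_eq_pow {a : B} {e : ℕ} (h : Ideal.span {a} = maximalIdeal B ^ e) :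
    addVal B a = e := by
  obtain ⟨ϖ, hϖ⟩ := IsDiscreteValuationRing.exists_irreducible B
  rw [hϖ.maximalIdeal_eq, Ideal.span_singleton_pow, Ideal.span_singleton_eq_span_singleton] at h
  rw [(IsDiscreteValuationRing.addVal_eq_iff_associated _ _).2 h, hϖ.addVal_pow]

end AddVal

section Transfer

variable {O : Type*} [CommRing O] [IsDomain O] [IsDiscreteValuationRing O]
  {B : Type*} [CommRing B] [IsDomain B] [IsDiscreteValuationRing B] [Algebra O B]

/-- `v_B(a) = e' · v_O(a)` for `a ∈ O` when `𝔪_O B = 𝔪_B ^ e'`, `e' ≠ 0`. -/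
theorem addVal_algebraMap {e' : ℕ} (he'0 : e' ≠ 0)
    (he' : (maximalIdeal O).map (algebraMap O B) = maximalIdeal B ^ e') (a : O) :
    addVal B (algebraMap O B a) = e' * addVal O a := by
  by_cases ha : a = 0
  · subst ha
    rw [map_zero, IsDiscreteValuationRing.addVal_zero, IsDiscreteValuationRing.addVal_zero,
      ENat.mul_top (by exact_mod_cast he'0)]
  obtain ⟨ϖ, hϖ⟩ := IsDiscreteValuationRing.exists_irreducible O
  obtain ⟨ϖB, hϖB⟩ := IsDiscreteValuationRing.exists_irreducible B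
  obtain ⟨w, hw⟩ := Fermat.Agent.S55.Local.exists_algebraMap_eq_unit_mul_pow he' hϖ hϖB
  obtain ⟨n, u, rfl⟩ := IsDiscreteValuationRing.eq_unit_mul_pow_irreducible ha hϖ
  have hu : addVal B (algebraMap O B (u : O)) = 0 :=
    IsDiscreteValuationRing.addVal_eq_zero_iff.2 (u.isUnit.map (algebraMap O B))
  rw [map_mul, map_pow, hw, IsDiscreteValuationRing.addVal_mul, hu, zero_add,
    IsDiscreteValuationRing.addVal_pow, IsDiscreteValuationRing.addVal_mul,
    IsDiscreteValuationRing.addVal_eq_zero_of_unit, zero_add, hϖB.addVal_pow,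
    IsDiscreteValuationRing.addVal_mul, IsDiscreteValuationRing.addVal_eq_zero_of_unit, zero_add,
    hϖ.addVal_pow, nsmul_eq_mul, mul_comm]

end Transfer

section Core

variable {O : Type*} [CommRing O] [IsDomain O] [IsDiscreteValuationRing O]
  {B : Type*} [CommRing B] [IsDomain B] [IsDiscreteValuationRing B] [Algebra O B]
variable {p : ℕ} (hp : p.Prime) {e : ℕ} (hpe : Ideal.span {(p : O)} = maximalIdeal O ^ e)

include hpe in
theorem addVal_natCast_prime {e' : ℕ} (he'0 : e' ≠ 0)
    (he' : (maximalIdeal O).map (algebraMap O B) = maximalIdeal B ^ e') :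
    addVal B (p : B) = (e' * e : ℕ) := by
  have h1 : (p : B) = algebraMap O B (p : O) := by rw [map_natCast]
  rw [h1, addVal_algebraMap he'0 he', addVal_eq_of_span_eq_pow hpe]
  norm_cast

include hp hpe in
/-- (B3a), type (i), the valuation of `z = x - 1`: `p · v_B(z) = e' · i`, hence `e' = p` and
`v_B(z) = i` when `e' ≤ p`. -/
theorem core_typeI {e' : ℕ} (he'0 : e' ≠ 0)
    (he' : (maximalIdeal O).map (algebraMap O B) = maximalIdeal B ^ e') (hle : e' ≤ p)
    (w' : O) (i : ℕ) (hip : ¬ p ∣ i) (hie : (p - 1) * i < p * e)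
    (hw' : addVal O (w' - 1) = i) (x : B) (hx : x ^ p = algebraMap O B w') :
    e' = p ∧ addVal B (x - 1) = i := by
  obtain ⟨q, rfl⟩ : ∃ q, p = q + 1 := ⟨p - 1, by have := hp.pos; omega⟩
  have hq : (q + 1 - 1) = q := by omega
  rw [hq] at hie
  set z : B := x - 1 with hz
  have hxz : x = z + 1 := by rw [hz]; ring
  obtain ⟨r, hr⟩ := exists_add_pow_prime_eq hp z 1
  -- the key identity
  have hkey : algebraMap O B (w' - 1) = z ^ (q + 1) + ((q + 1 : ℕ) : B) * z * r := by
    rw [map_sub, map_one, ← hx, hxz, hr]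
    ring
  have hval : addVal B (algebraMap O B (w' - 1)) = (e' * i : ℕ) := by
    rw [addVal_algebraMap he'0 he', hw']
    norm_cast
  have hz0 : z ≠ 0 := by
    intro h0
    rw [hkey, h0, zero_pow (by omega), mul_zero, zero_mul, add_zero,
      IsDiscreteValuationRing.addVal_zero] at hval
    exact ENat.top_ne_natCast _ hval
  obtain ⟨m, hm⟩ := exists_addVal_eq hz0
  have hzp : addVal B (z ^ (q + 1)) = ((q + 1) * m : ℕ) := by
    rw [IsDiscreteValuationRing.addVal_pow, hm, nsmul_eq_mul]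
    norm_cast
  have hrest : ((e' * e + m : ℕ) : ℕ∞) ≤ addVal B (((q + 1 : ℕ) : B) * z * r) := by
    rw [IsDiscreteValuationRing.addVal_mul, IsDiscreteValuationRing.addVal_mul,
      addVal_natCast_prime hpe he'0 he', hm]
    push_cast
    exact le_self_add
  have hpm : (q + 1) * m = e' * i := by
    rcases Nat.lt_or_ge (q * m) (e' * e) with hlt | hge
    · -- `z ^ p` dominates
      have hlt' : addVal B (z ^ (q + 1)) < addVal B (((q + 1 : ℕ) : B) * z * r) := by
        refine lt_of_lt_of_le ?_ hrest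
        rw [hzp]
        have : (q + 1) * m < e' * e + m := by nlinarith
        exact_mod_cast this
      have := (addVal B).map_add_eq_of_lt_left hlt'
      rw [← hkey, hval, hzp] at this
      exact_mod_cast this.symm
    · -- impossible
      exfalso
      have h1 : ((e' * e + m : ℕ) : ℕ∞) ≤ addVal B (z ^ (q + 1)) := by
        rw [hzp]
        have : e' * e + m ≤ (q + 1) * m := by nlinarith
        exact_mod_cast this
      have h2 := (addVal B).map_le_add h1 hrest
      rw [← hkey, hval] at h2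
      have h3 : e' * e + m ≤ e' * i := by exact_mod_cast h2
      have he'1 : 1 ≤ e' := Nat.one_le_iff_ne_zero.2 he'0
      -- (q) e' i ≥ q e' e + q m ≥ q e' e + e' e = (q+1) e' e > e' q i
      have h4 : e' * (q * i) < e' * ((q + 1) * e) := Nat.mul_lt_mul_of_pos_left hie (by omega)
      have h5 : q * (e' * e + m) ≤ q * (e' * i) := Nat.mul_le_mul_left q h3
      nlinarith
  -- `p ∣ e'`
  have hdvd : (q + 1) ∣ e' * i := ⟨m, hpm.symm⟩
  have hcop : Nat.Coprime (q + 1) i := (Nat.Prime.coprime_iff_not_dvd hp).2 hip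
  have hdvd' : (q + 1) ∣ e' := hcop.dvd_of_dvd_mul_right hdvd
  have he'p : e' = q + 1 := le_antisymm hle (Nat.le_of_dvd (Nat.pos_of_ne_zero he'0) hdvd')
  refine ⟨he'p, ?_⟩
  rw [hm]
  rw [he'p] at hpm
  have : m = i := Nat.eq_of_mul_eq_mul_left (by omega) hpm
  rw [this]

include hp in
/-- (B3a), type (0): `p · v_B(x) = e' · j`, hence `e' = p` and `v_B(x) = j` when `e' ≤ p`. -/
theorem core_type0 {e' : ℕ} (he'0 : e' ≠ 0)
    (he' : (maximalIdeal O).map (algebraMap O B) = maximalIdeal B ^ e') (hle : e' ≤ p)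
    (w' : O) (j : ℕ) (hpj : ¬ p ∣ j) (hw' : addVal O w' = j) (x : B)
    (hx : x ^ p = algebraMap O B w') :
    e' = p ∧ addVal B x = j := by
  have hval : addVal B (algebraMap O B w') = (e' * j : ℕ) := by
    rw [addVal_algebraMap he'0 he', hw']
    norm_cast
  have hx0 : x ≠ 0 := by
    intro h0
    rw [← hx, h0, zero_pow hp.ne_zero, IsDiscreteValuationRing.addVal_zero] at hval
    exact ENat.top_ne_natCast _ hval
  obtain ⟨m, hm⟩ := exists_addVal_eq hx0
  have hpm : p * m = e' * j := by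
    rw [← hx, IsDiscreteValuationRing.addVal_pow, hm, nsmul_eq_mul] at hval
    exact_mod_cast hval
  have hdvd : p ∣ e' * j := ⟨m, hpm.symm⟩
  have hcop : Nat.Coprime p j := (Nat.Prime.coprime_iff_not_dvd hp).2 hpj
  have hdvd' : p ∣ e' := hcop.dvd_of_dvd_mul_right hdvd
  have he'p : e' = p := le_antisymm hle (Nat.le_of_dvd (Nat.pos_of_ne_zero he'0) hdvd')
  refine ⟨he'p, ?_⟩
  rw [hm]
  rw [he'p] at hpm
  have : m = j := Nat.eq_of_mul_eq_mul_left hp.pos hpm
  rw [this]

include hp in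
/-- From an element of valuation prime to `p` and an element of valuation `p`, a uniformiser. -/
theorem exists_uniformizer_of_addVal {z c : B} {i : ℕ} (hz : addVal B z = i) (hip : ¬ p ∣ i)
    (hc : addVal B c = p) :
    ∃ (a b : ℕ) (y : B), ¬ p ∣ a ∧ a * i = p * b + 1 ∧ z ^ a = c ^ b * y ∧ addVal B y = 1 := by
  have hcop : Nat.Coprime i p := ((Nat.Prime.coprime_iff_not_dvd hp).2 hip).symm
  obtain ⟨a, -, ha⟩ := Nat.exists_mul_mod_eq_one_of_coprime hcop hp.one_lt
  have hab : a * i = p * (i * a / p) + 1 := by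
    have := Nat.div_add_mod (i * a) p
    rw [ha] at this
    rw [mul_comm a i]
    exact this.symm
  have hpa : ¬ p ∣ a := by
    intro h
    have : i * a % p = 0 := Nat.mod_eq_zero_of_dvd (Dvd.dvd.mul_left h i)
    omega
  set b := i * a / p
  have hza : addVal B (z ^ a) = (p * b + 1 : ℕ) := by
    rw [IsDiscreteValuationRing.addVal_pow, hz, nsmul_eq_mul, ← hab]
    norm_cast
  have hcb : addVal B (c ^ b) = (p * b : ℕ) := by
    rw [IsDiscreteValuationRing.addVal_pow, hc, nsmul_eq_mul]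
    norm_cast
    exact mul_comm b p
  have hdvd : c ^ b ∣ z ^ a := by
    rw [← IsDiscreteValuationRing.addVal_le_iff_dvd, hza, hcb]
    exact_mod_cast Nat.le_succ _
  obtain ⟨y, hy⟩ := hdvd
  refine ⟨a, b, y, hpa, hab, hy, ?_⟩
  have hy0 : y ≠ 0 := by
    rintro rfl
    rw [hy, mul_zero, IsDiscreteValuationRing.addVal_zero] at hza
    exact ENat.top_ne_natCast _ hza
  obtain ⟨k, hk⟩ := exists_addVal_eq hy0
  rw [hy, IsDiscreteValuationRing.addVal_mul, hcb, hk] at hza
  have : p * b + k = p * b + 1 := by exact_mod_cast hza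
  rw [hk]
  have : k = 1 := by omega
  rw [this]
  rfl

include hp in
/-- Integers prime to `p` are units of `B` when `p ∈ 𝔪_B`. -/
theorem isUnit_natCast_of_not_dvd (hpB : (p : B) ∈ maximalIdeal B) {a : ℕ} (ha : ¬ p ∣ a) :
    IsUnit (a : B) := by
  by_contra hn
  have haB : (a : B) ∈ maximalIdeal B := (mem_maximalIdeal _).2 hn
  have hcop : IsCoprime (a : ℤ) (p : ℤ) :=
    Nat.isCoprime_iff_coprime.2 ((Nat.Prime.coprime_iff_not_dvd hp).2 ha).symm
  obtain ⟨s, t, hst⟩ := hcop
  have h1 : (s : B) * (a : B) + (t : B) * (p : B) = 1 := by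
    have := congrArg (Int.cast : ℤ → B) hst
    push_cast at this
    exact this
  have h2 : (1 : B) ∈ maximalIdeal B := by
    rw [← h1]
    exact Ideal.add_mem _ (Ideal.mul_mem_left _ _ haB) (Ideal.mul_mem_left _ _ hpB)
  exact (Ideal.ne_top_iff_one _).1 (maximalIdeal.isMaximal B).ne_top h2

omit [IsDomain O] [IsDiscreteValuationRing O] in
/-- Automorphisms preserve the valuation. -/
theorem addVal_algEquiv (σ : B ≃ₐ[O] B) (b : B) : addVal B (σ b) = addVal B b := by
  by_cases hb : b = 0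
  · rw [hb, map_zero]
  obtain ⟨ϖ, hϖ⟩ := IsDiscreteValuationRing.exists_irreducible B
  obtain ⟨n, u, rfl⟩ := IsDiscreteValuationRing.eq_unit_mul_pow_irreducible hb hϖ
  have hσϖ : Irreducible (σ ϖ) := (MulEquiv.irreducible_iff (σ : B ≃* B)).2 hϖ
  have hu : IsUnit (σ (u : B)) := u.isUnit.map σ
  rw [map_mul, map_pow, IsDiscreteValuationRing.addVal_mul, IsDiscreteValuationRing.addVal_mul,
    IsDiscreteValuationRing.addVal_eq_zero_iff.2 hu,
    IsDiscreteValuationRing.addVal_eq_zero_of_unit, hσϖ.addVal_pow, hϖ.addVal_pow]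

omit [IsDomain O] [IsDiscreteValuationRing O] in
include hp in
/-- A conjugate of a `p`-th root is a root of unity multiple. -/
theorem exists_pow_mul_eq (σ : B ≃ₐ[O] B) {x : B} (hx0 : x ≠ 0) (hσp : (σ x) ^ p = x ^ p)
    (hne : σ x ≠ x) {ζB : B} (hζB : IsPrimitiveRoot ζB p) :
    ∃ k, Nat.Coprime k p ∧ σ x = ζB ^ k * x := by
  have : NeZero p := ⟨hp.ne_zero⟩
  have hdvd : x ∣ σ x := by
    rw [← IsDiscreteValuationRing.addVal_le_iff_dvd, addVal_algEquiv]
  obtain ⟨ξ, hξ⟩ := hdvd
  have hξp : ξ ^ p = 1 := by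
    rw [hξ, mul_pow] at hσp
    have hxp : x ^ p ≠ 0 := pow_ne_zero _ hx0
    have : x ^ p * ξ ^ p = x ^ p * 1 := by rw [hσp, mul_one]
    exact mul_left_cancel₀ hxp this
  obtain ⟨k, hkp, hk⟩ := hζB.eq_pow_of_pow_eq_one hξp
  have hk0 : k ≠ 0 := by
    rintro rfl
    rw [pow_zero] at hk
    rw [← hk, mul_one] at hξ
    exact hne hξ
  refine ⟨k, ?_, ?_⟩
  · exact ((Nat.Prime.coprime_iff_not_dvd hp).2
      (Nat.not_dvd_of_pos_of_lt (Nat.pos_of_ne_zero hk0) hkp)).symm
  · rw [hk, hξ, mul_comm]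

omit [IsDomain O] [IsDiscreteValuationRing O] in
/-- (B3a), type (i), the break: if `z ^ a = c ^ b * y` with `y` a uniformiser, `c` fixed by `σ`,
`a` a unit, `σ z = z + δ` with `v(z) = i < P = v(δ)`, then `v(σ y - y) + i = P + 1`. -/
theorem addVal_apply_sub_typeI (σ : B ≃ₐ[O] B) {z y c δ : B} {a b i P : ℕ}
    (hzi : addVal B z = i) (hy : addVal B y = 1) (hzy : z ^ a = c ^ b * y)
    (hc : σ c = c) (hc0 : c ≠ 0) (ha : IsUnit (a : B))
    (hσz : σ z = z + δ) (hδ : addVal B δ = P) (hiP : i < P) :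
    addVal B (σ y - y) + i = P + 1 := by
  have hdvd : z ∣ δ := by
    rw [← IsDiscreteValuationRing.addVal_le_iff_dvd, hzi, hδ]
    exact_mod_cast hiP.le
  obtain ⟨ε', hε'⟩ := hdvd
  have hδ0 : δ ≠ 0 := by
    rintro rfl
    rw [IsDiscreteValuationRing.addVal_zero] at hδ
    exact ENat.top_ne_natCast _ hδ
  have hε'0 : ε' ≠ 0 := by
    rintro rfl
    exact hδ0 (by rw [hε', mul_zero])
  obtain ⟨k, hk⟩ := exists_addVal_eq hε'0
  have hPk : P = i + k := by
    rw [hε', IsDiscreteValuationRing.addVal_mul, hzi, hk] at hδ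
    exact_mod_cast hδ.symm
  have hk1 : 1 ≤ k := by omega
  have hε'm : ε' ∈ maximalIdeal B :=
    mem_maximalIdeal_iff_one_le_addVal.2 (by rw [hk]; exact_mod_cast hk1)
  have hσy : σ y = y * (1 + ε') ^ a := by
    have h1 : σ (z ^ a) = c ^ b * σ y := by rw [hzy, map_mul, map_pow, hc]
    have h2 : σ (z ^ a) = c ^ b * (y * (1 + ε') ^ a) := by
      rw [map_pow, hσz, hε', ← mul_assoc, ← hzy, ← mul_pow]
      ring
    exact mul_left_cancel₀ (pow_ne_zero b hc0) (h1.symm.trans h2)
  set G : B := ∑ j ∈ Finset.range a, (1 + ε') ^ j with hG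
  have hgeom : G * ε' = (1 + ε') ^ a - 1 := by
    have := geom_sum_mul (1 + ε') a
    rwa [add_sub_cancel_left] at this
  have hGa : G - (a : B) ∈ maximalIdeal B := by
    have h1 : G - (a : B) = ∑ j ∈ Finset.range a, ((1 + ε') ^ j - 1) := by
      rw [Finset.sum_sub_distrib, Finset.sum_const, Finset.card_range, nsmul_eq_mul, mul_one]
    rw [h1]
    refine Ideal.sum_mem _ fun j _ => ?_
    have h2 : (1 + ε') - 1 ∣ (1 + ε') ^ j - 1 ^ j := sub_dvd_pow_sub_pow (1 + ε') 1 j
    rw [add_sub_cancel_left, one_pow] at h2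
    obtain ⟨t, ht⟩ := h2
    rw [ht]
    exact Ideal.mul_mem_right _ _ hε'm
  have hGu : IsUnit G := by
    by_contra hn
    have hGm : G ∈ maximalIdeal B := (mem_maximalIdeal _).2 hn
    have : (a : B) ∈ maximalIdeal B := by
      have := Ideal.sub_mem _ hGm hGa
      rwa [sub_sub_cancel] at this
    exact (mem_maximalIdeal _).1 this ha
  have hfin : σ y - y = y * (G * ε') := by rw [hσy, hgeom]; ring
  rw [hfin, IsDiscreteValuationRing.addVal_mul, IsDiscreteValuationRing.addVal_mul, hy, hk,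
    IsDiscreteValuationRing.addVal_eq_zero_iff.2 hGu, hPk]
  push_cast
  ring

omit [IsDomain O] [IsDiscreteValuationRing O] in
/-- (B3a), type (0), the break. -/
theorem addVal_apply_sub_type0 (σ : B ≃ₐ[O] B) {x y c ζB : B} {a b k : ℕ}
    (hy : addVal B y = 1) (hxy : x ^ a = c ^ b * y) (hc : σ c = c) (hc0 : c ≠ 0)
    (hζB : IsPrimitiveRoot ζB p) (hk : Nat.Coprime k p) (ha : Nat.Coprime a p)
    (hσx : σ x = ζB ^ k * x) :
    addVal B (σ y - y) = addVal B (ζB - 1) + 1 := by
  have hσy : σ y = ζB ^ (k * a) * y := by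
    have h1 : σ (x ^ a) = c ^ b * σ y := by rw [hxy, map_mul, map_pow, hc]
    have h2 : σ (x ^ a) = c ^ b * (ζB ^ (k * a) * y) := by
      rw [map_pow, hσx, mul_pow, hxy, ← pow_mul]
      ring
    exact mul_left_cancel₀ (pow_ne_zero b hc0) (h1.symm.trans h2)
  have hassoc : Associated (ζB - 1) (ζB ^ (k * a) - 1) :=
    hζB.associated_sub_one_pow_sub_one_of_coprime (Nat.Coprime.mul_left hk ha)
  have hfin : σ y - y = (ζB ^ (k * a) - 1) * y := by rw [hσy]; ring
  rw [hfin, IsDiscreteValuationRing.addVal_mul, hy,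
    (IsDiscreteValuationRing.addVal_eq_iff_associated _ _).2 hassoc]

end Core

section Field

variable (O : Type*) [CommRing O] [IsDomain O] [IsDiscreteValuationRing O]
  [IsAdicComplete (maximalIdeal O) O]
  (F : Type*) [Field F] [Algebra O F] [IsFractionRing O F]
  (E : Type*) [Field E] [Algebra F E] [Algebra O E] [IsScalarTower O F E]
  [FiniteDimensional F E] [Algebra.IsSeparable F E]
  (B : Type*) [CommRing B] [IsDomain B] [IsDiscreteValuationRing B]
  [Algebra O B] [Algebra B E] [IsScalarTower O B E] [IsIntegralClosure B O E]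
variable {p : ℕ} (hp : p.Prime) {e : ℕ} (hpe : Ideal.span {(p : O)} = maximalIdeal O ^ e)

omit [IsAdicComplete (maximalIdeal O) O] [FiniteDimensional F E] [Algebra.IsSeparable F E]
  [IsDomain B] [IsDiscreteValuationRing B] [IsIntegralClosure B O E] in
include F E in
theorem algebraMap_injective_of_tower : Function.Injective (algebraMap O B) := by
  have h : Function.Injective (algebraMap O E) := by
    rw [IsScalarTower.algebraMap_eq O F E]
    exact (algebraMap F E).injective.comp (IsFractionRing.injective O F)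
  rw [IsScalarTower.algebraMap_eq O B E] at h
  exact Function.Injective.of_comp h

omit [IsAdicComplete (maximalIdeal O) O] [Algebra.IsSeparable F E]
  [IsDomain B] [IsDiscreteValuationRing B] [IsIntegralClosure B O E] in
/-- `[F(x) : F] ≤ p` when `x ^ p ∈ F`. -/
theorem finrank_le_of_pow_eq (hp0 : p ≠ 0) (w : O) (x : B) (hx : x ^ p = algebraMap O B w)
    (hgen : IntermediateField.adjoin F {algebraMap B E x} = ⊤) : Module.finrank F E ≤ p := by
  set xE := algebraMap B E x with hxE_def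
  have hxE : xE ^ p = algebraMap F E (algebraMap O F w) := by
    rw [hxE_def, ← map_pow, hx, ← IsScalarTower.algebraMap_apply O B E,
      ← IsScalarTower.algebraMap_apply O F E]
  have hint : IsIntegral F xE := IsIntegral.of_finite F xE
  have h1 : Module.finrank F E = (minpoly F xE).natDegree := by
    rw [← IntermediateField.adjoin.finrank hint, hgen, IntermediateField.finrank_top']
  have hne : (X ^ p - C (algebraMap O F w) : F[X]) ≠ 0 :=
    X_pow_sub_C_ne_zero (Nat.pos_of_ne_zero hp0) _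
  have hdvd : minpoly F xE ∣ X ^ p - C (algebraMap O F w) :=
    minpoly.dvd F xE (by simp [hxE])
  rw [h1]
  calc (minpoly F xE).natDegree ≤ (X ^ p - C (algebraMap O F w) : F[X]).natDegree :=
        natDegree_le_of_dvd hdvd hne
    _ = p := natDegree_X_pow_sub_C

include F E in
/-- The ramification index `e'` with `𝔪_O B = 𝔪_B ^ e'`, `e' ∣ [E : F]`. -/
theorem exists_ramification : ∃ e' : ℕ, e' ≠ 0 ∧
    (maximalIdeal O).map (algebraMap O B) = maximalIdeal B ^ e' ∧ e' ∣ Module.finrank F E := by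
  have hfin := Fermat.Agent.S55.GL.LocalDegrees.ramificationIdx_mul_inertiaDeg_eq_finrank O F E B
  refine ⟨(maximalIdeal B).ramificationIdx O, ?_,
    Fermat.Agent.S55.Local.map_maximalIdeal_eq_pow_ramificationIdx O F E B, ?_⟩
  · intro h
    rw [h, zero_mul] at hfin
    exact (Module.finrank_pos (R := F) (M := E)).ne' hfin.symm
  · exact ⟨_, hfin.symm⟩

include hp hpe in
/-- `(p - 1) · v_O(ζ - 1) = e` for a primitive `p`-th root of unity `ζ`, `(p) = 𝔪 ^ e`. -/
theorem addVal_sub_one_of_isPrimitiveRoot (ζ : O) (hζ : IsPrimitiveRoot ζ p) :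
    ∃ ε : ℕ, addVal O (ζ - 1) = ε ∧ (p - 1) * ε = e := by
  have hζ1 : ζ - 1 ≠ 0 := sub_ne_zero.2 (hζ.ne_one hp.one_lt)
  obtain ⟨ε, hε⟩ := exists_addVal_eq hζ1
  refine ⟨ε, hε, ?_⟩
  have : Fact p.Prime := ⟨hp⟩
  have h := Fermat.Agent.S55.GL.LocalDegrees.associated_sub_one_pow_natCast (A := O) (p := p)
    (k := 0) (ζ := ζ) (by simpa using hζ)
  have h2 := (IsDiscreteValuationRing.addVal_eq_iff_associated _ _).2 h
  rw [IsDiscreteValuationRing.addVal_pow, hε, addVal_eq_of_span_eq_pow hpe, pow_zero, one_mul,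
    nsmul_eq_mul] at h2
  exact_mod_cast h2

include hp hpe in
/-- **(B3a), type (i)** (helper20's spec #2480, verbatim; completeness of `O` is only used for
`e · f = n`). -/
theorem exists_uniformizer_addVal_typeI (ζ : O) (hζ : IsPrimitiveRoot ζ p)
    (w' : O) (i : ℕ) (hi0 : 0 < i) (hip : ¬ p ∣ i) (hie : (p - 1) * i < p * e)
    (hw' : addVal O (w' - 1) = i)
    (x : B) (hx : x ^ p = algebraMap O B w')
    (hgen : IntermediateField.adjoin F {algebraMap B E x} = ⊤) :
    Module.finrank F E = p ∧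
    (maximalIdeal O).map (algebraMap O B) = maximalIdeal B ^ p ∧
    ∃ y : B, Irreducible y ∧ ∀ σ : B ≃ₐ[O] B, σ x ≠ x →
      ((addVal B (σ y - y) : ℕ∞) + i = p * addVal O (ζ - 1) + 1) := by
  obtain ⟨e', he'0, he', hdvd⟩ := exists_ramification O F E B
  have hn : Module.finrank F E ≤ p := finrank_le_of_pow_eq O F E B hp.ne_zero w' x hx hgen
  have hnpos : 0 < Module.finrank F E := Module.finrank_pos
  have hle : e' ≤ p := (Nat.le_of_dvd hnpos hdvd).trans hn
  obtain ⟨he'p, hz⟩ := core_typeI hp hpe he'0 he' hle w' i hip hie hw' x hx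
  rw [he'p] at he' hdvd
  have hp0 : p ≠ 0 := hp.ne_zero
  have hfin : Module.finrank F E = p := le_antisymm hn (Nat.le_of_dvd hnpos hdvd)
  refine ⟨hfin, he', ?_⟩
  obtain ⟨π, hπ⟩ := IsDiscreteValuationRing.exists_irreducible O
  have hinj := algebraMap_injective_of_tower O F E B
  have hcval : addVal B (algebraMap O B π) = p := by
    rw [addVal_algebraMap hp0 he', IsDiscreteValuationRing.addVal_uniformizer hπ, mul_one]
  obtain ⟨a, b, y, hpa, hab, hzy, hy⟩ := exists_uniformizer_of_addVal hp hz hip hcval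
  refine ⟨y, irreducible_of_addVal_eq_one hy, fun σ hσx => ?_⟩
  have hζB : IsPrimitiveRoot (algebraMap O B ζ) p := hζ.map_of_injective hinj
  -- `w'` and `x` are units
  have hw'm : w' - 1 ∈ maximalIdeal O :=
    mem_maximalIdeal_iff_one_le_addVal.2 (by rw [hw']; exact_mod_cast hi0)
  have hw'u : IsUnit w' := by
    by_contra hn'
    have h1 : w' ∈ maximalIdeal O := (mem_maximalIdeal _).2 hn'
    have h2 : (1 : O) ∈ maximalIdeal O := by
      have := Ideal.sub_mem _ h1 hw'm
      rwa [sub_sub_cancel] at this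
    exact (Ideal.ne_top_iff_one _).1 (maximalIdeal.isMaximal O).ne_top h2
  have hxu : IsUnit x := by
    have h1 : IsUnit (x ^ p) := by rw [hx]; exact hw'u.map _
    exact (isUnit_pow_iff hp0).1 h1
  have hx0 : x ≠ 0 := hxu.ne_zero
  have hσp : (σ x) ^ p = x ^ p := by rw [← map_pow, hx, σ.commutes]
  obtain ⟨k, hk, hσxk⟩ := exists_pow_mul_eq hp σ hx0 hσp hσx hζB
  obtain ⟨ε, hε, hεe⟩ := addVal_sub_one_of_isPrimitiveRoot O hp hpe ζ hζ
  have hδval : addVal B ((algebraMap O B ζ ^ k - 1) * x) = (p * ε : ℕ) := by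
    rw [IsDiscreteValuationRing.addVal_mul, IsDiscreteValuationRing.addVal_eq_zero_iff.2 hxu,
      add_zero]
    have h1 := hζB.associated_sub_one_pow_sub_one_of_coprime hk
    rw [← (IsDiscreteValuationRing.addVal_eq_iff_associated _ _).2 h1]
    have h2 : algebraMap O B ζ - 1 = algebraMap O B (ζ - 1) := by rw [map_sub, map_one]
    rw [h2, addVal_algebraMap hp0 he', hε]
    norm_cast
  have hσz : σ (x - 1) = (x - 1) + (algebraMap O B ζ ^ k - 1) * x := by
    rw [map_sub, map_one, hσxk]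
    ring
  have hiP : i < p * ε := by
    rw [← hεe] at hie
    have h1 : (p - 1) * i < (p - 1) * (p * ε) := by
      calc (p - 1) * i < p * ((p - 1) * ε) := hie
        _ = (p - 1) * (p * ε) := by ring
    exact lt_of_mul_lt_mul_left h1 (Nat.zero_le _)
  have he1 : 1 ≤ e := by
    rcases Nat.eq_zero_or_pos e with h | h
    · rw [h, mul_zero] at hie
      exact absurd hie (Nat.not_lt_zero _)
    · exact h
  have hpB : (p : B) ∈ maximalIdeal B := by
    rw [mem_maximalIdeal_iff_one_le_addVal, addVal_natCast_prime hpe hp0 he']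
    have : 1 ≤ p * e := Nat.one_le_iff_ne_zero.2 (Nat.mul_ne_zero hp0 (by omega))
    exact_mod_cast this
  have ha : IsUnit (a : B) := isUnit_natCast_of_not_dvd hp hpB hpa
  have hc0 : algebraMap O B π ≠ 0 := by
    intro h
    rw [h, IsDiscreteValuationRing.addVal_zero] at hcval
    exact ENat.top_ne_natCast _ hcval
  have hcσ : σ (algebraMap O B π) = algebraMap O B π := σ.commutes π
  have hmain := addVal_apply_sub_typeI σ hz hy hzy hcσ hc0 ha hσz hδval hiP
  rw [hmain, hε]
  push_cast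
  ring

include hp hpe in
/-- **(B3a), type (0)**: `p ∤ v_O(w')`. -/
theorem exists_uniformizer_addVal_type0 (ζ : O) (hζ : IsPrimitiveRoot ζ p)
    (w' : O) (j : ℕ) (hpj : ¬ p ∣ j) (hw' : addVal O w' = j)
    (x : B) (hx : x ^ p = algebraMap O B w')
    (hgen : IntermediateField.adjoin F {algebraMap B E x} = ⊤) :
    Module.finrank F E = p ∧
    (maximalIdeal O).map (algebraMap O B) = maximalIdeal B ^ p ∧
    ∃ y : B, Irreducible y ∧ ∀ σ : B ≃ₐ[O] B, σ x ≠ x →
      (addVal B (σ y - y) : ℕ∞) = p * addVal O (ζ - 1) + 1 := by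
  obtain ⟨e', he'0, he', hdvd⟩ := exists_ramification O F E B
  have hn : Module.finrank F E ≤ p := finrank_le_of_pow_eq O F E B hp.ne_zero w' x hx hgen
  have hnpos : 0 < Module.finrank F E := Module.finrank_pos
  have hle : e' ≤ p := (Nat.le_of_dvd hnpos hdvd).trans hn
  obtain ⟨he'p, hxj⟩ := core_type0 hp he'0 he' hle w' j hpj hw' x hx
  rw [he'p] at he' hdvd
  have hp0 : p ≠ 0 := hp.ne_zero
  have hfin : Module.finrank F E = p := le_antisymm hn (Nat.le_of_dvd hnpos hdvd)
  refine ⟨hfin, he', ?_⟩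
  obtain ⟨π, hπ⟩ := IsDiscreteValuationRing.exists_irreducible O
  have hinj := algebraMap_injective_of_tower O F E B
  have hcval : addVal B (algebraMap O B π) = p := by
    rw [addVal_algebraMap hp0 he', IsDiscreteValuationRing.addVal_uniformizer hπ, mul_one]
  obtain ⟨a, b, y, hpa, hab, hxy, hy⟩ := exists_uniformizer_of_addVal hp hxj hpj hcval
  refine ⟨y, irreducible_of_addVal_eq_one hy, fun σ hσx => ?_⟩
  have hζB : IsPrimitiveRoot (algebraMap O B ζ) p := hζ.map_of_injective hinj
  have hx0 : x ≠ 0 := by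
    rintro rfl
    rw [IsDiscreteValuationRing.addVal_zero] at hxj
    exact ENat.top_ne_natCast _ hxj
  have hσp : (σ x) ^ p = x ^ p := by rw [← map_pow, hx, σ.commutes]
  obtain ⟨k, hk, hσxk⟩ := exists_pow_mul_eq hp σ hx0 hσp hσx hζB
  have hc0 : algebraMap O B π ≠ 0 := by
    intro h
    rw [h, IsDiscreteValuationRing.addVal_zero] at hcval
    exact ENat.top_ne_natCast _ hcval
  have hcσ : σ (algebraMap O B π) = algebraMap O B π := σ.commutes π
  have hacop : Nat.Coprime a p := ((Nat.Prime.coprime_iff_not_dvd hp).2 hpa).symm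
  have hmain := addVal_apply_sub_type0 σ hy hxy hcσ hc0 hζB hk hacop hσxk
  have h2 : algebraMap O B ζ - 1 = algebraMap O B (ζ - 1) := by rw [map_sub, map_one]
  rw [hmain, h2, addVal_algebraMap hp0 he']

include hp hpe in
/-- **(B3a), type (0)**, in the shape produced by the normal form (B0):
`w' ≠ 0 ∧ ¬ (p : ℕ∞) ∣ v_O(w')`. -/
theorem exists_uniformizer_addVal_type0' (ζ : O) (hζ : IsPrimitiveRoot ζ p)
    (w' : O) (hw'0 : w' ≠ 0) (hpw : ¬ (p : ℕ∞) ∣ addVal O w')
    (x : B) (hx : x ^ p = algebraMap O B w')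
    (hgen : IntermediateField.adjoin F {algebraMap B E x} = ⊤) :
    Module.finrank F E = p ∧
    (maximalIdeal O).map (algebraMap O B) = maximalIdeal B ^ p ∧
    ∃ y : B, Irreducible y ∧ ∀ σ : B ≃ₐ[O] B, σ x ≠ x →
      (addVal B (σ y - y) : ℕ∞) = p * addVal O (ζ - 1) + 1 := by
  obtain ⟨j, hj⟩ := exists_addVal_eq hw'0
  have hpj : ¬ p ∣ j := by
    intro h
    apply hpw
    rw [hj]
    exact Nat.cast_dvd_cast h
  exact exists_uniformizer_addVal_type0 O F E B hp hpe ζ hζ w' j hpj hj x hx hgen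

end Field

end Fermat.Agent.S56.Flat.KummerBound.KummerBreak
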