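/-
[FL-B] (B3a), ambient variant (helper5; asked by helper16 for FLB-Main).

Same setting as `KummerBreak` (`O ⊆ B` DVRs, `x ∈ B`, `x ^ p = w' ∈ O`, `E = F(x)`), plus a bigger
DVR `B' ⊇ B` over `O` with `𝔪_B B' = 𝔪_{B'} ^ m`.  The uniformiser `y` of `B` produced by (B3a)
satisfies, for EVERY `O`-automorphism `σ'` of `B'` moving `x`,
`v_{B'}(σ' y - y) + m · i = m · (p · v_O(ζ - 1) + 1)`   (type (i);  `i = 0` for type (0)),
and the intrinsic statement for `O`-automorphisms of `B` itself, with the SAME `y`.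
So no restriction of automorphisms to the intermediate ring (no normality) is needed.

Ring-level engines: `typeI_break`, `type0_break` (one DVR `D` over `O` with `𝔪_O D = 𝔪_D ^ E'`).
-/
import Mathlib
import Fermat.Agent.S56.Flat.KummerBound.KummerBreak

set_option autoImplicit false
set_option linter.unusedSectionVars false
set_option linter.unusedVariables false

open IsLocalRing Polynomial
open IsDiscreteValuationRing (addVal)

namespace Fermat.Agent.S56.Flat.KummerBound.KummerBreakAmbient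

open Fermat.Agent.S56.Flat.KummerBound.KummerBreak

section Core

variable {O : Type*} [CommRing O] [IsDomain O] [IsDiscreteValuationRing O]
  {D : Type*} [CommRing D] [IsDomain D] [IsDiscreteValuationRing D] [Algebra O D]
variable {p : ℕ} (hp : p.Prime) {e : ℕ} (hpe : Ideal.span {(p : O)} = maximalIdeal O ^ e)

/-- `algebraMap O D` is injective when `𝔪_O D = 𝔪_D ^ E'`, `E' ≠ 0`. -/
theorem algebraMap_injective_of_map_eq_pow {E' : ℕ} (hE0 : E' ≠ 0)
    (hE : (maximalIdeal O).map (algebraMap O D) = maximalIdeal D ^ E') :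
    Function.Injective (algebraMap O D) := by
  rw [injective_iff_map_eq_zero]
  intro a ha
  by_contra ha0
  obtain ⟨n, hn⟩ := exists_addVal_eq ha0
  have h := addVal_algebraMap hE0 hE a
  rw [ha, IsDiscreteValuationRing.addVal_zero, hn] at h
  have h2 : (⊤ : ℕ∞) = ((E' * n : ℕ) : ℕ∞) := by rw [h]; norm_cast
  exact ENat.top_ne_natCast _ h2

include hp hpe in
/-- `(p - 1) · v_O(ζ - 1) = e` (no completeness). -/
theorem addVal_sub_one_of_isPrimitiveRoot' (ζ : O) (hζ : IsPrimitiveRoot ζ p) :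
    ∃ ε : ℕ, addVal O (ζ - 1) = ε ∧ (p - 1) * ε = e := by
  have hζ1 : ζ - 1 ≠ 0 := sub_ne_zero.2 (hζ.ne_one hp.one_lt)
  obtain ⟨ε, hε⟩ := exists_addVal_eq hζ1
  refine ⟨ε, hε, ?_⟩
  have : Fact p.Prime := ⟨hp⟩
  have h := Fermat.Agent.S55.GL.LocalDegrees.associated_sub_one_pow_natCast (A := O) (p := p)
    (k := 0) (ζ := ζ) (by simpa using hζ)
  have h2 := (IsDiscreteValuationRing.addVal_eq_iff_associated _ _).2 h
  rw [IsDiscreteValuationRing.addVal_pow, hε, addVal_eq_of_span_eq_pow hpe, pow_zero, one_mul,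
    nsmul_eq_mul] at h2
  exact_mod_cast h2

omit [IsDomain O] [IsDiscreteValuationRing O] in
/-- `addVal_apply_sub_typeI` with `v(y) = Y` arbitrary. -/
theorem addVal_apply_sub_typeI' (σ : D ≃ₐ[O] D) {z y c δ : D} {a b I Y P : ℕ}
    (hzi : addVal D z = I) (hy : addVal D y = Y) (hzy : z ^ a = c ^ b * y)
    (hc : σ c = c) (hc0 : c ≠ 0) (ha : IsUnit (a : D))
    (hσz : σ z = z + δ) (hδ : addVal D δ = P) (hIP : I < P) :
    addVal D (σ y - y) + I = P + Y := by
  have hdvd : z ∣ δ := by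
    rw [← IsDiscreteValuationRing.addVal_le_iff_dvd, hzi, hδ]
    exact_mod_cast hIP.le
  obtain ⟨ε', hε'⟩ := hdvd
  have hδ0 : δ ≠ 0 := by
    rintro rfl
    rw [IsDiscreteValuationRing.addVal_zero] at hδ
    exact ENat.top_ne_natCast _ hδ
  have hε'0 : ε' ≠ 0 := by
    rintro rfl
    exact hδ0 (by rw [hε', mul_zero])
  obtain ⟨k, hk⟩ := exists_addVal_eq hε'0
  have hPk : P = I + k := by
    rw [hε', IsDiscreteValuationRing.addVal_mul, hzi, hk] at hδ
    exact_mod_cast hδ.symm
  have hk1 : 1 ≤ k := by omega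
  have hε'm : ε' ∈ maximalIdeal D :=
    mem_maximalIdeal_iff_one_le_addVal.2 (by rw [hk]; exact_mod_cast hk1)
  have hσy : σ y = y * (1 + ε') ^ a := by
    have h1 : σ (z ^ a) = c ^ b * σ y := by rw [hzy, map_mul, map_pow, hc]
    have h2 : σ (z ^ a) = c ^ b * (y * (1 + ε') ^ a) := by
      rw [map_pow, hσz, hε', ← mul_assoc, ← hzy, ← mul_pow]
      ring
    exact mul_left_cancel₀ (pow_ne_zero b hc0) (h1.symm.trans h2)
  set G : D := ∑ j ∈ Finset.range a, (1 + ε') ^ j with hG
  have hgeom : G * ε' = (1 + ε') ^ a - 1 := by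
    have := geom_sum_mul (1 + ε') a
    rwa [add_sub_cancel_left] at this
  have hGa : G - (a : D) ∈ maximalIdeal D := by
    have h1 : G - (a : D) = ∑ j ∈ Finset.range a, ((1 + ε') ^ j - 1) := by
      rw [Finset.sum_sub_distrib, Finset.sum_const, Finset.card_range, nsmul_eq_mul, mul_one]
    rw [h1]
    refine Ideal.sum_mem _ fun j _ => ?_
    have h2 : (1 + ε') - 1 ∣ (1 + ε') ^ j - 1 ^ j := sub_dvd_pow_sub_pow (1 + ε') 1 j
    rw [add_sub_cancel_left, one_pow] at h2
    obtain ⟨t, ht⟩ := h2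
    rw [ht]
    exact Ideal.mul_mem_right _ _ hε'm
  have hGu : IsUnit G := by
    by_contra hn
    have hGm : G ∈ maximalIdeal D := (mem_maximalIdeal _).2 hn
    have : (a : D) ∈ maximalIdeal D := by
      have := Ideal.sub_mem _ hGm hGa
      rwa [sub_sub_cancel] at this
    exact (mem_maximalIdeal _).1 this ha
  have hfin : σ y - y = y * (G * ε') := by rw [hσy, hgeom]; ring
  rw [hfin, IsDiscreteValuationRing.addVal_mul, IsDiscreteValuationRing.addVal_mul, hy, hk,
    IsDiscreteValuationRing.addVal_eq_zero_iff.2 hGu, hPk]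
  push_cast
  ring

omit [IsDomain O] [IsDiscreteValuationRing O] in
/-- `addVal_apply_sub_type0` with `v(y)` arbitrary. -/
theorem addVal_apply_sub_type0' (σ : D ≃ₐ[O] D) {x y c ζD : D} {a b k : ℕ}
    (hxy : x ^ a = c ^ b * y) (hc : σ c = c) (hc0 : c ≠ 0)
    (hζD : IsPrimitiveRoot ζD p) (hk : Nat.Coprime k p) (ha : Nat.Coprime a p)
    (hσx : σ x = ζD ^ k * x) :
    addVal D (σ y - y) = addVal D (ζD - 1) + addVal D y := by
  have hσy : σ y = ζD ^ (k * a) * y := by
    have h1 : σ (x ^ a) = c ^ b * σ y := by rw [hxy, map_mul, map_pow, hc]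
    have h2 : σ (x ^ a) = c ^ b * (ζD ^ (k * a) * y) := by
      rw [map_pow, hσx, mul_pow, hxy, ← pow_mul]
      ring
    exact mul_left_cancel₀ (pow_ne_zero b hc0) (h1.symm.trans h2)
  have hassoc : Associated (ζD - 1) (ζD ^ (k * a) - 1) :=
    hζD.associated_sub_one_pow_sub_one_of_coprime (Nat.Coprime.mul_left hk ha)
  have hfin : σ y - y = (ζD ^ (k * a) - 1) * y := by rw [hσy]; ring
  rw [hfin, IsDiscreteValuationRing.addVal_mul,
    (IsDiscreteValuationRing.addVal_eq_iff_associated _ _).2 hassoc]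

include hp hpe in
/-- **Ring-level engine, type (i).**  `D` a DVR over `O` with `𝔪_O D = 𝔪_D ^ E'`;
`x ∈ Dˣ`, `x ^ p ∈ O`, `v_D(x - 1) = I < E' · v_O(ζ - 1)`, and `(x - 1) ^ a = π ^ b · y` with
`π ∈ O`, `p ∤ a`.  For every `O`-automorphism `σ` of `D` moving `x`:
`v_D(σ y - y) + I = E' · v_O(ζ - 1) + v_D(y)`. -/
theorem typeI_break {E' : ℕ} (hE0 : E' ≠ 0)
    (hE : (maximalIdeal O).map (algebraMap O D) = maximalIdeal D ^ E') (he1 : 1 ≤ e)
    (ζ : O) (hζ : IsPrimitiveRoot ζ p) (w' : O) (x y : D) (hx : x ^ p = algebraMap O D w')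
    (hxu : IsUnit x) {I Y a b : ℕ} (hz : addVal D (x - 1) = I) (hy : addVal D y = Y)
    (π : O) (hπ0 : π ≠ 0) (hzy : (x - 1) ^ a = (algebraMap O D π) ^ b * y) (hpa : ¬ p ∣ a)
    (hI : ∀ ε : ℕ, addVal O (ζ - 1) = ε → I < E' * ε)
    (σ : D ≃ₐ[O] D) (hσx : σ x ≠ x) :
    addVal D (σ y - y) + I = E' * addVal O (ζ - 1) + Y := by
  have hp0 : p ≠ 0 := hp.ne_zero
  have hinj := algebraMap_injective_of_map_eq_pow hE0 hE
  have hζD : IsPrimitiveRoot (algebraMap O D ζ) p := hζ.map_of_injective hinj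
  have hx0 : x ≠ 0 := hxu.ne_zero
  have hσp : (σ x) ^ p = x ^ p := by rw [← map_pow, hx, σ.commutes]
  obtain ⟨k, hk, hσxk⟩ := exists_pow_mul_eq hp σ hx0 hσp hσx hζD
  obtain ⟨ε, hε, hεe⟩ := addVal_sub_one_of_isPrimitiveRoot' hp hpe ζ hζ
  have hδval : addVal D ((algebraMap O D ζ ^ k - 1) * x) = (E' * ε : ℕ) := by
    rw [IsDiscreteValuationRing.addVal_mul, IsDiscreteValuationRing.addVal_eq_zero_iff.2 hxu,
      add_zero]
    have h1 := hζD.associated_sub_one_pow_sub_one_of_coprime hk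
    rw [← (IsDiscreteValuationRing.addVal_eq_iff_associated _ _).2 h1]
    have h2 : algebraMap O D ζ - 1 = algebraMap O D (ζ - 1) := by rw [map_sub, map_one]
    rw [h2, addVal_algebraMap hE0 hE, hε]
    norm_cast
  have hσz : σ (x - 1) = (x - 1) + (algebraMap O D ζ ^ k - 1) * x := by
    rw [map_sub, map_one, hσxk]
    ring
  have hpD : (p : D) ∈ maximalIdeal D := by
    rw [mem_maximalIdeal_iff_one_le_addVal, addVal_natCast_prime hpe hE0 hE]
    have : 1 ≤ E' * e := Nat.one_le_iff_ne_zero.2 (Nat.mul_ne_zero hE0 (by omega))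
    exact_mod_cast this
  have ha : IsUnit (a : D) := isUnit_natCast_of_not_dvd hp hpD hpa
  have hc0 : algebraMap O D π ≠ 0 := fun h => hπ0 (hinj (by rw [h, map_zero]))
  have hcσ : σ (algebraMap O D π) = algebraMap O D π := σ.commutes π
  have hmain := addVal_apply_sub_typeI' σ hz hy hzy hcσ hc0 ha hσz hδval (hI ε hε)
  rw [hmain, hε]
  push_cast
  ring

include hp in
/-- **Ring-level engine, type (0).**  `x ^ p ∈ O`, `x ^ a = π ^ b · y`, `p ∤ a`: for every
`O`-automorphism `σ` of `D` moving `x`: `v_D(σ y - y) = E' · v_O(ζ - 1) + v_D(y)`. -/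
theorem type0_break {E' : ℕ} (hE0 : E' ≠ 0)
    (hE : (maximalIdeal O).map (algebraMap O D) = maximalIdeal D ^ E')
    (ζ : O) (hζ : IsPrimitiveRoot ζ p) (w' : O) (x y : D) (hx : x ^ p = algebraMap O D w')
    (hx0 : x ≠ 0) {a b : ℕ} (π : O) (hπ0 : π ≠ 0)
    (hxy : x ^ a = (algebraMap O D π) ^ b * y) (hpa : ¬ p ∣ a)
    (σ : D ≃ₐ[O] D) (hσx : σ x ≠ x) :
    addVal D (σ y - y) = E' * addVal O (ζ - 1) + addVal D y := by
  have hinj := algebraMap_injective_of_map_eq_pow hE0 hE
  have hζD : IsPrimitiveRoot (algebraMap O D ζ) p := hζ.map_of_injective hinj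
  have hσp : (σ x) ^ p = x ^ p := by rw [← map_pow, hx, σ.commutes]
  obtain ⟨k, hk, hσxk⟩ := exists_pow_mul_eq hp σ hx0 hσp hσx hζD
  have hc0 : algebraMap O D π ≠ 0 := fun h => hπ0 (hinj (by rw [h, map_zero]))
  have hcσ : σ (algebraMap O D π) = algebraMap O D π := σ.commutes π
  have hacop : Nat.Coprime a p := ((Nat.Prime.coprime_iff_not_dvd hp).2 hpa).symm
  have hmain := addVal_apply_sub_type0' σ hxy hcσ hc0 hζD hk hacop hσxk
  have h2 : algebraMap O D ζ - 1 = algebraMap O D (ζ - 1) := by rw [map_sub, map_one]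
  rw [hmain, h2, addVal_algebraMap hE0 hE]

end Core

section Tower

variable {O : Type*} [CommRing O] [IsDomain O] [IsDiscreteValuationRing O]
  {B : Type*} [CommRing B] [IsDomain B] [IsDiscreteValuationRing B] [Algebra O B]
  {B' : Type*} [CommRing B'] [IsDomain B'] [IsDiscreteValuationRing B'] [Algebra O B']
  [Algebra B B'] [IsScalarTower O B B']

/-- Ramification indices multiply. -/
theorem map_maximalIdeal_tower {n m : ℕ}
    (hn : (maximalIdeal O).map (algebraMap O B) = maximalIdeal B ^ n)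
    (hm : (maximalIdeal B).map (algebraMap B B') = maximalIdeal B' ^ m) :
    (maximalIdeal O).map (algebraMap O B') = maximalIdeal B' ^ (n * m) := by
  rw [IsScalarTower.algebraMap_eq O B B', ← Ideal.map_map, hn, Ideal.map_pow, hm, ← pow_mul,
    mul_comm]

end Tower

section Field

variable (O : Type*) [CommRing O] [IsDomain O] [IsDiscreteValuationRing O]
  [IsAdicComplete (maximalIdeal O) O]
  (F : Type*) [Field F] [Algebra O F] [IsFractionRing O F]
  (E : Type*) [Field E] [Algebra F E] [Algebra O E] [IsScalarTower O F E]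
  [FiniteDimensional F E] [Algebra.IsSeparable F E]
  (B : Type*) [CommRing B] [IsDomain B] [IsDiscreteValuationRing B]
  [Algebra O B] [Algebra B E] [IsScalarTower O B E] [IsIntegralClosure B O E]
  (B' : Type*) [CommRing B'] [IsDomain B'] [IsDiscreteValuationRing B'] [Algebra O B']
  [Algebra B B'] [IsScalarTower O B B']
variable {p : ℕ} (hp : p.Prime) {e : ℕ} (hpe : Ideal.span {(p : O)} = maximalIdeal O ^ e)

include hp hpe in
/-- **(B3a), type (i), intrinsic + ambient.** -/
theorem exists_uniformizer_addVal_typeI_ambient {m : ℕ} (hm0 : m ≠ 0)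
    (hm : (maximalIdeal B).map (algebraMap B B') = maximalIdeal B' ^ m)
    (ζ : O) (hζ : IsPrimitiveRoot ζ p)
    (w' : O) (i : ℕ) (hi0 : 0 < i) (hip : ¬ p ∣ i) (hie : (p - 1) * i < p * e)
    (hw' : addVal O (w' - 1) = i)
    (x : B) (hx : x ^ p = algebraMap O B w')
    (hgen : IntermediateField.adjoin F {algebraMap B E x} = ⊤) :
    Module.finrank F E = p ∧
    (maximalIdeal O).map (algebraMap O B) = maximalIdeal B ^ p ∧
    ∃ y : B, Irreducible y ∧
      (∀ σ : B ≃ₐ[O] B, σ x ≠ x →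
        ((addVal B (σ y - y) : ℕ∞) + i = p * addVal O (ζ - 1) + 1)) ∧
      (∀ σ : B' ≃ₐ[O] B', σ (algebraMap B B' x) ≠ algebraMap B B' x →
        ((addVal B' (σ (algebraMap B B' y) - algebraMap B B' y) : ℕ∞) + (m * i : ℕ) =
          (m : ℕ∞) * (p * addVal O (ζ - 1) + 1))) := by
  obtain ⟨e', he'0, he', hdvd⟩ := exists_ramification O F E B
  have hn : Module.finrank F E ≤ p := finrank_le_of_pow_eq O F E B hp.ne_zero w' x hx hgen
  have hnpos : 0 < Module.finrank F E := Module.finrank_pos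
  have hle : e' ≤ p := (Nat.le_of_dvd hnpos hdvd).trans hn
  obtain ⟨he'p, hz⟩ := core_typeI hp hpe he'0 he' hle w' i hip hie hw' x hx
  rw [he'p] at he' hdvd
  have hp0 : p ≠ 0 := hp.ne_zero
  have hfin : Module.finrank F E = p := le_antisymm hn (Nat.le_of_dvd hnpos hdvd)
  refine ⟨hfin, he', ?_⟩
  obtain ⟨π, hπ⟩ := IsDiscreteValuationRing.exists_irreducible O
  have hcval : addVal B (algebraMap O B π) = p := by
    rw [addVal_algebraMap hp0 he', IsDiscreteValuationRing.addVal_uniformizer hπ, mul_one]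
  obtain ⟨a, b, y, hpa, hab, hzy, hy⟩ := exists_uniformizer_of_addVal hp hz hip hcval
  -- units
  have hw'm : w' - 1 ∈ maximalIdeal O :=
    mem_maximalIdeal_iff_one_le_addVal.2 (by rw [hw']; exact_mod_cast hi0)
  have hw'u : IsUnit w' := by
    by_contra hn'
    have h1 : w' ∈ maximalIdeal O := (mem_maximalIdeal _).2 hn'
    have h2 : (1 : O) ∈ maximalIdeal O := by
      have := Ideal.sub_mem _ h1 hw'm
      rwa [sub_sub_cancel] at this
    exact (Ideal.ne_top_iff_one _).1 (maximalIdeal.isMaximal O).ne_top h2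
  have hxu : IsUnit x := by
    have h1 : IsUnit (x ^ p) := by rw [hx]; exact hw'u.map _
    exact (isUnit_pow_iff hp0).1 h1
  have he1 : 1 ≤ e := by
    rcases Nat.eq_zero_or_pos e with h | h
    · rw [h, mul_zero] at hie
      exact absurd hie (Nat.not_lt_zero _)
    · exact h
  have hiε : ∀ ε : ℕ, addVal O (ζ - 1) = ε → i < p * ε := by
    intro ε hε
    obtain ⟨ε', hε', hεe⟩ := addVal_sub_one_of_isPrimitiveRoot' hp hpe ζ hζ
    have : ε = ε' := by
      rw [hε] at hε'
      exact_mod_cast hε'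
    subst this
    rw [← hεe] at hie
    have h1 : (p - 1) * i < (p - 1) * (p * ε) := by
      calc (p - 1) * i < p * ((p - 1) * ε) := hie
        _ = (p - 1) * (p * ε) := by ring
    exact lt_of_mul_lt_mul_left h1 (Nat.zero_le _)
  refine ⟨y, irreducible_of_addVal_eq_one hy, fun σ hσx => ?_, fun σ hσx => ?_⟩
  · have h := typeI_break hp hpe hp0 he' he1 ζ hζ w' x y hx hxu hz hy π hπ.ne_zero hzy hpa hiε
      σ hσx
    rw [h]
    norm_cast
  · -- ambient
    have hE' := map_maximalIdeal_tower (B' := B') he' hm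
    have hE'0 : p * m ≠ 0 := Nat.mul_ne_zero hp0 hm0
    have hx' : (algebraMap B B' x) ^ p = algebraMap O B' w' := by
      rw [← map_pow, hx, ← IsScalarTower.algebraMap_apply]
    have hz' : addVal B' (algebraMap B B' x - 1) = (m * i : ℕ) := by
      have : algebraMap B B' x - 1 = algebraMap B B' (x - 1) := by rw [map_sub, map_one]
      rw [this, addVal_algebraMap hm0 hm, hz]
      norm_cast
    have hy' : addVal B' (algebraMap B B' y) = (m : ℕ) := by
      rw [addVal_algebraMap hm0 hm, hy, mul_one]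
    have hzy' : (algebraMap B B' x - 1) ^ a =
        (algebraMap O B' π) ^ b * algebraMap B B' y := by
      have : algebraMap B B' x - 1 = algebraMap B B' (x - 1) := by rw [map_sub, map_one]
      rw [this, ← map_pow, hzy, map_mul, map_pow, ← IsScalarTower.algebraMap_apply]
    have hiε' : ∀ ε : ℕ, addVal O (ζ - 1) = ε → m * i < p * m * ε := by
      intro ε hε
      have := hiε ε hε
      have hmpos : 0 < m := Nat.pos_of_ne_zero hm0
      calc m * i < m * (p * ε) := Nat.mul_lt_mul_of_pos_left this hmpos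
        _ = p * m * ε := by ring
    have h := typeI_break hp hpe hE'0 hE' he1 ζ hζ w' (algebraMap B B' x) (algebraMap B B' y)
      hx' (hxu.map _) hz' hy' π hπ.ne_zero hzy' hpa hiε' σ hσx
    rw [h]
    push_cast
    ring

include hp hpe in
/-- **(B3a), type (0), intrinsic + ambient.** -/
theorem exists_uniformizer_addVal_type0_ambient {m : ℕ} (hm0 : m ≠ 0)
    (hm : (maximalIdeal B).map (algebraMap B B') = maximalIdeal B' ^ m)
    (ζ : O) (hζ : IsPrimitiveRoot ζ p)
    (w' : O) (j : ℕ) (hpj : ¬ p ∣ j) (hw' : addVal O w' = j)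
    (x : B) (hx : x ^ p = algebraMap O B w')
    (hgen : IntermediateField.adjoin F {algebraMap B E x} = ⊤) :
    Module.finrank F E = p ∧
    (maximalIdeal O).map (algebraMap O B) = maximalIdeal B ^ p ∧
    ∃ y : B, Irreducible y ∧
      (∀ σ : B ≃ₐ[O] B, σ x ≠ x →
        (addVal B (σ y - y) : ℕ∞) = p * addVal O (ζ - 1) + 1) ∧
      (∀ σ : B' ≃ₐ[O] B', σ (algebraMap B B' x) ≠ algebraMap B B' x →
        (addVal B' (σ (algebraMap B B' y) - algebraMap B B' y) : ℕ∞) =
          (m : ℕ∞) * (p * addVal O (ζ - 1) + 1)) := by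
  obtain ⟨e', he'0, he', hdvd⟩ := exists_ramification O F E B
  have hn : Module.finrank F E ≤ p := finrank_le_of_pow_eq O F E B hp.ne_zero w' x hx hgen
  have hnpos : 0 < Module.finrank F E := Module.finrank_pos
  have hle : e' ≤ p := (Nat.le_of_dvd hnpos hdvd).trans hn
  obtain ⟨he'p, hxj⟩ := core_type0 hp he'0 he' hle w' j hpj hw' x hx
  rw [he'p] at he' hdvd
  have hp0 : p ≠ 0 := hp.ne_zero
  have hfin : Module.finrank F E = p := le_antisymm hn (Nat.le_of_dvd hnpos hdvd)
  refine ⟨hfin, he', ?_⟩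
  obtain ⟨π, hπ⟩ := IsDiscreteValuationRing.exists_irreducible O
  have hcval : addVal B (algebraMap O B π) = p := by
    rw [addVal_algebraMap hp0 he', IsDiscreteValuationRing.addVal_uniformizer hπ, mul_one]
  obtain ⟨a, b, y, hpa, hab, hxy, hy⟩ := exists_uniformizer_of_addVal hp hxj hpj hcval
  have hx0 : x ≠ 0 := by
    rintro rfl
    rw [IsDiscreteValuationRing.addVal_zero] at hxj
    exact ENat.top_ne_natCast _ hxj
  refine ⟨y, irreducible_of_addVal_eq_one hy, fun σ hσx => ?_, fun σ hσx => ?_⟩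
  · have h := type0_break hp hp0 he' ζ hζ w' x y hx hx0 π hπ.ne_zero hxy hpa σ hσx
    rw [h, hy]
  · have hE' := map_maximalIdeal_tower (B' := B') he' hm
    have hE'0 : p * m ≠ 0 := Nat.mul_ne_zero hp0 hm0
    have hinjB : Function.Injective (algebraMap B B') :=
      algebraMap_injective_of_map_eq_pow hm0 hm
    have hx' : (algebraMap B B' x) ^ p = algebraMap O B' w' := by
      rw [← map_pow, hx, ← IsScalarTower.algebraMap_apply]
    have hx0' : algebraMap B B' x ≠ 0 := fun h => hx0 (hinjB (by rw [h, map_zero]))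
    have hxy' : (algebraMap B B' x) ^ a = (algebraMap O B' π) ^ b * algebraMap B B' y := by
      rw [← map_pow, hxy, map_mul, map_pow, ← IsScalarTower.algebraMap_apply]
    have h := type0_break hp hE'0 hE' ζ hζ w' (algebraMap B B' x) (algebraMap B B' y) hx' hx0'
      π hπ.ne_zero hxy' hpa σ hσx
    rw [h, addVal_algebraMap hm0 hm, hy]
    push_cast
    ring

end Field

end Fermat.Agent.S56.Flat.KummerBound.KummerBreakAmbient
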